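import Fermat.Agent.S36.FormalLift.LatticeSection

/-!
# PROJECT V (S36), chain (V16)/(V17) (helper24): the opens of the lattice charts

The soft-core side of helper6's assembly (`NewInertiaDatum.Input`, `OpenData`) for the lattice
charts of `FormalLift/Lattice`, in his literal shapes.

* `isLocalization_awaySubring`, `isNoetherianRing_awaySubring`, `finiteType_awayIncl` :
  `𝒜[1/g] ⊆ F` is the localisation of `𝒜` at the powers of `g`;
* `exists_const_sub_mem` : Zariski's lemma at a closed point of the special fibre of an algebra of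
  finite type over a local ring with algebraically closed residue field;
* `chartEquiv`, `isNoetherianRing_ring`, `finiteType_constHom`, `isNoetherianRing_away`,
  `exists_const_sub_mem_away` : the ring of `U = {φ ≠ ∞}` is helper12's chart ring (under `hvert`,
  chain (V7)), hence noetherian and of finite type over `O`, and so are its principal opens;
* `structure VCharts` : `VInput` without the root data (`n`, `f`, `γ`, `t`): vertical valuation
  subrings, chart function, divisor, covers, valuative local generators;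
  `VCharts.charts : SoftCore.Charts`, `VCharts.localGen : SoftCore.LocalGen`, `VInput.toVCharts`;
* for every open of the two covers: `VCharts.noeth`, `VCharts.det`, `VCharts.unit_S`
  (`fE * s i ^ n` is a unit of `D(g i)` when `div fE = n D` and `fE` is a unit of every `W w`),
  `VCharts.const` (`OpenData.noeth`, `det`, `unit_mem`/`unit_inv`, `const`), and the valuative
  membership criteria `mem_S_of_local`, `mem_W_of_mem_S`, `mem_place_of_mem_S`;
* for the overlaps: `VCharts.det₂`, `det₂'`, `detmix`;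
* globally: `VCharts.finiteH1` and `VCharts.ord_ge` (a global section has `ord_v h ≥ -D v` at every
  `K`-place; helper14's `GlobalSectionBar` finishes).
-/

set_option autoImplicit false
set_option linter.style.haveILetI false

namespace Fermat.Agent.S36.Lattice

open AlgebraicCurve Fermat.Agent.S24.Ord Fermat.Agent.S18.CoreOrd Fermat.Agent.S36.FormalLift
  Fermat.Agent.S36.SoftCore Fermat.Agent.S36.SoftCoreInput Fermat.Agent.S36.ChartRing
  Fermat.Agent.S36.ChartPlaces IntermediateField Polynomial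

/-! ### `𝒜[1/g]` is a localisation -/

section Away

variable {F : Type*} [Field F]

/-- the inclusion `𝒜 → 𝒜[1/g]` -/
def awayIncl (𝒜 : Subring F) (g : F) (hg : g ∈ 𝒜) : ↥𝒜 →+* ↥(awaySubring 𝒜 g hg) :=
  Subring.inclusion (le_awaySubring 𝒜 g hg)

@[simp] theorem coe_awayIncl (𝒜 : Subring F) (g : F) (hg : g ∈ 𝒜) (a : ↥𝒜) :
    ((awayIncl 𝒜 g hg a : ↥(awaySubring 𝒜 g hg)) : F) = (a : F) := rfl

/-- `𝒜[1/g]` is the localisation of `𝒜` at the powers of `g` -/
theorem isLocalization_awaySubring (𝒜 : Subring F) {g : F} (hg : g ∈ 𝒜) (hg0 : g ≠ 0) :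
    letI : Algebra ↥𝒜 ↥(awaySubring 𝒜 g hg) := (awayIncl 𝒜 g hg).toAlgebra
    IsLocalization.Away (⟨g, hg⟩ : ↥𝒜) ↥(awaySubring 𝒜 g hg) := by
  letI : Algebra ↥𝒜 ↥(awaySubring 𝒜 g hg) := (awayIncl 𝒜 g hg).toAlgebra
  have hmap : ∀ a : ↥𝒜, ((algebraMap ↥𝒜 ↥(awaySubring 𝒜 g hg) a : ↥(awaySubring 𝒜 g hg)) : F)
      = (a : F) := fun a => rfl
  refine ⟨?_, ?_, ?_⟩
  · rintro ⟨y, k, rfl⟩
    refine isUnit_iff_exists_inv.mpr ⟨⟨(g⁻¹) ^ k, pow_mem (inv_mem_awaySubring 𝒜 hg) k⟩, ?_⟩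
    apply Subtype.ext
    rw [Subring.coe_mul, hmap, Subring.coe_one]
    change ((⟨g, hg⟩ : ↥𝒜) ^ k : ↥𝒜).1 * g⁻¹ ^ k = 1
    rw [SubmonoidClass.coe_pow, ← mul_pow, mul_inv_cancel₀ hg0, one_pow]
  · rintro ⟨z, E, hz⟩
    refine ⟨(⟨g ^ E * z, hz⟩, ⟨(⟨g, hg⟩ : ↥𝒜) ^ E, E, rfl⟩), ?_⟩
    apply Subtype.ext
    rw [Subring.coe_mul, hmap, hmap]
    change z * ((⟨g, hg⟩ : ↥𝒜) ^ E : ↥𝒜).1 = g ^ E * z
    rw [SubmonoidClass.coe_pow, mul_comm]
  · intro a b hab
    refine ⟨1, ?_⟩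
    have : (a : F) = (b : F) := by
      have := congrArg (fun z : ↥(awaySubring 𝒜 g hg) => (z : F)) hab
      simpa [hmap] using this
    rw [Subtype.ext this]

/-- `𝒜[1/g]` is noetherian when `𝒜` is -/
theorem isNoetherianRing_awaySubring (𝒜 : Subring F) [IsNoetherianRing ↥𝒜] {g : F} (hg : g ∈ 𝒜)
    (hg0 : g ≠ 0) : IsNoetherianRing ↥(awaySubring 𝒜 g hg) := by
  letI : Algebra ↥𝒜 ↥(awaySubring 𝒜 g hg) := (awayIncl 𝒜 g hg).toAlgebra
  haveI := isLocalization_awaySubring 𝒜 hg hg0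
  exact IsLocalization.isNoetherianRing (Submonoid.powers (⟨g, hg⟩ : ↥𝒜)) _ inferInstance

/-- `𝒜 → 𝒜[1/g]` is of finite type -/
theorem finiteType_awayIncl (𝒜 : Subring F) {g : F} (hg : g ∈ 𝒜) (hg0 : g ≠ 0) :
    (awayIncl 𝒜 g hg).FiniteType := by
  letI : Algebra ↥𝒜 ↥(awaySubring 𝒜 g hg) := (awayIncl 𝒜 g hg).toAlgebra
  haveI := isLocalization_awaySubring 𝒜 hg hg0
  have : Algebra.FiniteType ↥𝒜 ↥(awaySubring 𝒜 g hg) :=
    IsLocalization.finiteType_of_monoid_fg (Submonoid.powers (⟨g, hg⟩ : ↥𝒜)) _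
  exact this

end Away

/-! ### residue fields of closed points of the special fibre -/

section Zariski

/-- **Zariski's lemma at a closed point of the special fibre.**  `O` a local ring with
algebraically closed residue field, `S` an `O`-algebra of finite type, `𝔪` a maximal ideal of `S`
containing the image of the maximal ideal of `O`: every element of `S` is congruent to a constant
modulo `𝔪`. -/
theorem exists_const_sub_mem {O S : Type*} [CommRing O] [IsLocalRing O]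
    [IsAlgClosed (IsLocalRing.ResidueField O)] [CommRing S] (f : O →+* S) (hf : f.FiniteType)
    (𝔪 : Ideal S) [h𝔪 : 𝔪.IsMaximal] (hm : ∀ c ∈ IsLocalRing.maximalIdeal O, f c ∈ 𝔪) (u : S) :
    ∃ c : O, u - f c ∈ 𝔪 := by
  letI := Ideal.Quotient.field 𝔪
  let q : S →+* S ⧸ 𝔪 := Ideal.Quotient.mk 𝔪
  have hq : Function.Surjective q := Ideal.Quotient.mk_surjective
  have hqf : (q.comp f).FiniteType := hf.comp_surjective hq
  -- factor through the residue field
  let fbar : IsLocalRing.ResidueField O →+* S ⧸ 𝔪 :=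
    Ideal.Quotient.lift (IsLocalRing.maximalIdeal O) (q.comp f) (fun c hc => by
      rw [RingHom.comp_apply]
      exact Ideal.Quotient.eq_zero_iff_mem.2 (hm c hc))
  have hfac : fbar.comp (IsLocalRing.residue O) = q.comp f := by
    ext c
    rfl
  have hfbar : fbar.FiniteType := by
    have : (fbar.comp (IsLocalRing.residue O)).FiniteType := by rw [hfac]; exact hqf
    exact RingHom.FiniteType.of_comp_finiteType this
  letI : Algebra (IsLocalRing.ResidueField O) (S ⧸ 𝔪) := fbar.toAlgebra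
  have hft : Algebra.FiniteType (IsLocalRing.ResidueField O) (S ⧸ 𝔪) := hfbar
  have hfin : Module.Finite (IsLocalRing.ResidueField O) (S ⧸ 𝔪) :=
    finite_of_finite_type_of_isJacobsonRing _ _
  have hint : Algebra.IsIntegral (IsLocalRing.ResidueField O) (S ⧸ 𝔪) :=
    Algebra.IsIntegral.of_finite _ _
  obtain ⟨cbar, hcbar⟩ :=
    (IsAlgClosed.algebraMap_bijective_of_isIntegral
      (k := IsLocalRing.ResidueField O) (K := S ⧸ 𝔪)).2 (q u)
  obtain ⟨c, rfl⟩ := IsLocalRing.residue_surjective cbar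
  refine ⟨c, ?_⟩
  have h1 : q (f c) = q u := by
    rw [← hcbar]
    rfl
  rw [← Ideal.Quotient.eq_zero_iff_mem, map_sub]
  change q u - q (f c) = 0
  rw [h1, sub_self]

end Zariski

/-! ### the chart ring and its opens: noetherian, of finite type over `O` -/

section ChartRing

variable {O : Type*} [CommRing O] [IsDomain O] [IsDiscreteValuationRing O] {K : Type*} [Field K]
  [Algebra O K] [IsFractionRing O K] [CharZero K] {F : Type*} [Field F] [Algebra K F]
  [Algebra O F] [IsScalarTower O K F]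
  (Vert : Set (ValuationSubring F)) (hO : ∀ W ∈ Vert, ∀ c : O, algebraMap O F c ∈ W)

/-- the constants, as a ring homomorphism into the ring of an open -/
def constHom (S : Set (Place K F)) : O →+* ↥(ring Vert S) :=
  (algebraMap O F).codRestrict (ring Vert S) (algebraMap_mem_ring Vert hO S)

omit [IsDomain O] [IsDiscreteValuationRing O] [IsFractionRing O K] [CharZero K] in
@[simp] theorem coe_constHom (S : Set (Place K F)) (c : O) :
    ((constHom Vert hO S c : ↥(ring Vert S)) : F) = algebraMap O F c := rfl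

variable {π : O} (hπ : Irreducible π) {φ : F} (hφ : Transcendental K φ)
  [FiniteDimensional K⟮φ⟯ F]
  (hvert : ∀ W : ValuationSubring F, (∀ c : O, algebraMap O F c ∈ W) → φ ∈ W →
    (algebraMap O F π)⁻¹ ∉ W →
    (∀ s : O[X], (∃ i, IsUnit (s.coeff i)) → (aeval φ s)⁻¹ ∈ W) → W ∈ Vert)
  (hφV : ∀ W ∈ Vert, φ ∈ W)

/-- **the ring of `U = {φ ≠ ∞}` is helper12's chart ring** -/
def chartEquiv : ↥(chart O φ) ≃+* ↥(ring Vert (finiteAt (K := K) φ)) where
  toFun x := ⟨x, chart_le_ring Vert hO hφV x.2⟩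
  invFun y := ⟨y, ring_le_chart Vert hπ hφ hvert y.2⟩
  left_inv _ := rfl
  right_inv _ := rfl
  map_mul' _ _ := rfl
  map_add' _ _ := rfl

include hO hπ hφ hvert hφV in
/-- the ring of `U = {φ ≠ ∞}` is noetherian -/
theorem isNoetherianRing_ring : IsNoetherianRing ↥(ring Vert (finiteAt (K := K) φ)) := by
  have := chart_isNoetherianRing (O := O) (K := K) hφ
  exact isNoetherianRing_of_ringEquiv _ (chartEquiv Vert hO hπ hφ hvert hφV)

include hπ hφ hvert hφV in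
/-- the ring of `U = {φ ≠ ∞}` is an `O`-algebra of finite type -/
theorem finiteType_constHom : (constHom Vert hO (finiteAt (K := K) φ)).FiniteType := by
  have h1 : (algebraMap O (Algebra.adjoin O ({φ} : Set F))).FiniteType :=
    RingHom.finiteType_algebraMap.2 (Algebra.FiniteType.adjoin_of_finite (Set.finite_singleton φ))
  have h2 : (algebraMap (Algebra.adjoin O ({φ} : Set F)) (chart O φ)).FiniteType := by
    have := chart_finite (O := O) (K := K) hφ
    exact RingHom.finiteType_algebraMap.2 inferInstance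
  have h3 : ((chartEquiv Vert hO hπ hφ hvert hφV).toRingHom).FiniteType :=
    RingHom.FiniteType.of_surjective _ (chartEquiv Vert hO hπ hφ hvert hφV).surjective
  have hcomp : constHom Vert hO (finiteAt (K := K) φ) =
      ((chartEquiv Vert hO hπ hφ hvert hφV).toRingHom).comp
        ((algebraMap (Algebra.adjoin O ({φ} : Set F)) (chart O φ)).comp
          (algebraMap O (Algebra.adjoin O ({φ} : Set F)))) := by
    ext c
    rfl
  rw [hcomp]
  exact h3.comp (h2.comp h1)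

include hO hπ hφ hvert hφV in
/-- the ring of a principal open of `U` is noetherian -/
theorem isNoetherianRing_away {g : F} (hg : g ∈ ring Vert (finiteAt (K := K) φ)) (hg0 : g ≠ 0) :
    IsNoetherianRing ↥(awaySubring (ring Vert (finiteAt (K := K) φ)) g hg) := by
  have := isNoetherianRing_ring Vert hO hπ hφ hvert hφV
  exact isNoetherianRing_awaySubring _ hg hg0

include hO hπ hφ hvert hφV in
/-- **the residue fields of the closed points of the special fibre of a principal open are the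
residue field of `O`**, when the latter is algebraically closed: every function is congruent to a
constant. -/
theorem exists_const_sub_mem_away [IsAlgClosed (IsLocalRing.ResidueField O)] {g : F}
    (hg : g ∈ ring Vert (finiteAt (K := K) φ)) (hg0 : g ≠ 0)
    (hπS : algebraMap O F π ∈ awaySubring (ring Vert (finiteAt (K := K) φ)) g hg)
    (𝔪 : Ideal ↥(awaySubring (ring Vert (finiteAt (K := K) φ)) g hg)) (h𝔪 : 𝔪.IsMaximal)
    (hπ𝔪 : (⟨algebraMap O F π, hπS⟩ :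
      ↥(awaySubring (ring Vert (finiteAt (K := K) φ)) g hg)) ∈ 𝔪)
    (u : ↥(awaySubring (ring Vert (finiteAt (K := K) φ)) g hg)) :
    ∃ (c : O) (hc : algebraMap O F c ∈ awaySubring (ring Vert (finiteAt (K := K) φ)) g hg),
      u - ⟨algebraMap O F c, hc⟩ ∈ 𝔪 := by
  let f : O →+* ↥(awaySubring (ring Vert (finiteAt (K := K) φ)) g hg) :=
    (awayIncl _ g hg).comp (constHom Vert hO (finiteAt (K := K) φ))
  have hf : f.FiniteType :=
    (finiteType_awayIncl _ hg hg0).comp (finiteType_constHom Vert hO hπ hφ hvert hφV)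
  have hfc : ∀ c : O, ((f c : ↥(awaySubring (ring Vert (finiteAt (K := K) φ)) g hg)) : F) =
      algebraMap O F c := fun c => rfl
  have hm : ∀ c ∈ IsLocalRing.maximalIdeal O, f c ∈ 𝔪 := by
    intro c hc
    rw [hπ.maximalIdeal_eq, Ideal.mem_span_singleton] at hc
    obtain ⟨d, rfl⟩ := hc
    rw [map_mul]
    refine 𝔪.mul_mem_right _ ?_
    have : f π = ⟨algebraMap O F π, hπS⟩ := Subtype.ext (hfc π)
    rw [this]
    exact hπ𝔪
  obtain ⟨c, hc⟩ := exists_const_sub_mem f hf 𝔪 hm u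
  refine ⟨c, (f c).2, ?_⟩
  have : (⟨algebraMap O F c, (f c).2⟩ :
      ↥(awaySubring (ring Vert (finiteAt (K := K) φ)) g hg)) = f c := Subtype.ext (hfc c).symm
  rw [this]
  exact hc

end ChartRing

/-! ### the charts and the local generators, without the root data -/

/-- `VInput` without `n`, `f`, `γ`, `t`: the vertical valuation subrings, the chart function, the
divisor, the two covers and the valuative local generators. -/
structure VCharts (O K F : Type*) [CommRing O] [Field K] [Field F] [Algebra O K] [Algebra K F]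
    [Algebra O F] [IsScalarTower O K F] (𝒲 ι ι' : Type*) where
  /-- the vertical valuation rings -/
  W : 𝒲 → ValuationSubring F
  hO : ∀ V ∈ Set.range W, ∀ c : O, algebraMap O F c ∈ V
  hrank : ∀ V ∈ Set.range W, ∀ g ∈ V, g⁻¹ ∉ V → ∀ y : F, ∃ e : ℕ, g ^ e * y ∈ V
  hfinAll : ∀ f : F, f ≠ 0 → {v : Place K F | v.ord f ≠ 0}.Finite
  /-- the uniformiser -/
  ϖ : O
  hϖ0 : algebraMap O F ϖ ≠ 0
  /-- the chart function -/
  φ : F
  hφ0 : φ ≠ 0
  hφV : ∀ V ∈ Set.range W, φ ∈ V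
  hφV' : ∀ V ∈ Set.range W, φ⁻¹ ∈ V
  /-- the divisor -/
  D : Divisor K F
  /-- principal opens covering the special fibre of `U = {φ ≠ ∞}` -/
  g : ι → ring (Set.range W) (finiteAt (K := K) φ)
  hg0 : ∀ i, (g i : F) ≠ 0
  hcover : Ideal.span (Set.range g) ⊔ Ideal.span
    {(⟨algebraMap O F ϖ, algebraMap_mem_ring (Set.range W) hO _ ϖ⟩ :
      ring (Set.range W) (finiteAt (K := K) φ))} = ⊤
  /-- principal opens covering the special fibre of `U' = {φ ≠ 0}` -/
  g' : ι' → ring (Set.range W) (finiteAt (K := K) φ⁻¹)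
  hg0' : ∀ j, (g' j : F) ≠ 0
  hcover' : Ideal.span (Set.range g') ⊔ Ideal.span
    {(⟨algebraMap O F ϖ, algebraMap_mem_ring (Set.range W) hO _ ϖ⟩ :
      ring (Set.range W) (finiteAt (K := K) φ⁻¹))} = ⊤
  /-- valuative local generators of `O(D̄)` on `D(g i)` -/
  s : ι → F
  hs0 : ∀ i, s i ≠ 0
  hsW : ∀ i, ∀ V ∈ Set.range W, (g i : F)⁻¹ ∈ V → s i ∈ V ∧ (s i)⁻¹ ∈ V
  hsv : ∀ i, ∀ v ∈ finiteAt (K := K) φ, v.ord (g i : F) = 0 → v.ord (s i) = -D v
  /-- valuative local generators of `O(D̄)` on `D(g' j)` -/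
  s' : ι' → F
  hs0' : ∀ j, s' j ≠ 0
  hsW' : ∀ j, ∀ V ∈ Set.range W, (g' j : F)⁻¹ ∈ V → s' j ∈ V ∧ (s' j)⁻¹ ∈ V
  hsv' : ∀ j, ∀ v ∈ finiteAt (K := K) φ⁻¹, v.ord (g' j : F) = 0 → v.ord (s' j) = -D v
  /-- an open of the first cover meeting the special fibre -/
  i₀ : ι
  w₀ : 𝒲
  hi₀ : (g i₀ : F)⁻¹ ∈ W w₀
  hw₀ : (algebraMap O F ϖ)⁻¹ ∉ W w₀

/-- forget the root data -/
def VInput.toVCharts {O K F : Type*} [CommRing O] [Field K] [Field F] [Algebra O K] [Algebra K F]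
    [Algebra O F] [IsScalarTower O K F] {𝒲 ι ι' : Type*} (X : VInput O K F 𝒲 ι ι') :
    VCharts O K F 𝒲 ι ι' where
  W := X.W
  hO := X.hO
  hrank := X.hrank
  hfinAll := X.hfinAll
  ϖ := X.ϖ
  hϖ0 := X.hϖ0
  φ := X.φ
  hφ0 := X.hφ0
  hφV := X.hφV
  hφV' := X.hφV'
  D := X.D
  g := X.g
  hg0 := X.hg0
  hcover := X.hcover
  g' := X.g'
  hg0' := X.hg0'
  hcover' := X.hcover'
  s := X.s
  hs0 := X.hs0
  hsW := X.hsW
  hsv := X.hsv
  s' := X.s'
  hs0' := X.hs0'
  hsW' := X.hsW'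
  hsv' := X.hsv'
  i₀ := X.i₀
  w₀ := X.w₀
  hi₀ := X.hi₀
  hw₀ := X.hw₀

namespace VCharts

section General

variable {O K F : Type*} [CommRing O] [Field K] [Field F] [Algebra O K] [Algebra K F]
  [Algebra O F] [IsScalarTower O K F] {𝒲 ι ι' : Type*} (V : VCharts O K F 𝒲 ι ι')

/-- the two-chart model of `O(D̄)` -/
def charts : Charts O F ι ι' :=
  Lattice.charts (Set.range V.W) V.hO V.hφ0 V.hφV V.hφV' (V.hfinAll V.φ V.hφ0) (fun v => V.D v)
    V.ϖ V.hϖ0 V.g V.hcover V.g' V.hcover'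

@[simp] theorem charts_ϖF : V.charts.ϖF = algebraMap O F V.ϖ := rfl

@[simp] theorem charts_φ : V.charts.φ = V.φ := rfl

theorem charts_S (i : ι) :
    V.charts.S i = awaySubring (ring (Set.range V.W) (finiteAt (K := K) V.φ)) (V.g i) (V.g i).2 :=
  rfl

theorem charts_S' (j : ι') :
    V.charts.S' j =
      awaySubring (ring (Set.range V.W) (finiteAt (K := K) V.φ⁻¹)) (V.g' j) (V.g' j).2 :=
  rfl

/-- **the end of the soft core**: a global section has `ord_v h ≥ -D v` at every `K`-place -/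
theorem ord_ge {h : F} (hh0 : h ≠ 0) (h1 : h ∈ V.charts.LU) (h2 : h ∈ V.charts.LU')
    (v : Place K F) : -V.D v ≤ v.ord h :=
  ord_ge_of_mem_lat_inf (Set.range V.W) V.hO (fun v => V.D v) V.φ hh0 h1 h2 v

variable [Fintype 𝒲]

/-- the local generators -/
def localGen : LocalGen V.charts where
  s := V.s
  hs0 := V.hs0
  hs_mem := fun i =>
    (localGen_fields (Set.range V.W) V.hO (Set.finite_range V.W) V.hrank (fun v => V.D v) _
      (V.g i).2 (V.hg0 i) (V.hfinAll _ (V.hg0 i)) (V.hs0 i) (V.hsW i) (V.hsv i)).1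
  hs_gen := fun i =>
    (localGen_fields (Set.range V.W) V.hO (Set.finite_range V.W) V.hrank (fun v => V.D v) _
      (V.g i).2 (V.hg0 i) (V.hfinAll _ (V.hg0 i)) (V.hs0 i) (V.hsW i) (V.hsv i)).2
  s' := V.s'
  hs0' := V.hs0'
  hs_mem' := fun j =>
    (localGen_fields (Set.range V.W) V.hO (Set.finite_range V.W) V.hrank (fun v => V.D v) _
      (V.g' j).2 (V.hg0' j) (V.hfinAll _ (V.hg0' j)) (V.hs0' j) (V.hsW' j) (V.hsv' j)).1
  hs_gen' := fun j =>
    (localGen_fields (Set.range V.W) V.hO (Set.finite_range V.W) V.hrank (fun v => V.D v) _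
      (V.g' j).2 (V.hg0' j) (V.hfinAll _ (V.hg0' j)) (V.hs0' j) (V.hsW' j) (V.hsv' j)).2
  i₀ := V.i₀
  hi₀ := by
    intro hmem
    obtain ⟨e, he⟩ := hmem
    have h1 : (V.g V.i₀ : F) ^ e * (algebraMap O F V.ϖ)⁻¹ ∈ V.W V.w₀ := he.1 _ ⟨V.w₀, rfl⟩
    apply V.hw₀
    have h2 : (algebraMap O F V.ϖ)⁻¹ =
        ((V.g V.i₀ : F)⁻¹) ^ e * ((V.g V.i₀ : F) ^ e * (algebraMap O F V.ϖ)⁻¹) := by
      rw [← mul_assoc, ← mul_pow, inv_mul_cancel₀ (V.hg0 V.i₀), one_pow, one_mul]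
    rw [h2]
    exact (V.W V.w₀).mul_mem _ _ (pow_mem V.hi₀ e) h1

@[simp] theorem localGen_s (i : ι) : V.localGen.s i = V.s i := rfl

@[simp] theorem localGen_s' (j : ι') : V.localGen.s' j = V.s' j := rfl

/-! #### membership in the rings of the opens, valuatively -/

/-- functions on `D(g i)` -/
theorem mem_S_of_local (i : ι) {y : F} (hyW : ∀ w, (V.g i : F)⁻¹ ∈ V.W w → y ∈ V.W w)
    (hyv : ∀ v ∈ finiteAt (K := K) V.φ, v.ord (V.g i : F) = 0 → y ∈ v.toValuationSubring) :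
    y ∈ V.charts.S i :=
  mem_away_ring_of_local (Set.range V.W) V.hO (Set.finite_range V.W) V.hrank _ (V.g i).2
    (V.hg0 i) (V.hfinAll _ (V.hg0 i)) (by rintro _ ⟨w, rfl⟩ hgw; exact hyW w hgw) hyv

/-- functions on `D(g' j)` -/
theorem mem_S'_of_local (j : ι') {y : F} (hyW : ∀ w, (V.g' j : F)⁻¹ ∈ V.W w → y ∈ V.W w)
    (hyv : ∀ v ∈ finiteAt (K := K) V.φ⁻¹, v.ord (V.g' j : F) = 0 → y ∈ v.toValuationSubring) :
    y ∈ V.charts.S' j :=
  mem_away_ring_of_local (Set.range V.W) V.hO (Set.finite_range V.W) V.hrank _ (V.g' j).2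
    (V.hg0' j) (V.hfinAll _ (V.hg0' j)) (by rintro _ ⟨w, rfl⟩ hgw; exact hyW w hgw) hyv

omit [Fintype 𝒲] in
/-- a function on `D(g i)` is integral at the vertical valuations meeting `D(g i)` -/
theorem mem_W_of_mem_S (i : ι) {y : F} (hy : y ∈ V.charts.S i) (w : 𝒲)
    (hw : (V.g i : F)⁻¹ ∈ V.W w) : y ∈ V.W w := by
  obtain ⟨e, he⟩ := hy
  have h1 : (V.g i : F) ^ e * y ∈ V.W w := he.1 _ ⟨w, rfl⟩
  have h2 : y = ((V.g i : F)⁻¹) ^ e * ((V.g i : F) ^ e * y) := by
    rw [← mul_assoc, ← mul_pow, inv_mul_cancel₀ (V.hg0 i), one_pow, one_mul]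
  rw [h2]
  exact (V.W w).mul_mem _ _ (pow_mem hw e) h1

omit [Fintype 𝒲] in
/-- a function on `D(g i)` is integral at the horizontal places meeting `D(g i)` -/
theorem mem_place_of_mem_S (i : ι) {y : F} (hy : y ∈ V.charts.S i) (v : Place K F)
    (hv : v ∈ finiteAt (K := K) V.φ) (h0 : v.ord (V.g i : F) = 0) :
    y ∈ v.toValuationSubring := by
  obtain ⟨e, he⟩ := hy
  have h1 : (V.g i : F) ^ e * y ∈ v.toValuationSubring := he.2 v hv
  have hginv : (V.g i : F)⁻¹ ∈ v.toValuationSubring := by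
    rw [mem_iff_ord v (inv_ne_zero (V.hg0 i)), v.ord_inv, h0, neg_zero]
  have h2 : y = ((V.g i : F)⁻¹) ^ e * ((V.g i : F) ^ e * y) := by
    rw [← mul_assoc, ← mul_pow, inv_mul_cancel₀ (V.hg0 i), one_pow, one_mul]
  rw [h2]
  exact v.toValuationSubring.mul_mem _ _ (pow_mem hginv e) h1

omit [Fintype 𝒲] in
/-- a function on `D(g' j)` is integral at the vertical valuations meeting `D(g' j)` -/
theorem mem_W_of_mem_S' (j : ι') {y : F} (hy : y ∈ V.charts.S' j) (w : 𝒲)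
    (hw : (V.g' j : F)⁻¹ ∈ V.W w) : y ∈ V.W w := by
  obtain ⟨e, he⟩ := hy
  have h1 : (V.g' j : F) ^ e * y ∈ V.W w := he.1 _ ⟨w, rfl⟩
  have h2 : y = ((V.g' j : F)⁻¹) ^ e * ((V.g' j : F) ^ e * y) := by
    rw [← mul_assoc, ← mul_pow, inv_mul_cancel₀ (V.hg0' j), one_pow, one_mul]
  rw [h2]
  exact (V.W w).mul_mem _ _ (pow_mem hw e) h1

omit [Fintype 𝒲] in
/-- a function on `D(g' j)` is integral at the horizontal places meeting `D(g' j)` -/
theorem mem_place_of_mem_S' (j : ι') {y : F} (hy : y ∈ V.charts.S' j) (v : Place K F)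
    (hv : v ∈ finiteAt (K := K) V.φ⁻¹) (h0 : v.ord (V.g' j : F) = 0) :
    y ∈ v.toValuationSubring := by
  obtain ⟨e, he⟩ := hy
  have h1 : (V.g' j : F) ^ e * y ∈ v.toValuationSubring := he.2 v hv
  have hginv : (V.g' j : F)⁻¹ ∈ v.toValuationSubring := by
    rw [mem_iff_ord v (inv_ne_zero (V.hg0' j)), v.ord_inv, h0, neg_zero]
  have h2 : y = ((V.g' j : F)⁻¹) ^ e * ((V.g' j : F) ^ e * y) := by
    rw [← mul_assoc, ← mul_pow, inv_mul_cancel₀ (V.hg0' j), one_pow, one_mul]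
  rw [h2]
  exact v.toValuationSubring.mul_mem _ _ (pow_mem hginv e) h1

omit [Fintype 𝒲] in
/-- the vertical valuations containing the ring of `D(g i)` are those at which `g i` is a unit -/
theorem S_le_iff (i : ι) (w : 𝒲) :
    V.charts.S i ≤ (V.W w).toSubring ↔ (V.g i : F)⁻¹ ∈ V.W w :=
  ⟨fun h => h (inv_mem_awaySubring _ (V.g i).2), fun h _ hy => V.mem_W_of_mem_S i hy w h⟩

omit [Fintype 𝒲] in
/-- the vertical valuations containing the ring of `D(g' j)` are those at which `g' j` is a unit -/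
theorem S'_le_iff (j : ι') (w : 𝒲) :
    V.charts.S' j ≤ (V.W w).toSubring ↔ (V.g' j : F)⁻¹ ∈ V.W w :=
  ⟨fun h => h (inv_mem_awaySubring _ (V.g' j).2), fun h _ hy => V.mem_W_of_mem_S' j hy w h⟩

/-! #### `fE * s ^ n` is a unit of the open -/

/-- **`OpenData.unit_mem`, `unit_inv`** : if `div fE = n D` and `fE` is a unit of every `W w`,
then `fE * s i ^ n` is a unit of the ring of `D(g i)`. -/
theorem unit_S {n : ℕ} {fE : F} (hf0 : fE ≠ 0) (hfD : ∀ v : Place K F, v.ord fE = n * V.D v)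
    (hfW : ∀ w, fE ∈ V.W w ∧ fE⁻¹ ∈ V.W w) (i : ι) :
    fE * V.s i ^ n ∈ V.charts.S i ∧ (fE * V.s i ^ n)⁻¹ ∈ V.charts.S i := by
  have hne : fE * V.s i ^ n ≠ 0 := mul_ne_zero hf0 (pow_ne_zero _ (V.hs0 i))
  have hord : ∀ v ∈ finiteAt (K := K) V.φ, v.ord (V.g i : F) = 0 →
      v.ord (fE * V.s i ^ n) = 0 := by
    intro v hv h0
    rw [v.ord_mul hf0 (pow_ne_zero _ (V.hs0 i)), ord_pow, hfD v, V.hsv i v hv h0]
    ring
  refine ⟨V.mem_S_of_local i (fun w hw => ?_) (fun v hv h0 => ?_),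
    V.mem_S_of_local i (fun w hw => ?_) (fun v hv h0 => ?_)⟩
  · exact (V.W w).mul_mem _ _ (hfW w).1 (pow_mem (V.hsW i _ ⟨w, rfl⟩ hw).1 _)
  · rw [mem_iff_ord v hne, hord v hv h0]
  · rw [mul_inv, ← inv_pow]
    exact (V.W w).mul_mem _ _ (hfW w).2 (pow_mem (V.hsW i _ ⟨w, rfl⟩ hw).2 _)
  · rw [mem_iff_ord v (inv_ne_zero hne), v.ord_inv, hord v hv h0, neg_zero]

/-- the same on the second chart -/
theorem unit_S' {n : ℕ} {fE : F} (hf0 : fE ≠ 0) (hfD : ∀ v : Place K F, v.ord fE = n * V.D v)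
    (hfW : ∀ w, fE ∈ V.W w ∧ fE⁻¹ ∈ V.W w) (j : ι') :
    fE * V.s' j ^ n ∈ V.charts.S' j ∧ (fE * V.s' j ^ n)⁻¹ ∈ V.charts.S' j := by
  have hne : fE * V.s' j ^ n ≠ 0 := mul_ne_zero hf0 (pow_ne_zero _ (V.hs0' j))
  have hord : ∀ v ∈ finiteAt (K := K) V.φ⁻¹, v.ord (V.g' j : F) = 0 →
      v.ord (fE * V.s' j ^ n) = 0 := by
    intro v hv h0
    rw [v.ord_mul hf0 (pow_ne_zero _ (V.hs0' j)), ord_pow, hfD v, V.hsv' j v hv h0]
    ring
  refine ⟨V.mem_S'_of_local j (fun w hw => ?_) (fun v hv h0 => ?_),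
    V.mem_S'_of_local j (fun w hw => ?_) (fun v hv h0 => ?_)⟩
  · exact (V.W w).mul_mem _ _ (hfW w).1 (pow_mem (V.hsW' j _ ⟨w, rfl⟩ hw).1 _)
  · rw [mem_iff_ord v hne, hord v hv h0]
  · rw [mul_inv, ← inv_pow]
    exact (V.W w).mul_mem _ _ (hfW w).2 (pow_mem (V.hsW' j _ ⟨w, rfl⟩ hw).2 _)
  · rw [mem_iff_ord v (inv_ne_zero hne), v.ord_inv, hord v hv h0, neg_zero]

/-! #### `Detects` for the five kinds of opens -/

theorem det (i : ι) : Detects V.W V.charts.ϖF (V.charts.S i) :=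
  detects_away V.W V.hO V.hrank _ (V.g i).2 (V.hg0 i) (V.hfinAll _ (V.hg0 i)) V.ϖ V.hϖ0

theorem det' (j : ι') : Detects V.W V.charts.ϖF (V.charts.S' j) :=
  detects_away V.W V.hO V.hrank _ (V.g' j).2 (V.hg0' j) (V.hfinAll _ (V.hg0' j)) V.ϖ V.hϖ0

theorem det₂ (i j : ι) : Detects V.W V.charts.ϖF (V.charts.S₂ i j) :=
  detects_away V.W V.hO V.hrank _ _ (mul_ne_zero (V.hg0 i) (V.hg0 j))
    (V.hfinAll _ (mul_ne_zero (V.hg0 i) (V.hg0 j))) V.ϖ V.hϖ0

theorem det₂' (i j : ι') : Detects V.W V.charts.ϖF (V.charts.S₂' i j) :=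
  detects_away V.W V.hO V.hrank _ _ (mul_ne_zero (V.hg0' i) (V.hg0' j))
    (V.hfinAll _ (mul_ne_zero (V.hg0' i) (V.hg0' j))) V.ϖ V.hϖ0

theorem detmix (i : ι) (j : ι') : Detects V.W V.charts.ϖF (V.charts.Smix i j) :=
  detects_away_away V.W V.hO V.hrank V.hfinAll _ _ V.hφ0 V.hφV' _
    (mul_ne_zero (V.hg0 i) (V.hg0' j)) V.ϖ V.hϖ0

end General

section DVR

variable {O : Type*} [CommRing O] [IsDomain O] [IsDiscreteValuationRing O] {K : Type*} [Field K]
  [Algebra O K] [IsFractionRing O K] [CharZero K] {F : Type*} [Field F] [Algebra K F]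
  [Algebra O F] [IsScalarTower O K F] {𝒲 ι ι' : Type*} (V : VCharts O K F 𝒲 ι ι')

/-- `H¹` is finitely generated, when the `W w` are all the Gauss valuation subrings of the chart
`U = {φ ≠ ∞}` (chain (V7)). -/
theorem finiteH1 (hϖ : Irreducible V.ϖ) (hφ : Transcendental K V.φ) [FiniteDimensional K⟮V.φ⟯ F]
    (hvert : ∀ W : ValuationSubring F, (∀ c : O, algebraMap O F c ∈ W) → V.φ ∈ W →
      (algebraMap O F V.ϖ)⁻¹ ∉ W →
      (∀ s : O[X], (∃ i, IsUnit (s.coeff i)) → (aeval V.φ s)⁻¹ ∈ W) → W ∈ Set.range V.W) :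
    V.charts.FiniteH1 := by
  refine finiteH1_charts (Set.range V.W) V.hO hϖ hφ hvert V.hφ0 V.hφV V.hφV'
    (V.hfinAll V.φ V.hφ0) (fun v => V.D v) ?_ V.ϖ V.hϖ0 V.g V.hcover V.g' V.hcover'
  refine V.D.support.finite_toSet.subset fun v hv => ?_
  rw [Finset.mem_coe, Finsupp.mem_support_iff]
  exact ne_of_gt hv.2

/-- **`OpenData.noeth`** on the first chart -/
theorem noeth (hϖ : Irreducible V.ϖ) (hφ : Transcendental K V.φ) [FiniteDimensional K⟮V.φ⟯ F]
    (hvert : ∀ W : ValuationSubring F, (∀ c : O, algebraMap O F c ∈ W) → V.φ ∈ W →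
      (algebraMap O F V.ϖ)⁻¹ ∉ W →
      (∀ s : O[X], (∃ i, IsUnit (s.coeff i)) → (aeval V.φ s)⁻¹ ∈ W) → W ∈ Set.range V.W)
    (i : ι) : IsNoetherianRing ↥(V.charts.S i) :=
  isNoetherianRing_away (Set.range V.W) V.hO hϖ hφ hvert V.hφV (V.g i).2 (V.hg0 i)

/-- **`OpenData.noeth`** on the second chart -/
theorem noeth' (hϖ : Irreducible V.ϖ) (hφ : Transcendental K V.φ⁻¹)
    [FiniteDimensional K⟮V.φ⁻¹⟯ F]
    (hvert' : ∀ W : ValuationSubring F, (∀ c : O, algebraMap O F c ∈ W) → V.φ⁻¹ ∈ W →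
      (algebraMap O F V.ϖ)⁻¹ ∉ W →
      (∀ s : O[X], (∃ i, IsUnit (s.coeff i)) → (aeval V.φ⁻¹ s)⁻¹ ∈ W) → W ∈ Set.range V.W)
    (j : ι') : IsNoetherianRing ↥(V.charts.S' j) :=
  isNoetherianRing_away (Set.range V.W) V.hO hϖ hφ hvert' V.hφV' (V.g' j).2 (V.hg0' j)

/-- **`OpenData.const`** on the first chart: the residue fields of the closed points of the special
fibre are the residue field of `O` -/
theorem const [IsAlgClosed (IsLocalRing.ResidueField O)] (hϖ : Irreducible V.ϖ)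
    (hφ : Transcendental K V.φ) [FiniteDimensional K⟮V.φ⟯ F]
    (hvert : ∀ W : ValuationSubring F, (∀ c : O, algebraMap O F c ∈ W) → V.φ ∈ W →
      (algebraMap O F V.ϖ)⁻¹ ∉ W →
      (∀ s : O[X], (∃ i, IsUnit (s.coeff i)) → (aeval V.φ s)⁻¹ ∈ W) → W ∈ Set.range V.W)
    (i : ι) (𝔪 : Ideal ↥(V.charts.S i)) (h𝔪 : 𝔪.IsMaximal)
    (hϖ𝔪 : (⟨V.charts.ϖF, V.charts.algebraMap_mem_S i V.charts.ϖ⟩ : ↥(V.charts.S i)) ∈ 𝔪)
    (u : ↥(V.charts.S i)) :
    ∃ (c : O) (hc : algebraMap O F c ∈ V.charts.S i), u - ⟨algebraMap O F c, hc⟩ ∈ 𝔪 :=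
  exists_const_sub_mem_away (Set.range V.W) V.hO hϖ hφ hvert V.hφV (V.g i).2 (V.hg0 i)
    (V.charts.algebraMap_mem_S i V.charts.ϖ) 𝔪 h𝔪 hϖ𝔪 u

/-- **`OpenData.const`** on the second chart -/
theorem const' [IsAlgClosed (IsLocalRing.ResidueField O)] (hϖ : Irreducible V.ϖ)
    (hφ : Transcendental K V.φ⁻¹) [FiniteDimensional K⟮V.φ⁻¹⟯ F]
    (hvert' : ∀ W : ValuationSubring F, (∀ c : O, algebraMap O F c ∈ W) → V.φ⁻¹ ∈ W →
      (algebraMap O F V.ϖ)⁻¹ ∉ W →
      (∀ s : O[X], (∃ i, IsUnit (s.coeff i)) → (aeval V.φ⁻¹ s)⁻¹ ∈ W) → W ∈ Set.range V.W)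
    (j : ι') (𝔪 : Ideal ↥(V.charts.S' j)) (h𝔪 : 𝔪.IsMaximal)
    (hϖ𝔪 : (⟨V.charts.ϖF, V.charts.algebraMap_mem_S' j V.charts.ϖ⟩ : ↥(V.charts.S' j)) ∈ 𝔪)
    (u : ↥(V.charts.S' j)) :
    ∃ (c : O) (hc : algebraMap O F c ∈ V.charts.S' j), u - ⟨algebraMap O F c, hc⟩ ∈ 𝔪 :=
  exists_const_sub_mem_away (Set.range V.W) V.hO hϖ hφ hvert' V.hφV' (V.g' j).2 (V.hg0' j)
    (V.charts.algebraMap_mem_S' j V.charts.ϖ) 𝔪 h𝔪 hϖ𝔪 u

end DVR

end VCharts

end Fermat.Agent.S36.Lattice
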