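import Fermat.Agent.S36.ChartVert
import Fermat.Agent.S36.OpenLift
import Fermat.Agent.S36.FormalLift.LatticeOpen

/-!
# PROJECT V (S36), chain (V16)/(V17) (helper24): the branches through an open are separated

`OpenData.sep` of helper6's assembly for the lattice opens.

`O` a discrete valuation ring with uniformiser `π`, `K = Frac O` of characteristic zero, `φ`
transcendental over `K`, `F / K(φ)` finite; `W : 𝒲 → ValuationSubring F` injective, every `W w` of
rank one and Gauss-vertical for `φ` (helper12's `ChartVert.IsGaussVert`).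

* `isGaussVert_of_transcendental` : `IsGaussVert` from a reduction `r : W →+* κ` with kernel the
  maximal ideal, compatible with a reduction `O →+* k` of the constants, such that `r φ` is
  transcendental over `k`;
* `exists_mul_eq_of_isGaussVert` : a Gauss-vertical `W` is the localisation of the chart ring at
  its centre: every `y ∈ W` is `a / s` with `a, s` in the chart ring and `s` a unit of `W`;
* `eq_of_le_of_rank_one` : rank-one valuation subrings `≠ ⊤` are maximal;
* `separated_away` : two different `W w`, `W w'` containing the ring of `D(g)` have incomparable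
  centres on it (`OpenLift.Separated`);
* `VCharts.sep`, `VCharts.sep'` : the field `OpenData.sep` for the opens of the two covers.
-/

set_option autoImplicit false
set_option linter.style.haveILetI false

namespace Fermat.Agent.S36.Lattice

open AlgebraicCurve Fermat.Agent.S36.FormalLift Fermat.Agent.S36.SoftCore
  Fermat.Agent.S36.ChartRing Fermat.Agent.S36.ChartVert Fermat.Agent.S36.KrullInter
  Fermat.Agent.S36.OpenLift IntermediateField Polynomial

section Gauss

variable {O : Type*} [CommRing O] {F : Type*} [Field F] [Algebra O F]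

/-- a nonzero element of a valuation subring with valuation `1` is a unit -/
theorem inv_mem_of_not_lt (V : ValuationSubring F) {x : F} (hx : x ∈ V)
    (h : ¬ V.valuation x < 1) : x⁻¹ ∈ V := by
  have h1 : V.valuation x = 1 :=
    le_antisymm ((V.valuation_le_one_iff x).mpr hx) (not_lt.1 h)
  rw [← V.valuation_le_one_iff, map_inv₀, h1, inv_one]

/-- polynomials in an element of a valuation subring containing the constants lie in it -/
theorem aeval_mem_valuationSubring (V : ValuationSubring F)
    (hO : ∀ c : O, algebraMap O F c ∈ V) {φ : F} (hφ : φ ∈ V) (p : O[X]) : aeval φ p ∈ V := by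
  let Valg : Subalgebra O F := { V.toSubring.toSubsemiring with algebraMap_mem' := hO }
  have h2 : ((aeval (⟨φ, hφ⟩ : Valg) p : Valg) : F) = aeval φ p := by
    rw [← Subalgebra.aeval_coe]
  rw [← h2]
  exact (aeval (⟨φ, hφ⟩ : Valg) p).2

/-- **`IsGaussVert` from a transcendental reduction of `φ`.**  `r : V →+* κ` with kernel the
maximal ideal, compatible with a reduction `red : O →+* k` of the constants; if `r φ` is
transcendental over `k`, every primitive polynomial in `φ` is a unit of `V`. -/
theorem isGaussVert_of_transcendental {π : O} {φ : F} (V : ValuationSubring F)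
    (hO : ∀ c : O, algebraMap O F c ∈ V) (hφ : φ ∈ V) (hπ : (algebraMap O F π)⁻¹ ∉ V)
    {k κ : Type*} [Field k] [Field κ] [Algebra k κ] (r : ↥V →+* κ)
    (hr : ∀ x : ↥V, r x = 0 ↔ V.valuation (x : F) < 1) (red : O →+* k)
    (hred : ∀ c : O, r ⟨algebraMap O F c, hO c⟩ = algebraMap k κ (red c))
    (htr : Transcendental k (r ⟨φ, hφ⟩)) : IsGaussVert π φ V := by
  refine ⟨hO, hφ, hπ, fun s hs => ?_⟩
  have hmem : ∀ p : O[X], aeval φ p ∈ V := aeval_mem_valuationSubring V hO hφ
  refine inv_mem_of_not_lt V (hmem s) fun hlt => ?_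
  -- the reduction of `aeval φ p` is `aeval (r φ) (p.map red)`
  have hkey : ∀ p : O[X], r ⟨aeval φ p, hmem p⟩ = aeval (r ⟨φ, hφ⟩) (p.map red) := by
    intro p
    induction p using Polynomial.induction_on' with
    | add p q hp hq =>
      have : (⟨aeval φ (p + q), hmem (p + q)⟩ : ↥V) =
          ⟨aeval φ p, hmem p⟩ + ⟨aeval φ q, hmem q⟩ := by
        apply Subtype.ext
        simp
      rw [this, map_add, hp, hq, Polynomial.map_add, map_add]
    | monomial n c =>
      have : (⟨aeval φ (monomial n c), hmem _⟩ : ↥V) =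
          ⟨algebraMap O F c, hO c⟩ * ⟨φ, hφ⟩ ^ n := by
        apply Subtype.ext
        simp [aeval_monomial]
      rw [this, map_mul, map_pow, hred, Polynomial.map_monomial, aeval_monomial]
  have h0 : r ⟨aeval φ s, hmem s⟩ = 0 := (hr _).2 hlt
  rw [hkey s] at h0
  -- `s.map red ≠ 0`
  obtain ⟨i, hi⟩ := hs
  have hs0 : s.map red ≠ 0 := by
    intro h
    have : (s.map red).coeff i = 0 := by rw [h, coeff_zero]
    rw [coeff_map] at this
    exact (hi.map red).ne_zero this
  exact htr ⟨s.map red, hs0, h0⟩

end Gauss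

section Rank

variable {F : Type*} [Field F]

/-- **rank-one valuation subrings are maximal** among the proper subrings: `V ≤ V'`, `V` of rank
one, `V' ≠ ⊤` imply `V' ≤ V`. -/
theorem le_of_le_of_rank_one {V V' : ValuationSubring F} (hle : V ≤ V')
    (hrank : ∀ g ∈ V, g⁻¹ ∉ V → ∀ y : F, ∃ e : ℕ, g ^ e * y ∈ V) (htop : V' ≠ ⊤) : V' ≤ V := by
  intro y hy
  by_contra hyV
  apply htop
  have hy0 : y ≠ 0 := by
    rintro rfl
    exact hyV V.zero_mem
  have hyi : y⁻¹ ∈ V := (V.mem_or_inv_mem y).resolve_left hyV
  refine SetLike.ext fun z => ⟨fun _ => ValuationSubring.mem_top z, fun _ => ?_⟩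
  obtain ⟨e, he⟩ := hrank y⁻¹ hyi (by rw [inv_inv]; exact hyV) z
  have : z = y ^ e * (y⁻¹ ^ e * z) := by
    rw [← mul_assoc, ← mul_pow, mul_inv_cancel₀ hy0, one_pow, one_mul]
  rw [this]
  exact V'.mul_mem _ _ (pow_mem hy e) (hle he)

end Rank

section Sep

variable {O : Type*} [CommRing O] [IsDomain O] [IsDiscreteValuationRing O] {K : Type*} [Field K]
  [Algebra O K] [IsFractionRing O K] [CharZero K] {F : Type*} [Field F] [Algebra K F]
  [Algebra O F] [IsScalarTower O K F]

/-- **a Gauss-vertical valuation subring is the localisation of the chart ring at its centre**: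
every `y ∈ W` is `a / s` with `a`, `s` in the chart ring and `s` a unit of `W`. -/
theorem exists_mul_eq_of_isGaussVert {π : O} (hπ : Irreducible π) {φ : F}
    (hφ : Transcendental K φ) [FiniteDimensional K⟮φ⟯ F] {W : ValuationSubring F}
    (hW : IsGaussVert π φ W) {y : F} (hy : y ∈ W) :
    ∃ s a : F, s ∈ chart O φ ∧ a ∈ chart O φ ∧ s ≠ 0 ∧ s⁻¹ ∈ W ∧ s * y = a := by
  haveI := chart_isFractionRing (O := O) (K := K) hφ
  haveI := chart_isNoetherianRing (O := O) (K := K) hφ
  haveI := chart_isIntegrallyClosed (O := O) (K := K) hφ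
  obtain ⟨Q, z, h, hWeq, hQ⟩ := exists_isCond_of_isGaussVert (K := K) hπ hφ hW
  have hy' : y ∈ h.valuationSubring := hWeq ▸ hy
  obtain ⟨s, hs, a, hsa⟩ := h.mem_valuationSubring.1 hy'
  have hsW : (s : F) ∈ W := mem_of_mem_chart s.2 W hW.base hW.gen
  have hnon : ¬ W.valuation (s : F) < 1 := fun hlt =>
    hs ((hQ s).2 ((ValuationSubring.mem_nonunits_iff W).2 hlt))
  refine ⟨(s : F), (a : F), s.2, a.2, ?_, inv_mem_of_not_lt W hsW hnon, hsa⟩
  intro h0
  apply hnon
  have : W.valuation (s : F) = 0 := by rw [h0, map_zero]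
  rw [this]
  exact zero_lt_one

variable {𝒲 : Type*} (W : 𝒲 → ValuationSubring F)

/-- **The branches through an open are separated**: two different vertical valuation subrings
containing the ring of `D(g)` have incomparable centres on it. -/
theorem separated_away {π : O} (hπ : Irreducible π) {φ : F} (hφ : Transcendental K φ)
    [FiniteDimensional K⟮φ⟯ F] (hinj : Function.Injective W)
    (hgauss : ∀ w, IsGaussVert π φ (W w))
    (hrank : ∀ V ∈ Set.range W, ∀ g ∈ V, g⁻¹ ∉ V → ∀ y : F, ∃ e : ℕ, g ^ e * y ∈ V)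
    {g : F} (hg : g ∈ ring (Set.range W) (finiteAt (K := K) φ)) :
    Separated W (awaySubring (ring (Set.range W) (finiteAt (K := K) φ)) g hg) := by
  intro w w' hw hw' hne
  by_contra hcon
  push Not at hcon
  have hO : ∀ V ∈ Set.range W, ∀ c : O, algebraMap O F c ∈ V := by
    rintro _ ⟨u, rfl⟩ c
    exact (hgauss u).base c
  have hφV : ∀ V ∈ Set.range W, φ ∈ V := by
    rintro _ ⟨u, rfl⟩
    exact (hgauss u).gen
  have hchart : ∀ x : F, x ∈ chart O φ →
      x ∈ awaySubring (ring (Set.range W) (finiteAt (K := K) φ)) g hg := fun x hx =>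
    le_awaySubring _ _ _ (chart_le_ring (Set.range W) hO hφV hx)
  -- `W w ≤ W w'`
  have hle : W w ≤ W w' := by
    intro y hy
    obtain ⟨s, a, hs, ha, hs0, hsinv, hsa⟩ := exists_mul_eq_of_isGaussVert hπ hφ (hgauss w) hy
    have hsS := hchart s hs
    have haS := hchart a ha
    have hsw' : s⁻¹ ∈ W w' := by
      refine inv_mem_of_not_lt _ (hw' hsS) fun hlt => ?_
      have h1 := hcon s hsS hlt
      have h2 : (W w).valuation s⁻¹ ≤ 1 := ((W w).valuation_le_one_iff _).mpr hsinv
      have h3 : (W w).valuation s * (W w).valuation s⁻¹ = 1 := by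
        rw [← map_mul, mul_inv_cancel₀ hs0, map_one]
      have h4 : (W w).valuation s * (W w).valuation s⁻¹ < 1 :=
        calc (W w).valuation s * (W w).valuation s⁻¹ ≤ (W w).valuation s * 1 :=
              mul_le_mul' le_rfl h2
          _ = (W w).valuation s := mul_one _
          _ < 1 := h1
      rw [h3] at h4
      exact lt_irrefl _ h4
    have : y = s⁻¹ * a := by
      rw [← hsa, ← mul_assoc, inv_mul_cancel₀ hs0, one_mul]
    rw [this]
    exact (W w').mul_mem _ _ hsw' (hw' haS)
  have htop : W w' ≠ ⊤ := fun h =>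
    (hgauss w').nonunit (h ▸ ValuationSubring.mem_top _)
  have hle' : W w' ≤ W w := le_of_le_of_rank_one hle (hrank _ ⟨w, rfl⟩) htop
  exact hne (hinj (le_antisymm hle hle'))

end Sep

namespace VCharts

variable {O : Type*} [CommRing O] [IsDomain O] [IsDiscreteValuationRing O] {K : Type*} [Field K]
  [Algebra O K] [IsFractionRing O K] [CharZero K] {F : Type*} [Field F] [Algebra K F]
  [Algebra O F] [IsScalarTower O K F] {𝒲 ι ι' : Type*} (V : VCharts O K F 𝒲 ι ι')

/-- **`OpenData.sep`** on the first chart -/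
theorem sep (hϖ : Irreducible V.ϖ) (hφ : Transcendental K V.φ) [FiniteDimensional K⟮V.φ⟯ F]
    (hinj : Function.Injective V.W) (hgauss : ∀ w, IsGaussVert V.ϖ V.φ (V.W w)) (i : ι) :
    Separated V.W (V.charts.S i) :=
  separated_away V.W hϖ hφ hinj hgauss V.hrank (V.g i).2

/-- **`OpenData.sep`** on the second chart -/
theorem sep' (hϖ : Irreducible V.ϖ) (hφ : Transcendental K V.φ⁻¹)
    [FiniteDimensional K⟮V.φ⁻¹⟯ F] (hinj : Function.Injective V.W)
    (hgauss' : ∀ w, IsGaussVert V.ϖ V.φ⁻¹ (V.W w)) (j : ι') :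
    Separated V.W (V.charts.S' j) :=
  separated_away V.W hϖ hφ hinj hgauss' V.hrank (V.g' j).2

end VCharts

end Fermat.Agent.S36.Lattice
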