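import Fermat.Agent.S36.NewInertiaDatum
import Fermat.Agent.S36.FormalLift.LatticeSep

/-!
# PROJECT V (S36), chain (V17) (helper24): `NewInertiaDatum.OpenData` for the lattice opens

One constructor per chart: helper6's `OpenData` on the open `D(g i)` of the lattice charts of a
`VCharts` whose vertical family is the family `Wof X` of a `GlueNorm.Datum`.  The fields `noeth`,
`det`, `sep`, `unit_mem`, `unit_inv`, `const` are theorems (`LatticeOpen`, `LatticeSep`); the fields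
`br` (helper26, `CompNormalAway`) and `pt` (helper1, `BranchCoreT`) are the remaining hypotheses.

* `VCharts.coe_charts_𝒜`, `VCharts.coe_charts_𝒜'` : the rings of the two charts ARE helper12's chart
  rings, as equalities of subrings of `F` (under `hvert`, chain (V7));
* `VCharts.openData`, `VCharts.openData'` : the fields `opn`, `opn'` of `NewInertiaDatum.Input`;
* `VCharts.input_det` : its fields `det₂`, `det₂'`, `detmix`.
-/

set_option autoImplicit false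
set_option linter.style.haveILetI false

namespace Fermat.Agent.S36.Lattice

open AlgebraicCurve Fermat.Agent.S36.FormalLift Fermat.Agent.S36.SoftCore
  Fermat.Agent.S36.SoftCoreInput Fermat.Agent.S36.ChartRing Fermat.Agent.S36.ChartVert
  Fermat.Agent.S36.OpenLift Fermat.Agent.S36.NewInertiaDatum Fermat.Agent.S36.GlueNorm
  IntermediateField Polynomial

namespace VCharts

variable {O : Type*} [CommRing O] [IsDomain O] [IsDiscreteValuationRing O] {K : Type*} [Field K]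
  [Algebra O K] [IsFractionRing O K] [CharZero K] {F : Type*} [Field F] [Algebra K F]
  [Algebra O F] [IsScalarTower O K F] {𝒲 ι ι' : Type*}

/-- the ring of the chart `U = {φ ≠ ∞}` is helper12's chart ring -/
theorem coe_charts_𝒜 (V : VCharts O K F 𝒲 ι ι') (hϖ : Irreducible V.ϖ)
    (hφ : Transcendental K V.φ) [FiniteDimensional K⟮V.φ⟯ F]
    (hvert : ∀ W : ValuationSubring F, (∀ c : O, algebraMap O F c ∈ W) → V.φ ∈ W →
      (algebraMap O F V.ϖ)⁻¹ ∉ W →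
      (∀ s : O[X], (∃ i, IsUnit (s.coeff i)) → (aeval V.φ s)⁻¹ ∈ W) → W ∈ Set.range V.W) :
    V.charts.𝒜 = (chart O V.φ).toSubring :=
  le_antisymm (fun _ hx => ring_le_chart (Set.range V.W) hϖ hφ hvert hx)
    (fun _ hx => chart_le_ring (Set.range V.W) V.hO V.hφV hx)

/-- the ring of the chart `U' = {φ ≠ 0}` is helper12's chart ring -/
theorem coe_charts_𝒜' (V : VCharts O K F 𝒲 ι ι') (hϖ : Irreducible V.ϖ)
    (hφ : Transcendental K V.φ⁻¹) [FiniteDimensional K⟮V.φ⁻¹⟯ F]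
    (hvert' : ∀ W : ValuationSubring F, (∀ c : O, algebraMap O F c ∈ W) → V.φ⁻¹ ∈ W →
      (algebraMap O F V.ϖ)⁻¹ ∉ W →
      (∀ s : O[X], (∃ i, IsUnit (s.coeff i)) → (aeval V.φ⁻¹ s)⁻¹ ∈ W) → W ∈ Set.range V.W) :
    V.charts.𝒜' = (chart O V.φ⁻¹).toSubring :=
  le_antisymm (fun _ hx => ring_le_chart (Set.range V.W) hϖ hφ hvert' hx)
    (fun _ hx => chart_le_ring (Set.range V.W) V.hO V.hφV' hx)

omit [IsDomain O] [IsDiscreteValuationRing O] [IsFractionRing O K] [CharZero K] in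
/-- valuation `1` at every `W w` means: a unit of every `W w` -/
theorem unit_of_val_eq_one (V : VCharts O K F 𝒲 ι ι') {fE : F}
    (hfE : ∀ w, (V.W w).valuation fE = 1) (w : 𝒲) : fE ∈ V.W w ∧ fE⁻¹ ∈ V.W w := by
  refine ⟨((V.W w).valuation_le_one_iff fE).mp (hfE w).le, ?_⟩
  rw [← (V.W w).valuation_le_one_iff, map_inv₀, hfE w, inv_one]

variable {k κ F' Pt : Type*} [Field k] [Field κ] [Algebra k κ] [Field F']
  [IsAlgClosed (IsLocalRing.ResidueField O)]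

/-- **`OpenData` on an open of the first chart.** -/
theorem openData (V : VCharts O K F Comp ι ι') (X : Datum k κ F' F Pt) (hW : V.W = Wof X)
    (π : O →+* k) (hϖ : Irreducible V.ϖ) (hφ : Transcendental K V.φ)
    [FiniteDimensional K⟮V.φ⟯ F]
    (hvert : ∀ W : ValuationSubring F, (∀ c : O, algebraMap O F c ∈ W) → V.φ ∈ W →
      (algebraMap O F V.ϖ)⁻¹ ∉ W →
      (∀ s : O[X], (∃ i, IsUnit (s.coeff i)) → (aeval V.φ s)⁻¹ ∈ W) → W ∈ Set.range V.W)
    (hinj : Function.Injective V.W) (hgauss : ∀ w, IsGaussVert V.ϖ V.φ (V.W w))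
    {n : ℕ} {fE T : F} (hf0 : fE ≠ 0) (hfD : ∀ v : Place K F, v.ord fE = n * V.D v)
    (hfE : ∀ w, (Wof X w).valuation fE = 1) (i : ι)
    (br : BranchRings (Wof X) (rof X) (V.charts.S i) n)
    (pt : ∀ 𝔪 : Ideal ↥(V.charts.S i), 𝔪.IsMaximal →
      (⟨V.charts.ϖF, V.charts.algebraMap_mem_S i V.charts.ϖ⟩ : ↥(V.charts.S i)) ∈ 𝔪 →
      (∀ (w w' : Comp) (hw : V.charts.S i ≤ (Wof X w).toSubring)
        (hw' : V.charts.S i ≤ (Wof X w').toSubring),
        RingHom.ker (resHom (V.charts.S i) (Wof X w) (rof X w) hw) ≤ 𝔪 →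
        RingHom.ker (resHom (V.charts.S i) (Wof X w') (rof X w') hw') ≤ 𝔪 → w = w') ∨
      (∃ b ∈ X.S, (∀ w : Comp, V.charts.S i ≤ (Wof X w).toSubring) ∧
        (∀ (w : Comp) (hw : V.charts.S i ≤ (Wof X w).toSubring) (u : ↥(V.charts.S i)),
          u ∈ 𝔪 ↔ X.E.val b (resHom (V.charts.S i) (Wof X w) (rof X w) hw u) 0) ∧
        ∃ u₁ u₂ : ↥(V.charts.S i), u₁ ∉ 𝔪 ∧ u₂ ∉ 𝔪 ∧
          V.localGen.s i * (u₂ : F) = (u₁ : F) * T)) :
    OpenData X π V.charts.ϖF (V.charts.S i) (V.charts.algebraMap_mem_S i V.charts.ϖ)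
      (V.localGen.s i) fE T n where
  noeth := V.noeth hϖ hφ hvert i
  det := hW ▸ V.det i
  sep := hW ▸ V.sep hϖ hφ hinj hgauss i
  br := br
  unit_mem := (V.unit_S hf0 hfD (V.unit_of_val_eq_one (by rw [hW]; exact hfE)) i).1
  unit_inv := (V.unit_S hf0 hfD (V.unit_of_val_eq_one (by rw [hW]; exact hfE)) i).2
  const := fun 𝔪 h𝔪 hϖ𝔪 u => V.const hϖ hφ hvert i 𝔪 h𝔪 hϖ𝔪 u
  pt := pt

/-- **`OpenData` on an open of the second chart.** -/
theorem openData' (V : VCharts O K F Comp ι ι') (X : Datum k κ F' F Pt) (hW : V.W = Wof X)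
    (π : O →+* k) (hϖ : Irreducible V.ϖ) (hφ : Transcendental K V.φ⁻¹)
    [FiniteDimensional K⟮V.φ⁻¹⟯ F]
    (hvert' : ∀ W : ValuationSubring F, (∀ c : O, algebraMap O F c ∈ W) → V.φ⁻¹ ∈ W →
      (algebraMap O F V.ϖ)⁻¹ ∉ W →
      (∀ s : O[X], (∃ i, IsUnit (s.coeff i)) → (aeval V.φ⁻¹ s)⁻¹ ∈ W) → W ∈ Set.range V.W)
    (hinj : Function.Injective V.W) (hgauss' : ∀ w, IsGaussVert V.ϖ V.φ⁻¹ (V.W w))
    {n : ℕ} {fE T : F} (hf0 : fE ≠ 0) (hfD : ∀ v : Place K F, v.ord fE = n * V.D v)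
    (hfE : ∀ w, (Wof X w).valuation fE = 1) (j : ι')
    (br : BranchRings (Wof X) (rof X) (V.charts.S' j) n)
    (pt : ∀ 𝔪 : Ideal ↥(V.charts.S' j), 𝔪.IsMaximal →
      (⟨V.charts.ϖF, V.charts.algebraMap_mem_S' j V.charts.ϖ⟩ : ↥(V.charts.S' j)) ∈ 𝔪 →
      (∀ (w w' : Comp) (hw : V.charts.S' j ≤ (Wof X w).toSubring)
        (hw' : V.charts.S' j ≤ (Wof X w').toSubring),
        RingHom.ker (resHom (V.charts.S' j) (Wof X w) (rof X w) hw) ≤ 𝔪 →
        RingHom.ker (resHom (V.charts.S' j) (Wof X w') (rof X w') hw') ≤ 𝔪 → w = w') ∨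
      (∃ b ∈ X.S, (∀ w : Comp, V.charts.S' j ≤ (Wof X w).toSubring) ∧
        (∀ (w : Comp) (hw : V.charts.S' j ≤ (Wof X w).toSubring) (u : ↥(V.charts.S' j)),
          u ∈ 𝔪 ↔ X.E.val b (resHom (V.charts.S' j) (Wof X w) (rof X w) hw u) 0) ∧
        ∃ u₁ u₂ : ↥(V.charts.S' j), u₁ ∉ 𝔪 ∧ u₂ ∉ 𝔪 ∧
          V.localGen.s' j * (u₂ : F) = (u₁ : F) * T)) :
    OpenData X π V.charts.ϖF (V.charts.S' j) (V.charts.algebraMap_mem_S' j V.charts.ϖ)
      (V.localGen.s' j) fE T n where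
  noeth := V.noeth' hϖ hφ hvert' j
  det := hW ▸ V.det' j
  sep := hW ▸ V.sep' hϖ hφ hinj hgauss' j
  br := br
  unit_mem := (V.unit_S' hf0 hfD (V.unit_of_val_eq_one (by rw [hW]; exact hfE)) j).1
  unit_inv := (V.unit_S' hf0 hfD (V.unit_of_val_eq_one (by rw [hW]; exact hfE)) j).2
  const := fun 𝔪 h𝔪 hϖ𝔪 u => V.const' hϖ hφ hvert' j 𝔪 h𝔪 hϖ𝔪 u
  pt := pt

omit [IsDomain O] [IsDiscreteValuationRing O] [IsFractionRing O K] [CharZero K]
  [IsAlgClosed (IsLocalRing.ResidueField O)] in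
/-- **the fields `det₂`, `det₂'`, `detmix` of `NewInertiaDatum.Input`** -/
theorem input_det (V : VCharts O K F Comp ι ι') (X : Datum k κ F' F Pt) (hW : V.W = Wof X) :
    (∀ i j, Detects (Wof X) V.charts.ϖF (V.charts.S₂ i j)) ∧
      (∀ i j, Detects (Wof X) V.charts.ϖF (V.charts.S₂' i j)) ∧
      ∀ i j, Detects (Wof X) V.charts.ϖF (V.charts.Smix i j) :=
  ⟨fun i j => hW ▸ V.det₂ i j, fun i j => hW ▸ V.det₂' i j, fun i j => hW ▸ V.detmix i j⟩

end VCharts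

end Fermat.Agent.S36.Lattice
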