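import Fermat.Agent.S36.SymChart
import Fermat.Agent.S36.ChartVert

/-!
# PROJECT V (S36), chain (V7) in the shape consumed by (V16) (helper24): the abstract composition

`hvert` of `FormalLift/LatticeFinite`, `LatticeOpen`, `LatticeOpenData` ("every Gauss-vertical
valuation subring of `F` for the chart function `φ` is one of the `W w`") from its three inputs, as
literal hypotheses:

* (S6) helper2's `SymChart.vertical_of_prod` / `vertical_of_inv_prod` : Gauss-vertical for
  `x = ∏ j` (resp. `x⁻¹`) implies Gauss-vertical for every member `j k`;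
* (U0) uniqueness of the Gauss valuation subring at the bottom level:
  `∀ V₀, IsGaussVert π j V₀ → V₀ = Og₀`;
* (ALL) exhaustiveness of the `W w` over `Og₀` along `a : F₀ →+* F` with `a j = j i₀`:
  `∀ W, W.comap a = Og₀ → W ∈ Set.range Ws`.

Exports: `IsGaussVert.comap`, `mem_range_of_isGaussVert_prod`, `mem_range_of_isGaussVert_inv_prod`,
and the two literal `hvert` shapes `hvert_prod`, `hvert_inv_prod`.
-/

set_option autoImplicit false

namespace Fermat.Agent.S36.Lattice

open Polynomial Fermat.Agent.S36.ChartVert Fermat.Agent.S36.SymChart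

section Comap

variable {O : Type*} [CommRing O] {F₀ F : Type*} [Field F₀] [Field F] [Algebra O F₀] [Algebra O F]

/-- **Gauss-verticality restricts** along a homomorphism of `O`-algebras. -/
theorem isGaussVert_comap (a : F₀ →+* F)
    (ha : ∀ c : O, a (algebraMap O F₀ c) = algebraMap O F c) {π : O} {j : F₀}
    {W : ValuationSubring F} (hW : IsGaussVert π (a j) W) : IsGaussVert π j (W.comap a) := by
  have haeval : ∀ s : O[X], a (aeval j s) = aeval (a j) s := by
    intro s
    induction s using Polynomial.induction_on' with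
    | add p q hp hq => rw [map_add, map_add, map_add, hp, hq]
    | monomial n c => rw [aeval_monomial, aeval_monomial, map_mul, map_pow, ha]
  refine ⟨fun c => ?_, ?_, fun h => ?_, fun s hs => ?_⟩
  · rw [ValuationSubring.mem_comap, ha]
    exact hW.base c
  · rw [ValuationSubring.mem_comap]
    exact hW.gen
  · rw [ValuationSubring.mem_comap, map_inv₀, ha] at h
    exact hW.nonunit h
  · rw [ValuationSubring.mem_comap, map_inv₀, haeval]
    exact hW.prim s hs

end Comap

section MV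

variable {O : Type*} [CommRing O] [IsDomain O] [IsDiscreteValuationRing O]
  {F₀ F : Type*} [Field F₀] [Field F] [Algebra O F₀] [Algebra O F]
  {ι : Type*} [Fintype ι] [DecidableEq ι] {jj : ι → F} {𝒲 : Type*}

/-- **(MV), finite chart.**  A Gauss-vertical valuation subring for `x = ∏ j` is one of the
`Ws w`. -/
theorem mem_range_of_isGaussVert_prod {π : O} (hπ : Irreducible π) (a : F₀ →+* F)
    (ha : ∀ c : O, a (algebraMap O F₀ c) = algebraMap O F c) {j : F₀} {i₀ : ι}
    (hj : a j = jj i₀)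
    (hint : ∀ i k, IsIntegral (Algebra.adjoin O ({jj i} : Set F)) (jj k))
    (htr : Transcendental O (∏ i, jj i)) {Og₀ : ValuationSubring F₀}
    (hU0 : ∀ V₀ : ValuationSubring F₀, IsGaussVert π j V₀ → V₀ = Og₀)
    (Ws : 𝒲 → ValuationSubring F)
    (hALL : ∀ W : ValuationSubring F, W.comap a = Og₀ → W ∈ Set.range Ws)
    {W : ValuationSubring F} (hW : IsGaussVert π (∏ i, jj i) W) : W ∈ Set.range Ws := by
  have hjW : jj i₀ ∈ W := mem_of_prod_mem hint W hW.base hW.gen i₀
  have hprim : ∀ s : O[X], (∃ i, IsUnit (s.coeff i)) → (aeval (jj i₀) s)⁻¹ ∈ W :=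
    vertical_of_prod W hW.base hπ hW.nonunit hint htr hW.gen hW.prim i₀
  have hW' : IsGaussVert π (a j) W := by
    rw [hj]
    exact ⟨hW.base, hjW, hW.nonunit, hprim⟩
  exact hALL W (hU0 _ (isGaussVert_comap a ha hW'))

/-- **(MV), infinite chart.**  A Gauss-vertical valuation subring for `x⁻¹ = (∏ j)⁻¹` is one of
the `Ws w`. -/
theorem mem_range_of_isGaussVert_inv_prod {π : O} (hπ : Irreducible π) (a : F₀ →+* F)
    (ha : ∀ c : O, a (algebraMap O F₀ c) = algebraMap O F c) {j : F₀} {i₀ : ι}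
    (hj : a j = jj i₀)
    (hint : ∀ i k, IsIntegral (Algebra.adjoin O ({jj i} : Set F)) (jj k))
    (htr : Transcendental O (∏ i, jj i)⁻¹) {Og₀ : ValuationSubring F₀}
    (hU0 : ∀ V₀ : ValuationSubring F₀, IsGaussVert π j V₀ → V₀ = Og₀)
    (Ws : 𝒲 → ValuationSubring F)
    (hALL : ∀ W : ValuationSubring F, W.comap a = Og₀ → W ∈ Set.range Ws)
    {W : ValuationSubring F} (hW : IsGaussVert π (∏ i, jj i)⁻¹ W) : W ∈ Set.range Ws := by
  obtain ⟨hjW, hprim⟩ :=
    vertical_of_inv_prod W hW.base hπ hW.nonunit hint htr hW.prim hW.gen i₀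
  have hW' : IsGaussVert π (a j) W := by
    rw [hj]
    exact ⟨hW.base, hjW, hW.nonunit, hprim⟩
  exact hALL W (hU0 _ (isGaussVert_comap a ha hW'))

/-- the literal `hvert` of `LatticeFinite` / `LatticeOpen` / `LatticeOpenData`, finite chart -/
theorem hvert_prod {π : O} (hπ : Irreducible π) (a : F₀ →+* F)
    (ha : ∀ c : O, a (algebraMap O F₀ c) = algebraMap O F c) {j : F₀} {i₀ : ι}
    (hj : a j = jj i₀)
    (hint : ∀ i k, IsIntegral (Algebra.adjoin O ({jj i} : Set F)) (jj k))
    (htr : Transcendental O (∏ i, jj i)) {Og₀ : ValuationSubring F₀}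
    (hU0 : ∀ V₀ : ValuationSubring F₀, IsGaussVert π j V₀ → V₀ = Og₀)
    (Ws : 𝒲 → ValuationSubring F)
    (hALL : ∀ W : ValuationSubring F, W.comap a = Og₀ → W ∈ Set.range Ws) :
    ∀ W : ValuationSubring F, (∀ c : O, algebraMap O F c ∈ W) → (∏ i, jj i) ∈ W →
      (algebraMap O F π)⁻¹ ∉ W →
      (∀ s : O[X], (∃ i, IsUnit (s.coeff i)) → (aeval (∏ i, jj i) s)⁻¹ ∈ W) →
      W ∈ Set.range Ws :=
  fun _ h1 h2 h3 h4 =>
    mem_range_of_isGaussVert_prod hπ a ha hj hint htr hU0 Ws hALL ⟨h1, h2, h3, h4⟩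

/-- the literal `hvert'` of `LatticeOpen` / `LatticeOpenData`, infinite chart -/
theorem hvert_inv_prod {π : O} (hπ : Irreducible π) (a : F₀ →+* F)
    (ha : ∀ c : O, a (algebraMap O F₀ c) = algebraMap O F c) {j : F₀} {i₀ : ι}
    (hj : a j = jj i₀)
    (hint : ∀ i k, IsIntegral (Algebra.adjoin O ({jj i} : Set F)) (jj k))
    (htr : Transcendental O (∏ i, jj i)⁻¹) {Og₀ : ValuationSubring F₀}
    (hU0 : ∀ V₀ : ValuationSubring F₀, IsGaussVert π j V₀ → V₀ = Og₀)
    (Ws : 𝒲 → ValuationSubring F)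
    (hALL : ∀ W : ValuationSubring F, W.comap a = Og₀ → W ∈ Set.range Ws) :
    ∀ W : ValuationSubring F, (∀ c : O, algebraMap O F c ∈ W) → (∏ i, jj i)⁻¹ ∈ W →
      (algebraMap O F π)⁻¹ ∉ W →
      (∀ s : O[X], (∃ i, IsUnit (s.coeff i)) → (aeval (∏ i, jj i)⁻¹ s)⁻¹ ∈ W) →
      W ∈ Set.range Ws :=
  fun _ h1 h2 h3 h4 =>
    mem_range_of_isGaussVert_inv_prod hπ a ha hj hint htr hU0 Ws hALL ⟨h1, h2, h3, h4⟩

end MV

end Fermat.Agent.S36.Lattice
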