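import Fermat.Agent.S36.CompNormalX0
import Fermat.Agent.S36.FormalLift.LatticeOpenData
import Fermat.Agent.S36.FormalLift.LatticeVert

/-!
# PROJECT V (S36), chain (V16)/(V17) (helper24): the soft-core hypotheses at `X₀`, discharged

Hypotheses first on helper21's `ThreeValX0.Hyp` (`Y`) and helper26's `CompNormalX0.Base` (`hB`):
everything the lattice charts (`FormalLift/LatticeOpen`, `LatticeSep`, `LatticeOpenData`,
`LatticeVert`) ask about the three vertical valuation subrings `W₂₀ W₁₁ W₀₂` of `F₂ = F_K(N0 q q)`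
and the chart function `x₂ = j₀ j₁ j₂`.

* `Wfam Y`, `rfam Y` : the three valuation subrings and their reductions as families indexed by
  `NewInertiaDatum.Comp`; `Wfam_injective`, `hrank_Wfam`, `rfam_eq_zero_iff`, `rfam_surjective`;
* from `hB` : `algebraMap_mem_Wfam`, `rfam_algebraMap`, `x2_mem_Wfam`, `x2_inv_mem_Wfam`,
  `exists_rfam_x2` (`r_W x₂ = J ^ e`, `e > 0`), `q_inv_not_mem_Wfam`;
* `[IsAlgClosed k]` : `transcendental_J` (from `J` not a `q`-th power), `isGaussVert_Wfam`,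
  `isGaussVert_Wfam_inv` (the hypotheses `hgauss`, `hgauss'`);
* `hvert`, `hvert'` from (U0) `∀ V₀, IsGaussVert q j V₀ → V₀ = O₀` (helper11) via
  `LatticeVert.hvert_prod` and `ThreeValX0.Hyp.exhaustive_a₀`;
* `vcharts` : the `Lattice.VCharts` at `X₀` (vertical family, uniformiser, chart function filled;
  divisor, covers, valuative local generators as data).
-/

set_option autoImplicit false
set_option linter.unusedSectionVars false
set_option linter.style.haveILetI false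

noncomputable section

namespace Fermat.Agent.S36.LatticeX0

open Polynomial Fermat.Agent.S36.PowerBasisK0 Fermat.Agent.S36.JIntegral
  Fermat.Agent.S36.CompNormalX0 Fermat.Agent.S36.NewInertiaDatum Fermat.Agent.S36.ChartVert
  Fermat.Agent.S36.Lattice

local notation "Kb" => AlgebraicClosure ℚ

variable {H : Subgroup (Kb ≃ₐ[ℚ] Kb)}
variable {N0 q : ℕ} [NeZero N0] [NeZero q] [NeZero (N0 * q)] [NeZero (N0 * q * q)]
variable {κ : Type} [Field κ] (Y : ThreeValX0.Hyp H N0 q κ)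

/-- the three vertical valuation subrings of `F₂` -/
def Wfam : Comp → ValuationSubring (FK H (N0 * q * q))
  | Comp.c20 => Y.W₂₀
  | Comp.c11 => Y.W₁₁
  | Comp.c02 => Y.W₀₂

/-- their reductions -/
def rfam : ∀ w : Comp, ↥(Wfam Y w) →+* κ
  | Comp.c20 => Y.r₂₀
  | Comp.c11 => Y.r₁₁
  | Comp.c02 => Y.r₀₂

theorem Wfam_injective : Function.Injective (Wfam Y) := by
  intro w w' h
  cases w <;> cases w' <;> first
    | rfl
    | exact absurd h Y.W₂₀_ne_W₁₁
    | exact absurd h Y.W₂₀_ne_W₀₂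
    | exact absurd h Y.W₁₁_ne_W₀₂
    | exact absurd h.symm Y.W₂₀_ne_W₁₁
    | exact absurd h.symm Y.W₂₀_ne_W₀₂
    | exact absurd h.symm Y.W₁₁_ne_W₀₂

theorem isPrincipalIdealRing_Wfam (w : Comp) : IsPrincipalIdealRing ↥(Wfam Y w) := by
  cases w
  · exact Y.isPrincipalIdealRing_W₂₀
  · exact Y.isPrincipalIdealRing_W₁₁
  · exact Y.isPrincipalIdealRing_W₀₂

/-- rank one, in the shape of `VCharts.hrank` -/
theorem hrank_Wfam : ∀ V ∈ Set.range (Wfam Y), ∀ g ∈ V, g⁻¹ ∉ V →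
    ∀ y : FK H (N0 * q * q), ∃ e : ℕ, g ^ e * y ∈ V := by
  rintro _ ⟨w, rfl⟩ g hg hg' y
  haveI := isPrincipalIdealRing_Wfam Y w
  exact hrank_of_isPrincipalIdealRing (Wfam Y w) hg hg' y

theorem rfam_eq_zero_iff (w : Comp) (z : ↥(Wfam Y w)) :
    rfam Y w z = 0 ↔ (Wfam Y w).valuation (z : FK H (N0 * q * q)) < 1 := by
  rw [← ValuationSubring.mem_nonunits_iff]
  cases w
  · exact Y.r₂₀_eq_zero_iff z
  · exact Y.r₁₁_eq_zero_iff z
  · exact Y.r₀₂_eq_zero_iff z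

theorem rfam_surjective (w : Comp) : Function.Surjective (rfam Y w) := by
  cases w
  · exact Y.r₂₀_surjective
  · exact Y.r₁₁_surjective
  · exact Y.r₀₂_surjective

/-- the residue characteristic: `π q = 0` -/
theorem π_natCast (Y : ThreeValX0.Hyp H N0 q κ) {O : Type*} [CommRing O] {k : Type*} [Field k]
    [Algebra k κ] (π : O →+* k) : π ((q : ℕ) : O) = 0 := by
  haveI := Y.charκ
  have h1 : algebraMap k κ (π ((q : ℕ) : O)) = 0 := by
    rw [map_natCast, map_natCast]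
    exact CharP.cast_eq_zero κ q
  exact (map_eq_zero_iff _ (algebraMap k κ).injective).1 h1

/-! ### consequences of `CompNormalX0.Base` -/

section Base

variable {O : Type*} [CommRing O] [Algebra O (FK H N0)] [Algebra O (FK H (N0 * q))]
  [Algebra O (FK H (N0 * q * q))] {k : Type*} [Field k] [Algebra k κ] {π : O →+* k}
  (hB : Base Y O π)

include hB

/-- a statement about every branch holds for the three members of the family -/
theorem forall_branch {P : ∀ (W : ValuationSubring (FK H (N0 * q * q))), (↥W →+* κ) → Prop}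
    (h : ∀ (W : ValuationSubring (FK H (N0 * q * q))) (r : ↥W →+* κ)
      (a : FK H N0 →+* FK H (N0 * q * q)) (i₀ : Fin 3), Branch Y O π W r a i₀ → P W r)
    (w : Comp) : P (Wfam Y w) (rfam Y w) := by
  cases w
  · exact h _ _ _ _ (branch₂₀ hB)
  · exact h _ _ _ _ (branch₁₁ hB)
  · exact h _ _ _ _ (branch₀₂ hB)

theorem algebraMap_mem_Wfam (w : Comp) (c : O) :
    algebraMap O (FK H (N0 * q * q)) c ∈ Wfam Y w :=
  forall_branch Y hB (P := fun W _ => algebraMap O (FK H (N0 * q * q)) c ∈ W)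
    (fun _ _ _ _ B => B.algebraMap_mem c) w

/-- `VCharts.hO` -/
theorem hO_Wfam : ∀ V ∈ Set.range (Wfam Y), ∀ c : O,
    algebraMap O (FK H (N0 * q * q)) c ∈ V := by
  rintro _ ⟨w, rfl⟩ c
  exact algebraMap_mem_Wfam Y hB w c

theorem rfam_algebraMap (w : Comp) (c : O) :
    rfam Y w ⟨algebraMap O (FK H (N0 * q * q)) c, algebraMap_mem_Wfam Y hB w c⟩ =
      algebraMap k κ (π c) :=
  forall_branch Y hB
    (P := fun W r => ∀ h : algebraMap O (FK H (N0 * q * q)) c ∈ W,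
      r ⟨algebraMap O (FK H (N0 * q * q)) c, h⟩ = algebraMap k κ (π c))
    (fun _ _ _ _ B _ => B.r_algebraMap c) w _

theorem x2_mem_Wfam (w : Comp) : x2 H N0 q ∈ Wfam Y w :=
  forall_branch Y hB (P := fun W _ => x2 H N0 q ∈ W) (fun _ _ _ _ B => B.x2_mem) w

theorem x2_inv_mem_Wfam (w : Comp) : (x2 H N0 q)⁻¹ ∈ Wfam Y w :=
  forall_branch Y hB (P := fun W _ => (x2 H N0 q)⁻¹ ∈ W) (fun _ _ _ _ B => B.x2_inv_mem) w

/-- `VCharts.hφV` -/
theorem hφV_Wfam : ∀ V ∈ Set.range (Wfam Y), x2 H N0 q ∈ V := by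
  rintro _ ⟨w, rfl⟩
  exact x2_mem_Wfam Y hB w

/-- `VCharts.hφV'` -/
theorem hφV'_Wfam : ∀ V ∈ Set.range (Wfam Y), (x2 H N0 q)⁻¹ ∈ V := by
  rintro _ ⟨w, rfl⟩
  exact x2_inv_mem_Wfam Y hB w

omit hB in
/-- on every branch `r_W x₂ = J ^ e` with `e > 0` -/
theorem Branch.exists_r_x2_pos {W : ValuationSubring (FK H (N0 * q * q))} {r : ↥W →+* κ}
    {a : FK H N0 →+* FK H (N0 * q * q)} {i₀ : Fin 3} (B : Branch Y O π W r a i₀) :
    ∃ e : ℕ, 0 < e ∧ r ⟨x2 H N0 q, B.x2_mem⟩ = Y.J ^ e := by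
  classical
  choose e he using fun i => B.hval i (B.jL_mem i)
  refine ⟨1 + ∑ i ∈ Finset.univ.erase i₀, e i, by omega, ?_⟩
  have h : r ⟨x2 H N0 q, B.x2_mem⟩ = ∏ i, r ⟨jL H N0 q i, B.jL_mem i⟩ := by
    rw [← map_prod]
    congr 1
  rw [h, ← Finset.mul_prod_erase Finset.univ _ (Finset.mem_univ i₀), B.r_jL_i₀,
    Finset.prod_congr rfl fun i _ => he i, Finset.prod_pow_eq_pow_sum, pow_add, pow_one]

theorem exists_rfam_x2 (w : Comp) :
    ∃ e : ℕ, 0 < e ∧ rfam Y w ⟨x2 H N0 q, x2_mem_Wfam Y hB w⟩ = Y.J ^ e :=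
  forall_branch Y hB
    (P := fun W r => ∀ h : x2 H N0 q ∈ W, ∃ e : ℕ, 0 < e ∧ r ⟨x2 H N0 q, h⟩ = Y.J ^ e)
    (fun _ _ _ _ B _ => Branch.exists_r_x2_pos Y B) w _

/-- `q` is a non-unit of the three valuation subrings -/
theorem q_inv_not_mem_Wfam (w : Comp) :
    (algebraMap O (FK H (N0 * q * q)) ((q : ℕ) : O))⁻¹ ∉ Wfam Y w := by
  intro hinv
  have hmem := algebraMap_mem_Wfam Y hB w ((q : ℕ) : O)
  have h0 : rfam Y w ⟨_, hmem⟩ = 0 := by
    rw [rfam_algebraMap Y hB w, π_natCast Y π, map_zero]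
  have hlt := (rfam_eq_zero_iff Y w _).1 h0
  have h1 : (Wfam Y w).valuation (algebraMap O (FK H (N0 * q * q)) ((q : ℕ) : O))⁻¹ ≤ 1 :=
    ((Wfam Y w).valuation_le_one_iff _).2 hinv
  have h : algebraMap O (FK H (N0 * q * q)) ((q : ℕ) : O) ≠ 0 := by
    rw [map_natCast]
    exact Nat.cast_ne_zero.2 (NeZero.ne q)
  have h2 : (Wfam Y w).valuation (algebraMap O (FK H (N0 * q * q)) ((q : ℕ) : O)) *
      (Wfam Y w).valuation (algebraMap O (FK H (N0 * q * q)) ((q : ℕ) : O))⁻¹ = 1 := by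
    rw [← map_mul, mul_inv_cancel₀ h, map_one]
  have h3 : (Wfam Y w).valuation (algebraMap O (FK H (N0 * q * q)) ((q : ℕ) : O)) *
      (Wfam Y w).valuation (algebraMap O (FK H (N0 * q * q)) ((q : ℕ) : O))⁻¹ < 1 :=
    calc _ ≤ (Wfam Y w).valuation (algebraMap O (FK H (N0 * q * q)) ((q : ℕ) : O)) * 1 :=
          mul_le_mul' le_rfl h1
      _ = _ := mul_one _
      _ < 1 := hlt
  rw [h2] at h3
  exact lt_irrefl _ h3

end Base

/-! ### `J` is transcendental over `k`; Gauss-verticality -/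

section Trans

variable {k : Type*} [Field k] [Algebra k κ] [IsAlgClosed k]

/-- an element of `κ` algebraic over the algebraically closed `k` is a constant -/
theorem exists_algebraMap_eq_of_isAlgebraic {x : κ} (hx : IsAlgebraic k x) :
    ∃ c : k, algebraMap k κ c = x := by
  have hint : IsIntegral k x := hx.isIntegral
  have hq : (minpoly k x).leadingCoeff = 1 := minpoly.monic hint
  have h : (minpoly k x).degree = 1 :=
    IsAlgClosed.degree_eq_one_of_irreducible k (minpoly.irreducible hint)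
  have h0 : aeval x (minpoly k x) = 0 := minpoly.aeval k x
  rw [eq_X_add_C_of_degree_eq_one h, hq, C_1, one_mul, aeval_add, aeval_X, aeval_C,
    add_eq_zero_iff_eq_neg] at h0
  exact ⟨-(minpoly k x).coeff 0, by rw [map_neg]; exact h0.symm⟩

/-- **`J` is transcendental over `k`**: it is not a `q`-th power in `κ`. -/
theorem transcendental_J : Transcendental k Y.J := by
  intro halg
  obtain ⟨c, hc⟩ := exists_algebraMap_eq_of_isAlgebraic (k := k) halg
  obtain ⟨d, hd⟩ := IsAlgClosed.exists_pow_nat_eq c (Nat.pos_of_ne_zero (NeZero.ne q))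
  refine Y.hJq (algebraMap k κ d) ?_
  rw [← map_pow, hd]
  exact hc

variable {O : Type*} [CommRing O] [Algebra O (FK H N0)] [Algebra O (FK H (N0 * q))]
  [Algebra O (FK H (N0 * q * q))] {π : O →+* k} (hB : Base Y O π)

include hB

theorem transcendental_rfam_x2 (w : Comp) :
    Transcendental k (rfam Y w ⟨x2 H N0 q, x2_mem_Wfam Y hB w⟩) := by
  obtain ⟨e, he, h⟩ := exists_rfam_x2 Y hB w
  rw [h]
  exact (transcendental_J Y).pow he

theorem transcendental_rfam_x2_inv (w : Comp) :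
    Transcendental k (rfam Y w ⟨(x2 H N0 q)⁻¹, x2_inv_mem_Wfam Y hB w⟩) := by
  have hmul : rfam Y w ⟨(x2 H N0 q)⁻¹, x2_inv_mem_Wfam Y hB w⟩ *
      rfam Y w ⟨x2 H N0 q, x2_mem_Wfam Y hB w⟩ = 1 := by
    rw [← map_mul]
    have : (⟨(x2 H N0 q)⁻¹, x2_inv_mem_Wfam Y hB w⟩ : ↥(Wfam Y w)) *
        ⟨x2 H N0 q, x2_mem_Wfam Y hB w⟩ = 1 := by
      apply Subtype.ext
      show (x2 H N0 q)⁻¹ * x2 H N0 q = 1
      exact inv_mul_cancel₀ (x2_ne_zero Y)
    rw [this, map_one]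
  rw [eq_inv_of_mul_eq_one_left hmul]
  intro halg
  exact transcendental_rfam_x2 Y hB w (by simpa using halg.inv)

/-- **`hgauss`** : the three valuation subrings are Gauss-vertical for `x₂` -/
theorem isGaussVert_Wfam (w : Comp) :
    IsGaussVert ((q : ℕ) : O) (x2 H N0 q) (Wfam Y w) :=
  isGaussVert_of_transcendental (Wfam Y w) (algebraMap_mem_Wfam Y hB w) (x2_mem_Wfam Y hB w)
    (q_inv_not_mem_Wfam Y hB w) (rfam Y w) (rfam_eq_zero_iff Y w) π
    (fun c => rfam_algebraMap Y hB w c) (transcendental_rfam_x2 Y hB w)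

/-- **`hgauss'`** : the three valuation subrings are Gauss-vertical for `x₂⁻¹` -/
theorem isGaussVert_Wfam_inv (w : Comp) :
    IsGaussVert ((q : ℕ) : O) (x2 H N0 q)⁻¹ (Wfam Y w) :=
  isGaussVert_of_transcendental (Wfam Y w) (algebraMap_mem_Wfam Y hB w)
    (x2_inv_mem_Wfam Y hB w) (q_inv_not_mem_Wfam Y hB w) (rfam Y w) (rfam_eq_zero_iff Y w) π
    (fun c => rfam_algebraMap Y hB w c) (transcendental_rfam_x2_inv Y hB w)

end Trans

/-! ### `hvert`, `hvert'` from the uniqueness (U0) of the bottom Gauss ring -/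

section Vert

variable {O : Type*} [CommRing O] [IsDomain O] [IsDiscreteValuationRing O]
  [Algebra O (FK H N0)] [Algebra O (FK H (N0 * q))] [Algebra O (FK H (N0 * q * q))]
  {k : Type*} [Field k] [Algebra k κ] {π : O →+* k} (hB : Base Y O π)

include hB

/-- (ALL) in the shape of `LatticeVert` -/
theorem hALL (W : ValuationSubring (FK H (N0 * q * q)))
    (h : W.comap (a₀ H N0 q) = Y.O₀) : W ∈ Set.range (Wfam Y) := by
  rcases Y.exhaustive_a₀ h with h | h | h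
  · exact ⟨Comp.c20, h.symm⟩
  · exact ⟨Comp.c11, h.symm⟩
  · exact ⟨Comp.c02, h.symm⟩

/-- **`hvert`** (chain (V7)) at `X₀`, from (U0) -/
theorem hvert (hq : Irreducible ((q : ℕ) : O))
    (htr : Transcendental O (x2 H N0 q))
    (hU0 : ∀ V₀ : ValuationSubring (FK H N0),
      IsGaussVert ((q : ℕ) : O) (j0K H N0) V₀ → V₀ = Y.O₀) :
    ∀ W : ValuationSubring (FK H (N0 * q * q)),
      (∀ c : O, algebraMap O (FK H (N0 * q * q)) c ∈ W) → x2 H N0 q ∈ W →
      (algebraMap O (FK H (N0 * q * q)) ((q : ℕ) : O))⁻¹ ∉ W →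
      (∀ s : O[X], (∃ i, IsUnit (s.coeff i)) → (aeval (x2 H N0 q) s)⁻¹ ∈ W) →
      W ∈ Set.range (Wfam Y) :=
  hvert_prod hq (a₀ H N0 q) (ha₀ hB) a₀_j0K (fun i k => jL_isIntegral H Y.prime O i k) htr hU0
    (Wfam Y) (hALL Y hB)

/-- **`hvert'`** (chain (V7)) at `X₀`, second chart, from (U0) -/
theorem hvert' (hq : Irreducible ((q : ℕ) : O))
    (htr : Transcendental O (x2 H N0 q)⁻¹)
    (hU0 : ∀ V₀ : ValuationSubring (FK H N0),
      IsGaussVert ((q : ℕ) : O) (j0K H N0) V₀ → V₀ = Y.O₀) :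
    ∀ W : ValuationSubring (FK H (N0 * q * q)),
      (∀ c : O, algebraMap O (FK H (N0 * q * q)) c ∈ W) → (x2 H N0 q)⁻¹ ∈ W →
      (algebraMap O (FK H (N0 * q * q)) ((q : ℕ) : O))⁻¹ ∉ W →
      (∀ s : O[X], (∃ i, IsUnit (s.coeff i)) → (aeval (x2 H N0 q)⁻¹ s)⁻¹ ∈ W) →
      W ∈ Set.range (Wfam Y) :=
  hvert_inv_prod hq (a₀ H N0 q) (ha₀ hB) a₀_j0K (fun i k => jL_isIntegral H Y.prime O i k) htr
    hU0 (Wfam Y) (hALL Y hB)

end Vert

/-! ### the `VCharts` at `X₀` -/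

section VChartsX0

open AlgebraicCurve

variable {O : Type*} [CommRing O] [Algebra O (FK H N0)] [Algebra O (FK H (N0 * q))]
  [Algebra O (FK H (N0 * q * q))] {k : Type*} [Field k] [Algebra k κ] {π : O →+* k}
  (hB : Base Y O π) {K : Type*} [Field K] [Algebra O K] [Algebra K (FK H (N0 * q * q))]
  [IsScalarTower O K (FK H (N0 * q * q))]

/-- **the `VCharts` at `X₀`**: vertical family `Wfam Y`, uniformiser `q`, chart function `x₂`; the
divisor, the covers and the valuative local generators (helper7's `LocalGenV` output) are the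
remaining data. -/
def vcharts {ι ι' : Type*}
    (hfinAll : ∀ f : FK H (N0 * q * q), f ≠ 0 →
      {v : Place K (FK H (N0 * q * q)) | v.ord f ≠ 0}.Finite)
    (D : Divisor K (FK H (N0 * q * q)))
    (g : ι → ring (Set.range (Wfam Y)) (finiteAt (K := K) (x2 H N0 q)))
    (hg0 : ∀ i, (g i : FK H (N0 * q * q)) ≠ 0)
    (hcover : Ideal.span (Set.range g) ⊔ Ideal.span
      {(⟨algebraMap O (FK H (N0 * q * q)) ((q : ℕ) : O),
        algebraMap_mem_ring (Set.range (Wfam Y)) (hO_Wfam Y hB) _ _⟩ :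
        ring (Set.range (Wfam Y)) (finiteAt (K := K) (x2 H N0 q)))} = ⊤)
    (g' : ι' → ring (Set.range (Wfam Y)) (finiteAt (K := K) (x2 H N0 q)⁻¹))
    (hg0' : ∀ j, (g' j : FK H (N0 * q * q)) ≠ 0)
    (hcover' : Ideal.span (Set.range g') ⊔ Ideal.span
      {(⟨algebraMap O (FK H (N0 * q * q)) ((q : ℕ) : O),
        algebraMap_mem_ring (Set.range (Wfam Y)) (hO_Wfam Y hB) _ _⟩ :
        ring (Set.range (Wfam Y)) (finiteAt (K := K) (x2 H N0 q)⁻¹))} = ⊤)
    (s : ι → FK H (N0 * q * q)) (hs0 : ∀ i, s i ≠ 0)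
    (hsW : ∀ i, ∀ V ∈ Set.range (Wfam Y), (g i : FK H (N0 * q * q))⁻¹ ∈ V →
      s i ∈ V ∧ (s i)⁻¹ ∈ V)
    (hsv : ∀ i, ∀ v ∈ finiteAt (K := K) (x2 H N0 q), v.ord (g i : FK H (N0 * q * q)) = 0 →
      v.ord (s i) = -D v)
    (s' : ι' → FK H (N0 * q * q)) (hs0' : ∀ j, s' j ≠ 0)
    (hsW' : ∀ j, ∀ V ∈ Set.range (Wfam Y), (g' j : FK H (N0 * q * q))⁻¹ ∈ V →
      s' j ∈ V ∧ (s' j)⁻¹ ∈ V)
    (hsv' : ∀ j, ∀ v ∈ finiteAt (K := K) (x2 H N0 q)⁻¹,
      v.ord (g' j : FK H (N0 * q * q)) = 0 → v.ord (s' j) = -D v)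
    (i₀ : ι) (w₀ : Comp) (hi₀ : (g i₀ : FK H (N0 * q * q))⁻¹ ∈ Wfam Y w₀) :
    VCharts O K (FK H (N0 * q * q)) Comp ι ι' where
  W := Wfam Y
  hO := hO_Wfam Y hB
  hrank := hrank_Wfam Y
  hfinAll := hfinAll
  ϖ := ((q : ℕ) : O)
  hϖ0 := by
    rw [map_natCast]
    exact Nat.cast_ne_zero.2 (NeZero.ne q)
  φ := x2 H N0 q
  hφ0 := x2_ne_zero Y
  hφV := hφV_Wfam Y hB
  hφV' := hφV'_Wfam Y hB
  D := D
  g := g
  hg0 := hg0
  hcover := hcover
  g' := g'
  hg0' := hg0'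
  hcover' := hcover'
  s := s
  hs0 := hs0
  hsW := hsW
  hsv := hsv
  s' := s'
  hs0' := hs0'
  hsW' := hsW'
  hsv' := hsv'
  i₀ := i₀
  w₀ := w₀
  hi₀ := hi₀
  hw₀ := q_inv_not_mem_Wfam Y hB w₀

end VChartsX0

end Fermat.Agent.S36.LatticeX0
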