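import Mathlib

/-!
# S36 exploration (helper24, Stage 0, design-independent algebra): cheap local factoriality

Mathlib only.  The Nakayama lemma of board #2471 (3) / #2478 (1) / #2480 (2): no regular local
rings, no Auslander-Buchsbaum.

* `isPrincipal_of_map_quotient_isPrincipal` : `y` in the Jacobson radical of `R`, `p` a finitely
  generated prime ideal with `y ∉ p` whose image in `R ⧸ (y)` is principal.  Then `p` is principal.
* `isPrincipal_of_isPrincipalIdealRing_quotient` : the same when `R ⧸ (y)` is a principal ideal
  ring (e.g. a discrete valuation ring) and `R` is noetherian.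
* `isPrincipal_of_isLocalRing` : the local form: `R` noetherian local, `y` in the maximal ideal,
  `R ⧸ (y)` a principal ideal ring: every prime ideal not containing `y` is principal.
-/

set_option autoImplicit false

namespace Fermat.Agent.S36.FormalLift

variable {R : Type*} [CommRing R]

/-- **Cheap factoriality.** -/
theorem isPrincipal_of_map_quotient_isPrincipal {y : R} (hy : y ∈ (⊥ : Ideal R).jacobson)
    (p : Ideal R) [hp : p.IsPrime] (hfg : p.FG) (hyp : y ∉ p)
    (hprin : (p.map (Ideal.Quotient.mk (Ideal.span {y}))).IsPrincipal) : p.IsPrincipal := by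
  have hsurj : Function.Surjective (Ideal.Quotient.mk (Ideal.span {y})) :=
    Ideal.Quotient.mk_surjective
  obtain ⟨gbar, hgbar⟩ := hprin
  have hgmem : gbar ∈ p.map (Ideal.Quotient.mk (Ideal.span {y})) := by
    rw [hgbar]
    exact Submodule.mem_span_singleton_self gbar
  obtain ⟨f, hfp, hf⟩ := (Ideal.mem_map_iff_of_surjective _ hsurj).mp hgmem
  refine ⟨⟨f, le_antisymm ?_ ?_⟩⟩
  · -- Nakayama
    have hle : p ≤ Ideal.span {f} ⊔ Ideal.span {y} • p := by
      intro g hg
      have hgm : Ideal.Quotient.mk (Ideal.span {y}) g ∈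
          p.map (Ideal.Quotient.mk (Ideal.span {y})) := Ideal.mem_map_of_mem _ hg
      rw [hgbar] at hgm
      obtain ⟨cbar, hc⟩ := Submodule.mem_span_singleton.mp hgm
      obtain ⟨c, rfl⟩ := hsurj cbar
      have hdiff : g - c * f ∈ Ideal.span {y} := by
        rw [← Ideal.Quotient.eq, map_mul, hf]
        exact hc.symm
      obtain ⟨b, hb⟩ := Ideal.mem_span_singleton'.mp hdiff
      have hybp : b * y ∈ p := by
        rw [hb]
        exact p.sub_mem hg (p.mul_mem_left c hfp)
      have hbp : b ∈ p := (hp.mem_or_mem hybp).resolve_right hyp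
      have hg' : g = c * f + b * y := by rw [hb]; ring
      rw [hg']
      refine Submodule.add_mem_sup (Ideal.mem_span_singleton'.mpr ⟨c, rfl⟩) ?_
      rw [mul_comm]
      exact Submodule.smul_mem_smul (Ideal.mem_span_singleton_self y) hbp
    have hJ : Ideal.span {y} ≤ (⊥ : Ideal R).jacobson := by
      rw [Ideal.span_le]
      intro z hz
      rw [Set.mem_singleton_iff] at hz
      rw [hz]
      exact hy
    exact Submodule.le_of_le_smul_of_le_jacobson_bot hfg hJ hle
  · change Ideal.span {f} ≤ p
    rw [Ideal.span_le]
    intro z hz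
    rw [Set.mem_singleton_iff] at hz
    rw [hz]
    exact hfp

/-- the same for a noetherian ring `R` with `R ⧸ (y)` a principal ideal ring -/
theorem isPrincipal_of_isPrincipalIdealRing_quotient [IsNoetherianRing R] {y : R}
    (hy : y ∈ (⊥ : Ideal R).jacobson) [IsPrincipalIdealRing (R ⧸ Ideal.span {y})]
    (p : Ideal R) [p.IsPrime] (hyp : y ∉ p) : p.IsPrincipal :=
  isPrincipal_of_map_quotient_isPrincipal hy p (IsNoetherian.noetherian p) hyp
    (IsPrincipalIdealRing.principal _)

/-- **Local form.**  `R` noetherian local, `y` in the maximal ideal, `R ⧸ (y)` a principal ideal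
ring (e.g. a discrete valuation ring): every prime ideal not containing `y` is principal. -/
theorem isPrincipal_of_isLocalRing [IsNoetherianRing R] [IsLocalRing R] {y : R}
    (hy : y ∈ IsLocalRing.maximalIdeal R) [IsPrincipalIdealRing (R ⧸ Ideal.span {y})]
    (p : Ideal R) [p.IsPrime] (hyp : y ∉ p) : p.IsPrincipal := by
  refine isPrincipal_of_isPrincipalIdealRing_quotient ?_ p hyp
  rw [IsLocalRing.jacobson_eq_maximalIdeal (⊥ : Ideal R) bot_ne_top]
  exact hy

end Fermat.Agent.S36.FormalLift
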