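import Mathlib

/-!
# S36 (PROJECT V, soft core): Lemma FG', finiteness of `H¹` from `R[j]`-finite generation

Mathlib only.  Companion of `S36/FormalLift/Basic.lean` (`finite_quotient`, Lemma FG).

Vocabulary as in `FormalLift/Basic`: `M` = sections of a rank-one sheaf on the overlap `U ∩ U'` of
the two charts `U = {j ≠ ∞}`, `U' = {j ≠ 0}`; `J` = multiplication by `j`, invertible on `M` with
inverse `Jinv`; `A`, `B ≤ M` = the sections on `U`, `U'`; `H¹ = M ⧸ (A ⊔ B)`.

`FormalLift.finite_quotient` gets the finiteness of `H¹` from a pole-order filtration of `A` along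
`Z = div_∞ j` and leading polar coefficients at the cusps.  The lemma below needs NO filtration and
NO expansions at any cusp: it only uses that `A` is finitely generated as a module over `R[J]`
(at `X₀`: `A` is a fractional ideal of the integral closure of `R₀[j]` in the function field, which
is module-finite over `R₀[j]`), and that every section on the overlap extends to `U'` after
multiplication by a power of `j⁻¹`.

* `finite_quotient_of_span` : **Lemma FG'**.  If `s ⊆ A` is finite, `A ≤ span_R {J ^ n a | a ∈ s}`,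
  `J A ≤ A`, `Jinv B ≤ B`, and every `x : M` has `J ^ a x ∈ A` and `Jinv ^ a x ∈ B` for `a`
  large, then `M ⧸ (A ⊔ B)` is a finitely generated `R`-module.
* `finite_quotient_of_fg` : the same with `A = ⨆ n, (A₀.map (J ^ n))` for a finitely generated
  `R`-submodule `A₀`.
-/

set_option autoImplicit false

namespace Fermat.Agent.S36.FormalLift.FGPoly

open Submodule
open scoped Pointwise

section FGPoly

variable {R : Type*} [CommRing R] {M : Type*} [AddCommGroup M] [Module R M]

variable (J Jinv : Module.End R M)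

/-- `Jinv ^ a (J ^ n x) = J ^ (n - a) x` for `a ≤ n` -/
theorem inv_pow_pow_apply_of_le (hJ : Jinv * J = 1) {a n : ℕ} (h : a ≤ n) (x : M) :
    (Jinv ^ a) ((J ^ n) x) = (J ^ (n - a)) x := by
  induction a generalizing n with
  | zero => simp
  | succ a ih =>
    obtain ⟨n, rfl⟩ : ∃ n', n = n' + 1 := ⟨n - 1, by omega⟩
    have h1 : (Jinv ^ (a + 1)) ((J ^ (n + 1)) x) = (Jinv ^ a) ((J ^ n) x) := by
      rw [pow_succ, pow_succ', Module.End.mul_apply, Module.End.mul_apply,
        ← Module.End.mul_apply Jinv J, hJ, Module.End.one_apply]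
    rw [h1, ih (by omega), Nat.succ_sub_succ]

/-- `Jinv ^ a (J ^ n x) = Jinv ^ (a - n) x` for `n ≤ a` -/
theorem inv_pow_pow_apply_of_ge (hJ : Jinv * J = 1) {a n : ℕ} (h : n ≤ a) (x : M) :
    (Jinv ^ a) ((J ^ n) x) = (Jinv ^ (a - n)) x := by
  induction n generalizing a with
  | zero => simp
  | succ n ih =>
    obtain ⟨a, rfl⟩ : ∃ a', a = a' + 1 := ⟨a - 1, by omega⟩
    have h1 : (Jinv ^ (a + 1)) ((J ^ (n + 1)) x) = (Jinv ^ a) ((J ^ n) x) := by
      rw [pow_succ, pow_succ', Module.End.mul_apply, Module.End.mul_apply,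
        ← Module.End.mul_apply Jinv J, hJ, Module.End.one_apply]
    rw [h1, ih (by omega), Nat.succ_sub_succ]

/-- **Lemma FG'.**  `M` = sections on the overlap, `J` = multiplication by `j` with inverse
`Jinv`, `A` = sections on `{j ≠ ∞}`, `B` = sections on `{j ≠ 0}`.  If `A` is generated over
`R[J]` by a finite set `s`, then `H¹ = M ⧸ (A ⊔ B)` is a finitely generated `R`-module. -/
theorem finite_quotient_of_span (hJ : Jinv * J = 1) (A B : Submodule R M)
    (hJA : ∀ x ∈ A, J x ∈ A) (hJB : ∀ x ∈ B, Jinv x ∈ B)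
    (hMA : ∀ x : M, ∃ a, (J ^ a) x ∈ A) (hMB : ∀ x : M, ∃ a, (Jinv ^ a) x ∈ B)
    (s : Finset M) (hsA : ∀ a ∈ s, a ∈ A)
    (hspan : A ≤ Submodule.span R {z | ∃ (n : ℕ) (a : M), a ∈ s ∧ z = (J ^ n) a}) :
    Module.Finite R (M ⧸ (A ⊔ B)) := by
  classical
  -- powers of `J` preserve `A`, powers of `Jinv` preserve `B`
  have hJpowA : ∀ t : ℕ, ∀ x ∈ A, (J ^ t) x ∈ A := by
    intro t
    induction t with
    | zero => intro x hx; simpa using hx
    | succ t ih =>
      intro x hx
      rw [pow_succ', Module.End.mul_apply]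
      exact hJA _ (ih x hx)
  have hJpowB : ∀ t : ℕ, ∀ x ∈ B, (Jinv ^ t) x ∈ B := by
    intro t
    induction t with
    | zero => intro x hx; simpa using hx
    | succ t ih =>
      intro x hx
      rw [pow_succ', Module.End.mul_apply]
      exact hJB _ (ih x hx)
  -- for each generator the exponent from which `Jinv ^ c a ∈ B`
  choose m hm using hMB
  have hmB : ∀ (a : M) (c : ℕ), m a ≤ c → (Jinv ^ c) a ∈ B := by
    intro a c hc
    obtain ⟨d, rfl⟩ := Nat.exists_eq_add_of_le hc
    rw [add_comm, pow_add, Module.End.mul_apply]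
    exact hJpowB d _ (hm a)
  -- the finitely generated submodule of "gap" classes
  set S : Submodule R M :=
    Submodule.span R ((s.biUnion fun a => (Finset.range (m a)).image fun c => (Jinv ^ c) a) : Set M)
    with hS
  have hSfg : S.FG := Submodule.fg_span (Finset.finite_toSet _)
  have hgen : ∀ (a : M), a ∈ s → ∀ (c : ℕ), (Jinv ^ c) a ∈ (A ⊔ B) ⊔ S := by
    intro a ha c
    by_cases hc : m a ≤ c
    · exact Submodule.mem_sup_left (Submodule.mem_sup_right (hmB a c hc))
    · refine Submodule.mem_sup_right (Submodule.subset_span ?_)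
      rw [Finset.coe_biUnion, Set.mem_iUnion₂]
      refine ⟨a, ha, ?_⟩
      rw [Finset.coe_image, Set.mem_image]
      exact ⟨c, by simpa using Nat.lt_of_not_le hc, rfl⟩
  have htop : ∀ x : M, x ∈ (A ⊔ B) ⊔ S := by
    intro x
    obtain ⟨a₀, ha₀⟩ := hMA x
    have hx : x = (Jinv ^ a₀) ((J ^ a₀) x) := by
      rw [inv_pow_pow_apply_of_le J Jinv hJ le_rfl, Nat.sub_self, pow_zero, Module.End.one_apply]
    rw [hx]
    have hmem : (Jinv ^ a₀) ((J ^ a₀) x) ∈
        (Submodule.span R {z | ∃ (n : ℕ) (a : M), a ∈ s ∧ z = (J ^ n) a}).map (Jinv ^ a₀) :=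
      Submodule.mem_map_of_mem (hspan ha₀)
    refine (?_ : (Submodule.span R {z | ∃ (n : ℕ) (a : M), a ∈ s ∧ z = (J ^ n) a}).map
      (Jinv ^ a₀) ≤ (A ⊔ B) ⊔ S) hmem
    rw [Submodule.map_span, Submodule.span_le]
    rintro _ ⟨_, ⟨n, a, ha, rfl⟩, rfl⟩
    rcases le_total a₀ n with h | h
    · rw [inv_pow_pow_apply_of_le J Jinv hJ h]
      exact Submodule.mem_sup_left (Submodule.mem_sup_left (hJpowA _ a (hsA a ha)))
    · rw [inv_pow_pow_apply_of_ge J Jinv hJ h]
      exact hgen a ha _
  have : Module.Finite R S := Module.Finite.iff_fg.mpr hSfg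
  refine Module.Finite.of_surjective ((A ⊔ B).mkQ.comp S.subtype) ?_
  intro y
  obtain ⟨x, rfl⟩ := Submodule.mkQ_surjective _ y
  obtain ⟨p, hp, t, ht, hpt⟩ := Submodule.mem_sup.mp (htop x)
  refine ⟨⟨t, ht⟩, ?_⟩
  rw [LinearMap.comp_apply, Submodule.subtype_apply, ← hpt, map_add]
  have : (A ⊔ B).mkQ p = 0 := by
    rw [Submodule.mkQ_apply, Submodule.Quotient.mk_eq_zero]
    exact hp
  rw [this, zero_add]

/-- **Lemma FG'**, submodule form: `A` is the `R[J]`-module generated by a finitely generated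
`R`-submodule `A₀`. -/
theorem finite_quotient_of_fg (hJ : Jinv * J = 1) (A B : Submodule R M)
    (hJA : ∀ x ∈ A, J x ∈ A) (hJB : ∀ x ∈ B, Jinv x ∈ B)
    (hMA : ∀ x : M, ∃ a, (J ^ a) x ∈ A) (hMB : ∀ x : M, ∃ a, (Jinv ^ a) x ∈ B)
    (A₀ : Submodule R M) (hA₀ : A₀.FG) (hA₀A : A₀ ≤ A)
    (hgen : A ≤ ⨆ n : ℕ, A₀.map (J ^ n)) :
    Module.Finite R (M ⧸ (A ⊔ B)) := by
  classical
  obtain ⟨s, hs⟩ := hA₀
  refine finite_quotient_of_span J Jinv hJ A B hJA hJB hMA hMB s
    (fun a ha => hA₀A (hs ▸ Submodule.subset_span ha)) ?_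
  refine le_trans hgen (iSup_le fun n => ?_)
  rw [← hs, Submodule.map_span, Submodule.span_le]
  rintro _ ⟨a, ha, rfl⟩
  exact Submodule.subset_span ⟨n, a, ha, rfl⟩

end FGPoly

end Fermat.Agent.S36.FormalLift.FGPoly

namespace Fermat.Agent.S36.FormalLift.FGPoly

section Adjoin

open scoped Pointwise

variable {R : Type*} [CommRing R] {T : Type*} [CommRing T] [Algebra R T]
  {F : Type*} [AddCommGroup F] [Module R F] [Module T F] [IsScalarTower R T F]

/-- the `R`-span of the `j ^ n • a`, `a ∈ s`, is stable under `Algebra.adjoin R {j}` -/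
theorem smul_mem_span_pow (j : T) (s : Set F) {σ : T} (hσ : σ ∈ Algebra.adjoin R {j}) {z : F}
    (hz : z ∈ Submodule.span R {z | ∃ (n : ℕ) (a : F), a ∈ s ∧ z = j ^ n • a}) :
    σ • z ∈ Submodule.span R {z | ∃ (n : ℕ) (a : F), a ∈ s ∧ z = j ^ n • a} := by
  induction hσ using Algebra.adjoin_induction generalizing z with
  | mem x hx =>
    rw [Set.mem_singleton_iff] at hx
    subst hx
    induction hz using Submodule.span_induction with
    | mem w hw =>
      obtain ⟨n, a, ha, rfl⟩ := hw
      refine Submodule.subset_span ⟨n + 1, a, ha, ?_⟩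
      rw [smul_smul, ← pow_succ']
    | zero => rw [smul_zero]; exact Submodule.zero_mem _
    | add u v _ _ hu hv => rw [smul_add]; exact Submodule.add_mem _ hu hv
    | smul r u _ hu => rw [smul_comm]; exact Submodule.smul_mem _ r hu
  | algebraMap r =>
    rw [algebraMap_smul]
    exact Submodule.smul_mem _ r hz
  | add x y _ _ hx hy =>
    rw [add_smul]
    exact Submodule.add_mem _ (hx hz) (hy hz)
  | mul x y _ _ hx hy =>
    rw [mul_smul]
    exact hx (hy hz)

/-- If `T` is module-finite over `R[j] = Algebra.adjoin R {j}` and `L` is a finitely generated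
`T`-submodule of `F`, then `L` is generated over `R` by the `j ^ n • a`, `a` in a finite subset of
`L`: the input `hspan` of `finite_quotient_of_span`. -/
theorem exists_finset_span_pow (j : T) [Module.Finite (Algebra.adjoin R {j}) T]
    (L : Submodule T F) (hL : L.FG) :
    ∃ s : Finset F, (∀ a ∈ s, a ∈ L) ∧
      ∀ y ∈ L, y ∈ Submodule.span R {z | ∃ (n : ℕ) (a : F), a ∈ (s : Set F) ∧ z = j ^ n • a} := by
  classical
  obtain ⟨g, hg⟩ := hL
  obtain ⟨b, hb⟩ := (Module.Finite.fg_top : (⊤ : Submodule (Algebra.adjoin R {j}) T).FG)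
  refine ⟨Finset.image₂ (fun (t : T) (l : F) => t • l) b g, ?_, ?_⟩
  · intro a ha
    obtain ⟨t, _, l, hl, rfl⟩ := Finset.mem_image₂.mp ha
    exact L.smul_mem t (hg ▸ Submodule.subset_span hl)
  · intro y hy
    have h1 : Submodule.span (Algebra.adjoin R {j}) ((b : Set T) • (g : Set F)) =
        (Submodule.span T (g : Set F)).restrictScalars (Algebra.adjoin R {j}) :=
      Submodule.span_smul_of_span_eq_top hb _
    have hy' : y ∈ Submodule.span (Algebra.adjoin R {j}) ((b : Set T) • (g : Set F)) := by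
      rw [h1, Submodule.restrictScalars_mem, hg]
      exact hy
    clear hy
    induction hy' using Submodule.span_induction with
    | mem z hz =>
      obtain ⟨t, ht, l, hl, rfl⟩ := Set.mem_smul.mp hz
      refine Submodule.subset_span ⟨0, t • l, ?_, by rw [pow_zero, one_smul]⟩
      exact Finset.mem_coe.mpr (Finset.mem_image₂.mpr ⟨t, ht, l, hl, rfl⟩)
    | zero => exact Submodule.zero_mem _
    | add u v _ _ hu hv => exact Submodule.add_mem _ hu hv
    | smul σ u _ hu => exact smul_mem_span_pow j _ σ.2 hu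

end Adjoin

end Fermat.Agent.S36.FormalLift.FGPoly
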