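import Fermat.Agent.S36.FormalLift.Basic
import Fermat.Agent.S36.FormalLift.FGPoly

/-!
# PROJECT V (S36), soft core, helper24: finiteness of `H¹` and FL inside the function field `F`

Mathlib + `FormalLift/Basic.lean` + `FormalLift/FGPoly.lean` (helper23).  `F` is a field (the
function field), `R0` a noetherian base, `φ ∈ F` the chart function, `LU`, `LU' ≤ F` the sections
of a rank-one sheaf `𝓛` on the two charts `U = {φ ≠ ∞}`, `U' = {φ ≠ 0}`.

* `fil LU LU' φ k = {x ∈ LU | φ ^ (-k) * x ∈ LU'}` (`k : ℤ`) : the sections `H⁰(X, 𝓛(k Z))`,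
  `Z = φ^*(∞)`.
* `isNoetherian_fil` : they are noetherian (finitely generated) `R0`-modules as soon as the leading
  coefficient module `LU' / φ⁻¹ LU'` is (given as `ρ : LU' → E`, `E` noetherian, `ker ρ ⊆ φ⁻¹ LU'`)
  and `fil (-c) = ⊥` for one `c` (no sections in negative degree).
* `FiniteH1 LU LU' φ _` : `H¹ = 𝓛(U ∩ U') ⧸ (LU + LU')` is a finitely generated `R0`-module.
* `finiteH1_of_span` : it is, as soon as `LU` is finitely generated over `R0[φ]` (helper23's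
  Lemma FG'; no filtration, no expansion at any pole of `φ`).
* `finiteH1_of_leading` : it is, by the pole filtration (Lemma FG) with abstract leading
  coefficients.
* `exists_global_section_of_finite` : FL inside `F`: if `H¹` is finitely generated and for every
  `m` there are `u ∈ LU` primitive and `u' ∈ LU'` with `u - u' ∈ ϖ ^ m 𝓛(U ∩ U')`, then
  `LU ⊓ LU' ≠ 0`.
-/

set_option autoImplicit false

namespace Fermat.Agent.S36.FormalLift

variable {R0 : Type*} [CommRing R0] {F : Type*} [Field F] [Algebra R0 F]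

/-- `H⁰(X, 𝓛(k Z))` -/
def fil (LU LU' : Submodule R0 F) (φ : F) (k : ℤ) : Submodule R0 F :=
  LU ⊓ LU'.comap (LinearMap.mulLeft R0 (φ ^ (-k)))

theorem mem_fil {LU LU' : Submodule R0 F} {φ : F} {k : ℤ} {x : F} :
    x ∈ fil LU LU' φ k ↔ x ∈ LU ∧ φ ^ (-k) * x ∈ LU' := Iff.rfl

theorem fil_le_succ {LU LU' : Submodule R0 F} {φ : F} (hφ : φ ≠ 0)
    (hφLU' : ∀ x ∈ LU', φ⁻¹ * x ∈ LU') (k : ℤ) : fil LU LU' φ k ≤ fil LU LU' φ (k + 1) := by
  rintro x ⟨h1, h2⟩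
  refine ⟨h1, ?_⟩
  have e : φ ^ (-(k + 1)) * x = φ⁻¹ * (φ ^ (-k) * x) := by
    rw [neg_add, zpow_add₀ hφ, zpow_neg_one]
    ring
  change φ ^ (-(k + 1)) * x ∈ LU'
  rw [e]
  exact hφLU' _ h2

theorem fil_mono {LU LU' : Submodule R0 F} {φ : F} (hφ : φ ≠ 0)
    (hφLU' : ∀ x ∈ LU', φ⁻¹ * x ∈ LU') : Monotone (fil LU LU' φ) :=
  monotone_int_of_le_succ (fil_le_succ hφ hφLU')

section Lam

variable {E : Type*} [AddCommGroup E] [Module R0 E]

/-- the leading coefficient map on `fil k` -/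
noncomputable def filLam (LU LU' : Submodule R0 F) (φ : F) (ρ : LU' →ₗ[R0] E) (k : ℤ) :
    fil LU LU' φ k →ₗ[R0] E :=
  ρ.comp (LinearMap.codRestrict LU'
    ((LinearMap.mulLeft R0 (φ ^ (-k))).comp (fil LU LU' φ k).subtype) (fun x => x.2.2))

theorem filLam_apply (LU LU' : Submodule R0 F) (φ : F) (ρ : LU' →ₗ[R0] E) (k : ℤ)
    (x : fil LU LU' φ k) :
    filLam LU LU' φ ρ k x = ρ ⟨φ ^ (-k) * (x : F), x.2.2⟩ := rfl

/-- the kernel of the leading coefficient map on `fil (k + 1)` is contained in `fil k` -/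
theorem mem_fil_of_filLam_eq_zero {LU LU' : Submodule R0 F} {φ : F} (hφ : φ ≠ 0)
    (ρ : LU' →ₗ[R0] E) (hρ : ∀ x : LU', ρ x = 0 → φ * (x : F) ∈ LU') (k : ℤ)
    (x : fil LU LU' φ (k + 1)) (hx : filLam LU LU' φ ρ (k + 1) x = 0) :
    (x : F) ∈ fil LU LU' φ k := by
  refine ⟨x.2.1, ?_⟩
  have h := hρ _ hx
  have e : φ * (φ ^ (-(k + 1)) * (x : F)) = φ ^ (-k) * (x : F) := by
    rw [neg_add, zpow_add₀ hφ, zpow_neg_one]
    field_simp
  change φ ^ (-k) * (x : F) ∈ LU'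
  rw [← e]
  exact h

/-- **`H⁰(X, 𝓛(k Z))` is a noetherian `R0`-module.** -/
theorem isNoetherian_fil [IsNoetherianRing R0] [IsNoetherian R0 E] (LU LU' : Submodule R0 F)
    {φ : F} (hφ : φ ≠ 0) (hφLU' : ∀ x ∈ LU', φ⁻¹ * x ∈ LU') (ρ : LU' →ₗ[R0] E)
    (hρ : ∀ x : LU', ρ x = 0 → φ * (x : F) ∈ LU')
    (hvanish : ∃ c : ℕ, ∀ x ∈ LU, φ ^ c * x ∈ LU' → x = 0) (k : ℤ) :
    IsNoetherian R0 (fil LU LU' φ k) := by
  obtain ⟨c, hc⟩ := hvanish
  have hbot : fil LU LU' φ (-(c : ℤ)) = ⊥ := by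
    rw [eq_bot_iff]
    rintro x ⟨h1, h2⟩
    have h2' : φ ^ (-(-(c : ℤ))) * x ∈ LU' := h2
    rw [neg_neg, zpow_natCast] at h2'
    rw [Submodule.mem_bot]
    exact hc x h1 h2'
  have hbase : IsNoetherian R0 (fil LU LU' φ (-(c : ℤ))) := by
    rw [hbot]
    infer_instance
  rcases le_total k (-(c : ℤ)) with hk | hk
  · have hle : fil LU LU' φ k ≤ fil LU LU' φ (-(c : ℤ)) := fil_mono hφ hφLU' hk
    exact isNoetherian_of_le hle
  · induction k, hk using Int.leInduction with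
    | base => exact hbase
    | succ k _ ih =>
      have hle : fil LU LU' φ k ≤ fil LU LU' φ (k + 1) := fil_le_succ hφ hφLU' k
      set g := filLam LU LU' φ ρ (k + 1) with hg
      have hker : LinearMap.ker g ≤ LinearMap.range (Submodule.inclusion hle) := by
        intro x hx
        have hx' : (x : F) ∈ fil LU LU' φ k :=
          mem_fil_of_filLam_eq_zero hφ ρ hρ k x (LinearMap.mem_ker.mp hx)
        exact ⟨⟨x, hx'⟩, rfl⟩
      have hK : IsNoetherian R0 (LinearMap.ker g) := isNoetherian_of_le hker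
      have hrange : LinearMap.range (LinearMap.ker g).subtype = LinearMap.ker g :=
        Submodule.range_subtype _
      exact isNoetherian_of_range_eq_ker (M := LinearMap.ker g) (LinearMap.ker g).subtype g hrange

end Lam

section TwoChart

theorem pow_mul_mem_of_mul_mem {LU : Submodule R0 F} {φ : F} (hφLU : ∀ x ∈ LU, φ * x ∈ LU)
    (d : ℕ) {x : F} (hx : x ∈ LU) : φ ^ d * x ∈ LU := by
  induction d with
  | zero => simpa using hx
  | succ d ih =>
    rw [pow_succ', mul_assoc]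
    exact hφLU _ ih

/-- sections on the overlap `U ∩ U' = D(φ) ⊆ U` -/
def overlap (LU : Submodule R0 F) (φ : F) (hφLU : ∀ x ∈ LU, φ * x ∈ LU) : Submodule R0 F where
  carrier := {x | ∃ a : ℕ, φ ^ a * x ∈ LU}
  add_mem' := by
    rintro x y ⟨a, hx⟩ ⟨b, hy⟩
    refine ⟨a + b, ?_⟩
    have e : φ ^ (a + b) * (x + y) = φ ^ b * (φ ^ a * x) + φ ^ a * (φ ^ b * y) := by ring
    rw [e]
    exact LU.add_mem (pow_mul_mem_of_mul_mem hφLU b hx) (pow_mul_mem_of_mul_mem hφLU a hy)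
  zero_mem' := ⟨0, by simp⟩
  smul_mem' := by
    rintro r x ⟨a, hx⟩
    exact ⟨a, by rw [mul_smul_comm]; exact LU.smul_mem r hx⟩

theorem mem_overlap {LU : Submodule R0 F} {φ : F} {hφLU : ∀ x ∈ LU, φ * x ∈ LU} {x : F} :
    x ∈ overlap LU φ hφLU ↔ ∃ a : ℕ, φ ^ a * x ∈ LU := Iff.rfl

theorem le_overlap (LU : Submodule R0 F) (φ : F) (hφLU : ∀ x ∈ LU, φ * x ∈ LU) :
    LU ≤ overlap LU φ hφLU := fun x hx => ⟨0, by simpa using hx⟩

/-- multiplication by `φ` on the overlap -/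
def overlapMul (LU : Submodule R0 F) (φ : F) (hφLU : ∀ x ∈ LU, φ * x ∈ LU) :
    Module.End R0 (overlap LU φ hφLU) :=
  (LinearMap.mulLeft R0 φ).restrict (p := overlap LU φ hφLU) (q := overlap LU φ hφLU) (by
    rintro x ⟨a, hx⟩
    refine ⟨a, ?_⟩
    have e : φ ^ a * (LinearMap.mulLeft R0 φ x) = φ * (φ ^ a * x) := by
      rw [LinearMap.mulLeft_apply]; ring
    rw [e]
    exact hφLU _ hx)

/-- multiplication by `φ⁻¹` on the overlap -/
def overlapMulInv (LU : Submodule R0 F) {φ : F} (hφ : φ ≠ 0) (hφLU : ∀ x ∈ LU, φ * x ∈ LU) :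
    Module.End R0 (overlap LU φ hφLU) :=
  (LinearMap.mulLeft R0 φ⁻¹).restrict (p := overlap LU φ hφLU) (q := overlap LU φ hφLU) (by
    rintro x ⟨a, hx⟩
    refine ⟨a + 1, ?_⟩
    have e : φ ^ (a + 1) * (LinearMap.mulLeft R0 φ⁻¹ x) = φ ^ a * x := by
      rw [LinearMap.mulLeft_apply, pow_succ]
      field_simp
    rw [e]
    exact hx)

theorem coe_overlapMul_pow (LU : Submodule R0 F) (φ : F) (hφLU : ∀ x ∈ LU, φ * x ∈ LU) (a : ℕ)
    (x : overlap LU φ hφLU) :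
    ((((overlapMul LU φ hφLU) ^ a) x : overlap LU φ hφLU) : F) = φ ^ a * (x : F) := by
  induction a generalizing x with
  | zero => simp
  | succ a ih =>
    rw [pow_succ', Module.End.mul_apply]
    change φ * ((((overlapMul LU φ hφLU) ^ a) x : overlap LU φ hφLU) : F) = _
    rw [ih, pow_succ']
    ring

theorem coe_overlapMulInv_pow (LU : Submodule R0 F) {φ : F} (hφ : φ ≠ 0)
    (hφLU : ∀ x ∈ LU, φ * x ∈ LU) (a : ℕ) (x : overlap LU φ hφLU) :
    ((((overlapMulInv LU hφ hφLU) ^ a) x : overlap LU φ hφLU) : F) = φ⁻¹ ^ a * (x : F) := by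
  induction a generalizing x with
  | zero => simp
  | succ a ih =>
    rw [pow_succ', Module.End.mul_apply]
    change φ⁻¹ * ((((overlapMulInv LU hφ hφLU) ^ a) x : overlap LU φ hφLU) : F) = _
    rw [ih, pow_succ']
    ring

theorem overlapMulInv_mul (LU : Submodule R0 F) {φ : F} (hφ : φ ≠ 0)
    (hφLU : ∀ x ∈ LU, φ * x ∈ LU) : overlapMulInv LU hφ hφLU * overlapMul LU φ hφLU = 1 := by
  apply LinearMap.ext
  intro x
  apply Subtype.ext
  rw [Module.End.mul_apply, Module.End.one_apply]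
  change φ⁻¹ * (φ * (x : F)) = (x : F)
  field_simp

/-- the sections on `U` inside the sections on the overlap -/
def overlapA (LU : Submodule R0 F) (φ : F) (hφLU : ∀ x ∈ LU, φ * x ∈ LU) :
    Submodule R0 (overlap LU φ hφLU) := LU.comap (overlap LU φ hφLU).subtype

/-- the sections on `U'` inside the sections on the overlap -/
def overlapB (LU LU' : Submodule R0 F) (φ : F) (hφLU : ∀ x ∈ LU, φ * x ∈ LU) :
    Submodule R0 (overlap LU φ hφLU) := LU'.comap (overlap LU φ hφLU).subtype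

/-- `H¹ = 𝓛(U ∩ U') ⧸ (𝓛(U) + 𝓛(U'))` is a finitely generated `R0`-module -/
def FiniteH1 (LU LU' : Submodule R0 F) (φ : F) (hφLU : ∀ x ∈ LU, φ * x ∈ LU) : Prop :=
  Module.Finite R0 (overlap LU φ hφLU ⧸ (overlapA LU φ hφLU ⊔ overlapB LU LU' φ hφLU))

/-- **Finiteness of `H¹` from `R0[φ]`-finite generation of `LU`** (helper23's Lemma FG'). -/
theorem finiteH1_of_span (LU LU' : Submodule R0 F) {φ : F} (hφ : φ ≠ 0)
    (hφLU : ∀ x ∈ LU, φ * x ∈ LU) (hφLU' : ∀ x ∈ LU', φ⁻¹ * x ∈ LU')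
    (sheaf : ∀ x ∈ LU, ∃ N : ℕ, φ⁻¹ ^ N * x ∈ LU')
    (sgen : Finset F) (hsgen : ∀ a ∈ sgen, a ∈ LU)
    (hspan : ∀ y ∈ LU, y ∈ Submodule.span R0 {z | ∃ (n : ℕ) (a : F), a ∈ sgen ∧ z = φ ^ n * a}) :
    FiniteH1 LU LU' φ hφLU := by
  classical
  set LUU' := overlap LU φ hφLU with hLUU'
  have hLU_le : LU ≤ LUU' := le_overlap LU φ hφLU
  set J := overlapMul LU φ hφLU with hJ
  set Jinv := overlapMulInv LU hφ hφLU with hJinv
  -- the generators as elements of the overlap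
  set s' : Finset LUU' := sgen.attach.image (fun a => ⟨a.1, hLU_le (hsgen a.1 a.2)⟩) with hs'
  have hpowinv : ∀ (d : ℕ) (x : F), x ∈ LU' → φ⁻¹ ^ d * x ∈ LU' := by
    intro d
    induction d with
    | zero => intro x hx; simpa using hx
    | succ d ih =>
      intro x hx
      rw [pow_succ', mul_assoc]
      exact hφLU' _ (ih x hx)
  refine FGPoly.finite_quotient_of_span J Jinv (overlapMulInv_mul LU hφ hφLU)
    (overlapA LU φ hφLU) (overlapB LU LU' φ hφLU) (fun x hx => hφLU _ hx)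
    (fun x hx => hφLU' _ hx) ?_ ?_ s' ?_ ?_
  · intro x
    obtain ⟨a, ha⟩ := x.2
    refine ⟨a, ?_⟩
    change (((J ^ a) x : LUU') : F) ∈ LU
    rw [coe_overlapMul_pow]
    exact ha
  · intro x
    obtain ⟨a, ha⟩ := x.2
    obtain ⟨N, hN⟩ := sheaf _ ha
    refine ⟨N, ?_⟩
    change (((Jinv ^ N) x : LUU') : F) ∈ LU'
    rw [coe_overlapMulInv_pow]
    -- `φ⁻¹ ^ N * x = φ⁻¹ ^ a * (φ⁻¹ ^ N * (φ ^ a * x))`
    have e : φ⁻¹ ^ N * (x : F) = φ⁻¹ ^ a * (φ⁻¹ ^ N * (φ ^ a * (x : F))) := by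
      have : φ⁻¹ ^ a * φ ^ a = 1 := by rw [← mul_pow, inv_mul_cancel₀ hφ, one_pow]
      calc φ⁻¹ ^ N * (x : F) = (φ⁻¹ ^ a * φ ^ a) * (φ⁻¹ ^ N * (x : F)) := by rw [this, one_mul]
        _ = φ⁻¹ ^ a * (φ⁻¹ ^ N * (φ ^ a * (x : F))) := by ring
    rw [e]
    exact hpowinv a _ hN
  · intro a ha
    obtain ⟨b, _, rfl⟩ := Finset.mem_image.mp ha
    exact hsgen b.1 b.2
  · intro y hy
    have hy' := hspan (y : F) hy
    -- transport the span to the overlap
    have key : ∀ z : F, z ∈ Submodule.span R0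
        {z | ∃ (n : ℕ) (a : F), a ∈ sgen ∧ z = φ ^ n * a} → ∀ hz : z ∈ LUU',
        (⟨z, hz⟩ : LUU') ∈ Submodule.span R0
          {z : LUU' | ∃ (n : ℕ) (a : LUU'), a ∈ s' ∧ z = (J ^ n) a} := by
      intro z hz
      induction hz using Submodule.span_induction with
      | mem w hw =>
        intro hwL
        obtain ⟨n, a, ha, rfl⟩ := hw
        refine Submodule.subset_span ⟨n, ⟨a, hLU_le (hsgen a ha)⟩, ?_, ?_⟩
        · exact Finset.mem_image.mpr ⟨⟨a, ha⟩, Finset.mem_attach _ _, rfl⟩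
        · apply Subtype.ext
          rw [coe_overlapMul_pow]
      | zero =>
        intro _
        exact Submodule.zero_mem _
      | add u v hu hv ihu ihv =>
        intro _
        have huL : u ∈ LUU' := by
          refine Submodule.span_le.mpr ?_ hu
          rintro _ ⟨n, a, ha, rfl⟩
          exact hLU_le (pow_mul_mem_of_mul_mem hφLU n (hsgen a ha))
        have hvL : v ∈ LUU' := by
          refine Submodule.span_le.mpr ?_ hv
          rintro _ ⟨n, a, ha, rfl⟩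
          exact hLU_le (pow_mul_mem_of_mul_mem hφLU n (hsgen a ha))
        exact Submodule.add_mem _ (ihu huL) (ihv hvL)
      | smul r u hu ihu =>
        intro _
        have huL : u ∈ LUU' := by
          refine Submodule.span_le.mpr ?_ hu
          rintro _ ⟨n, a, ha, rfl⟩
          exact hLU_le (pow_mul_mem_of_mul_mem hφLU n (hsgen a ha))
        exact Submodule.smul_mem _ r (ihu huL)
    exact key (y : F) hy' y.2

variable [IsNoetherianRing R0]

/-- **Finiteness of `H¹` from the pole filtration** (Lemma FG with abstract leading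
coefficients). -/
theorem finiteH1_of_leading (LU LU' : Submodule R0 F) {φ : F} (hφ : φ ≠ 0)
    (hφLU : ∀ x ∈ LU, φ * x ∈ LU) (hφLU' : ∀ x ∈ LU', φ⁻¹ * x ∈ LU')
    (sheaf : ∀ x ∈ LU, ∃ N : ℕ, φ⁻¹ ^ N * x ∈ LU')
    {E : Type*} [AddCommGroup E] [Module R0 E] [IsNoetherian R0 E]
    (ρ : LU' →ₗ[R0] E) (hρ : ∀ x : LU', ρ x = 0 → φ * (x : F) ∈ LU')
    (hvanish : ∃ c : ℕ, ∀ x ∈ LU, φ ^ c * x ∈ LU' → x = 0) :
    FiniteH1 LU LU' φ hφLU := by
  classical
  set LUU' := overlap LU φ hφLU with hLUU'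
  have hLU_le : LU ≤ LUU' := le_overlap LU φ hφLU
  set J : Module.End R0 LUU' := overlapMul LU φ hφLU with hJdef
  set Jinv : Module.End R0 LUU' := overlapMulInv LU hφ hφLU with hJinvdef
  have hJcoe : ∀ x : LUU', ((J x : LUU') : F) = φ * (x : F) := fun x => rfl
  have hJpow : ∀ (a : ℕ) (x : LUU'), (((J ^ a) x : LUU') : F) = φ ^ a * (x : F) :=
    coe_overlapMul_pow LU φ hφLU
  have hJinvpow : ∀ (a : ℕ) (x : LUU'), (((Jinv ^ a) x : LUU') : F) = φ⁻¹ ^ a * (x : F) :=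
    coe_overlapMulInv_pow LU hφ hφLU
  have hJ1 : Jinv * J = 1 := overlapMulInv_mul LU hφ hφLU
  set A : Submodule R0 LUU' := overlapA LU φ hφLU with hA
  set B : Submodule R0 LUU' := overlapB LU LU' φ hφLU with hB
  set Afil : ℕ → Submodule R0 LUU' := fun N => (fil LU LU' φ (N : ℤ)).comap LUU'.subtype
    with hAfil
  have hzpow : ∀ (N : ℕ) (x : F), φ ^ (-(N : ℤ)) * x = φ⁻¹ ^ N * x := by
    intro N x
    rw [zpow_neg, zpow_natCast, inv_pow]
  have hmono : Monotone Afil := by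
    intro N N' h x hx
    exact fil_mono hφ hφLU' (Int.ofNat_le.mpr h) hx
  have hAfil_le : ∀ N, Afil N ≤ A := fun N x hx => hx.1
  have hAex : ∀ y ∈ A, ∃ N, y ∈ Afil N := by
    intro y hy
    obtain ⟨N, hN⟩ := sheaf _ hy
    refine ⟨N, hy, ?_⟩
    change φ ^ (-(N : ℤ)) * (y : F) ∈ LU'
    rw [hzpow]
    exact hN
  have hJA : ∀ x ∈ A, J x ∈ A := fun x hx => hφLU _ hx
  have hBmem : ∀ c, ∀ x ∈ Afil c, (Jinv ^ c) x ∈ B := by
    intro c x hx
    change (((Jinv ^ c) x : LUU') : F) ∈ LU'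
    rw [hJinvpow, ← hzpow]
    exact hx.2
  have hM : ∀ x : LUU', ∃ a, (J ^ a) x ∈ A := by
    intro x
    obtain ⟨a, ha⟩ := x.2
    refine ⟨a, ?_⟩
    change (((J ^ a) x : LUU') : F) ∈ LU
    rw [hJpow]
    exact ha
  -- stabilisation of the filtration
  have hJfil : ∀ N, ∀ x ∈ Afil N, J x ∈ Afil (N + 1) := by
    intro N x hx
    refine ⟨hφLU _ hx.1, ?_⟩
    change φ ^ (-((N + 1 : ℕ) : ℤ)) * (φ * (x : F)) ∈ LU'
    have e : φ ^ (-((N + 1 : ℕ) : ℤ)) * (φ * (x : F)) = φ ^ (-(N : ℤ)) * (x : F) := by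
      rw [hzpow, hzpow, pow_succ]
      field_simp
    rw [e]
    exact hx.2
  let toFil : ∀ N, Afil N →ₗ[R0] fil LU LU' φ (N : ℤ) := fun N =>
    LinearMap.codRestrict _ (LUU'.subtype.comp (Afil N).subtype) (fun x => x.2)
  let lam : ∀ N, Afil N →ₗ[R0] E := fun N => (filLam LU LU' φ ρ (N : ℤ)).comp (toFil N)
  have hlam : ∀ N (x : Afil N), lam N x =
      ρ ⟨φ ^ (-(N : ℤ)) * ((x : LUU') : F), x.2.2⟩ := fun N x => rfl
  have hker : ∀ N (x : Afil (N + 1)), lam (N + 1) x = 0 → (x : LUU') ∈ Afil N := by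
    intro N x hx
    refine ⟨x.2.1, ?_⟩
    have h := hρ _ (by rw [hlam] at hx; exact hx)
    change φ ^ (-(N : ℤ)) * ((x : LUU') : F) ∈ LU'
    have e : φ * (φ ^ (-((N + 1 : ℕ) : ℤ)) * ((x : LUU') : F)) =
        φ ^ (-(N : ℤ)) * ((x : LUU') : F) := by
      rw [hzpow, hzpow, pow_succ]
      field_simp
    rw [← e]
    exact h
  have hcompat : ∀ N (x : Afil N), lam (N + 1) ⟨J x, hJfil N x x.2⟩ = lam N x := by
    intro N x
    rw [hlam, hlam]
    congr 1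
    apply Subtype.ext
    change φ ^ (-((N + 1 : ℕ) : ℤ)) * (φ * ((x : LUU') : F)) = φ ^ (-(N : ℤ)) * ((x : LUU') : F)
    rw [hzpow, hzpow, pow_succ]
    field_simp
  obtain ⟨N₁, hstab⟩ := exists_stable J Afil hmono hJfil lam hker hcompat
  -- `Afil N₁` is finitely generated
  have hfg : (Afil N₁).FG := by
    have hnoeth : IsNoetherian R0 (fil LU LU' φ (N₁ : ℤ)) :=
      isNoetherian_fil LU LU' hφ hφLU' ρ hρ hvanish _
    have hle : fil LU LU' φ (N₁ : ℤ) ≤ LUU' := fun x hx => hLU_le hx.1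
    have e : Afil N₁ ≃ₗ[R0] fil LU LU' φ (N₁ : ℤ) := Submodule.comapSubtypeEquivOfLe hle
    have : Module.Finite R0 (Afil N₁) := Module.Finite.equiv e.symm
    exact Module.Finite.iff_fg.mp this
  exact finite_quotient J Jinv hJ1 A B Afil hmono hAfil_le hAex hJA hBmem hM N₁ hstab hfg

/-- **FL inside the function field.**  If `H¹` is finitely generated and for every `m` there are a
primitive `u ∈ LU` and `u' ∈ LU'` congruent modulo `ϖ ^ m` on the overlap, then there is a nonzero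
global section. -/
theorem exists_global_section_of_finite (ϖ : R0) (LU LU' : Submodule R0 F) {φ : F}
    (hφLU : ∀ x ∈ LU, φ * x ∈ LU) (sheaf' : ∀ x ∈ LU', ∃ N : ℕ, φ ^ N * x ∈ LU)
    (hfin : FiniteH1 LU LU' φ hφLU)
    (hex : ∀ m : ℕ, ∃ u ∈ LU, ∃ u' ∈ LU', ∃ w : F, (∃ a : ℕ, φ ^ a * w ∈ LU) ∧
      (∀ v ∈ LU, u ≠ algebraMap R0 F ϖ * v) ∧ u - u' = algebraMap R0 F ϖ ^ m * w) :
    ∃ h : F, h ≠ 0 ∧ h ∈ LU ∧ h ∈ LU' := by
  classical
  set LUU' := overlap LU φ hφLU with hLUU'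
  have hLU_le : LU ≤ LUU' := le_overlap LU φ hφLU
  have hLU'_le : LU' ≤ LUU' := fun x hx => sheaf' x hx
  set A : Submodule R0 LUU' := overlapA LU φ hφLU with hA
  set B : Submodule R0 LUU' := overlapB LU LU' φ hφLU with hB
  have hfin' : Module.Finite R0 (LUU' ⧸ (A ⊔ B)) := hfin
  have hne : A ⊓ B ≠ ⊥ := by
    refine inf_ne_bot_of_forall_exists ϖ A B (fun m => ?_)
    obtain ⟨u, hu, u', hu', w, hw, hprim, huw⟩ := hex m
    refine ⟨⟨u, hLU_le hu⟩, hu, ⟨u', hLU'_le hu'⟩, hu', ⟨w, hw⟩, ?_, ?_⟩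
    · intro v hv h
      refine hprim (v : F) hv ?_
      have := congrArg (fun x : LUU' => (x : F)) h
      simpa [Algebra.smul_def] using this
    · apply Subtype.ext
      simp only [Submodule.coe_sub, Submodule.coe_smul, Algebra.smul_def, map_pow]
      exact huw
  obtain ⟨x, hx, hx0⟩ := (Submodule.ne_bot_iff _).mp hne
  refine ⟨(x : F), fun h => hx0 (Subtype.ext h), hx.1, hx.2⟩

/-- **FL + FG inside the function field** (filtration form of the finiteness). -/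
theorem exists_global_section_of_forall (ϖ : R0) (LU LU' : Submodule R0 F) {φ : F} (hφ : φ ≠ 0)
    (hφLU : ∀ x ∈ LU, φ * x ∈ LU) (hφLU' : ∀ x ∈ LU', φ⁻¹ * x ∈ LU')
    (sheaf : ∀ x ∈ LU, ∃ N : ℕ, φ⁻¹ ^ N * x ∈ LU')
    (sheaf' : ∀ x ∈ LU', ∃ N : ℕ, φ ^ N * x ∈ LU)
    {E : Type*} [AddCommGroup E] [Module R0 E] [IsNoetherian R0 E]
    (ρ : LU' →ₗ[R0] E) (hρ : ∀ x : LU', ρ x = 0 → φ * (x : F) ∈ LU')
    (hvanish : ∃ c : ℕ, ∀ x ∈ LU, φ ^ c * x ∈ LU' → x = 0)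
    (hex : ∀ m : ℕ, ∃ u ∈ LU, ∃ u' ∈ LU', ∃ w : F, (∃ a : ℕ, φ ^ a * w ∈ LU) ∧
      (∀ v ∈ LU, u ≠ algebraMap R0 F ϖ * v) ∧ u - u' = algebraMap R0 F ϖ ^ m * w) :
    ∃ h : F, h ≠ 0 ∧ h ∈ LU ∧ h ∈ LU' :=
  exists_global_section_of_finite ϖ LU LU' hφLU sheaf'
    (finiteH1_of_leading LU LU' hφ hφLU hφLU' sheaf ρ hρ hvanish) hex

end TwoChart

end Fermat.Agent.S36.FormalLift
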