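import Fermat.Agent.S36.FormalLift.Glue

/-!
# PROJECT V (S36), soft core, helper24: gluing and local-to-global divisibility, valuation-free

Mathlib only.  `𝒜 ≤ F` the ring of a chart, `LU` the `𝒜`-module of sections of a rank-one sheaf on
the chart, `D(g i)` principal opens covering the special fibre of the chart (`g i`, `ϖ` generate the
unit ideal).  "`x` is a section on `D(g)`" is written `∃ E, g ^ E * x ∈ LU`.

* `exists_glued_section_loc` : local sections `σ i` on `D(g i)`, pairwise congruent modulo `ϖ ^ m`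
  on the overlaps `D(g i * g j)`, glue to `u ∈ LU` with `u ≡ σ j` modulo `ϖ ^ m` on every `D(g j)`.
* `div_pow_mem_of_local` : divisibility by `ϖ ^ m` in `LU` is local on such a cover.
* `not_eq_mul_of_local_generator` : the glued section is primitive.
-/

set_option autoImplicit false

namespace Fermat.Agent.S36.FormalLift

open scoped BigOperators

variable {R0 : Type*} [CommRing R0] {F : Type*} [Field F] [Algebra R0 F]

/-- raising the exponent -/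
theorem pow_mul_mem_module_of_le (𝒜 : Subring F) (LU : Submodule R0 F)
    (hLU : ∀ a ∈ 𝒜, ∀ x ∈ LU, a * x ∈ LU) {g : F} (hg : g ∈ 𝒜) {x : F} {E E' : ℕ} (h : E ≤ E')
    (hx : g ^ E * x ∈ LU) : g ^ E' * x ∈ LU := by
  obtain ⟨d, rfl⟩ := Nat.exists_eq_add_of_le h
  have : g ^ (E + d) * x = g ^ d * (g ^ E * x) := by ring
  rw [this]
  exact hLU _ (pow_mem hg _) _ hx

/-- **Gluing local sections** (valuation-free form). -/
theorem exists_glued_section_loc {ι : Type*} [Fintype ι] (𝒜 : Subring F) (LU : Submodule R0 F)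
    (hLU : ∀ a ∈ 𝒜, ∀ x ∈ LU, a * x ∈ LU) (ϖ : 𝒜) (hϖ0 : (ϖ : F) ≠ 0)
    (g : ι → 𝒜) (hcover : Ideal.span (Set.range g) ⊔ Ideal.span {ϖ} = ⊤)
    (σ : ι → F) (m : ℕ) (hsec : ∀ i, ∃ E : ℕ, (g i : F) ^ E * σ i ∈ LU)
    (hcong : ∀ i j, ∃ E : ℕ,
      ((g i : F) * (g j : F)) ^ E * ((σ i - σ j) / (ϖ : F) ^ m) ∈ LU) :
    ∃ u ∈ LU, ∀ j, ∃ E : ℕ, (g j : F) ^ E * ((u - σ j) / (ϖ : F) ^ m) ∈ LU := by
  classical
  choose E1 hE1 using hsec
  choose E2 hE2 using hcong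
  set E : ℕ := ∑ i, E1 i + ∑ i, ∑ j, E2 i j with hE
  have hE1le : ∀ i, E1 i ≤ E := fun i =>
    le_trans (Finset.single_le_sum (f := E1) (fun _ _ => Nat.zero_le _) (Finset.mem_univ i))
      (Nat.le_add_right _ _)
  have hE2le : ∀ i j, E2 i j ≤ E := fun i j =>
    le_trans (le_trans
      (Finset.single_le_sum (f := fun j => E2 i j) (fun _ _ => Nat.zero_le _) (Finset.mem_univ j))
      (Finset.single_le_sum (f := fun i => ∑ j, E2 i j) (fun _ _ => Nat.zero_le _)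
        (Finset.mem_univ i))) (Nat.le_add_left _ _)
  obtain ⟨b, c, hbc⟩ := exists_partition_pow g ϖ hcover E m
  have hbcF : ∑ i, (b i : F) * (g i : F) ^ E = 1 + (ϖ : F) ^ m * (c : F) := by
    have := congrArg (fun x : 𝒜 => (x : F)) hbc
    simpa using this
  have hsecE : ∀ i, (g i : F) ^ E * σ i ∈ LU := fun i =>
    pow_mul_mem_module_of_le 𝒜 LU hLU (g i).2 (hE1le i) (hE1 i)
  refine ⟨∑ i, (b i : F) * ((g i : F) ^ E * σ i), ?_, fun j => ⟨E, ?_⟩⟩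
  · exact Submodule.sum_mem _ fun i _ => hLU _ (b i).2 _ (hsecE i)
  · have hϖm : (ϖ : F) ^ m ≠ 0 := pow_ne_zero _ hϖ0
    rw [glue_identity (fun i => (b i : F)) (fun i => (g i : F)) σ E m (ϖ : F) (c : F) (σ j) hϖm
      hbcF, mul_add, Finset.mul_sum]
    refine LU.add_mem (Submodule.sum_mem _ fun i _ => ?_) ?_
    · have h1 : ((g i : F) * (g j : F)) ^ E * ((σ i - σ j) / (ϖ : F) ^ m) ∈ LU :=
        pow_mul_mem_module_of_le 𝒜 LU hLU (𝒜.mul_mem (g i).2 (g j).2) (hE2le i j) (hE2 i j)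
      have h2 : (g j : F) ^ E * ((b i : F) * (g i : F) ^ E * ((σ i - σ j) / (ϖ : F) ^ m)) =
          (b i : F) * (((g i : F) * (g j : F)) ^ E * ((σ i - σ j) / (ϖ : F) ^ m)) := by
        rw [mul_pow]; ring
      rw [h2]
      exact hLU _ (b i).2 _ h1
    · have h2 : (g j : F) ^ E * ((c : F) * σ j) = (c : F) * ((g j : F) ^ E * σ j) := by ring
      rw [h2]
      exact hLU _ c.2 _ (hsecE j)

/-- **Divisibility by `ϖ ^ m` is local**, partition form: `h k`, `k : κ`, elements of the chart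
ring `𝒜` admitting partitions of unity `∑ b k * h k ^ E = 1 + ϖ ^ m * c` for every `E`. -/
theorem div_pow_mem_of_partition {κ : Type*} [Fintype κ] (𝒜 : Subring F) (L : Submodule R0 F)
    (hL : ∀ a ∈ 𝒜, ∀ x ∈ L, a * x ∈ L) (ϖ : F) (h : κ → F) (hh : ∀ k, h k ∈ 𝒜) (m : ℕ)
    (hpart : ∀ E : ℕ, ∃ b : κ → F, (∀ k, b k ∈ 𝒜) ∧ ∃ c ∈ 𝒜,
      ∑ k, b k * h k ^ E = 1 + ϖ ^ m * c)
    {x : F} (hx : x ∈ L) (hloc : ∀ k, ∃ E : ℕ, h k ^ E * (x / ϖ ^ m) ∈ L) :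
    x / ϖ ^ m ∈ L := by
  classical
  by_cases hϖ0 : ϖ ^ m = 0
  · rw [hϖ0, div_zero]
    exact L.zero_mem
  choose E1 hE1 using hloc
  set E : ℕ := ∑ k, E1 k with hE
  have hE1le : ∀ k, E1 k ≤ E := fun k =>
    Finset.single_le_sum (f := E1) (fun _ _ => Nat.zero_le _) (Finset.mem_univ k)
  obtain ⟨b, hb, c, hc, hbc⟩ := hpart E
  have key : x / ϖ ^ m = ∑ k, b k * (h k ^ E * (x / ϖ ^ m)) - c * x := by
    have h1 : ∑ k, b k * (h k ^ E * (x / ϖ ^ m)) = (∑ k, b k * h k ^ E) * (x / ϖ ^ m) := by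
      rw [Finset.sum_mul]
      refine Finset.sum_congr rfl fun k _ => ?_
      ring
    rw [h1, hbc]
    field_simp
    ring
  rw [key]
  refine L.sub_mem (Submodule.sum_mem _ fun k _ => ?_) (hL _ hc _ hx)
  exact hL _ (hb k) _ (pow_mul_mem_module_of_le 𝒜 L hL (hh k) (hE1le k) (hE1 k))

/-- the partition of unity of a product cover, from partitions on two subrings -/
theorem exists_partition_prod {ι ι' : Type*} [Fintype ι] [Fintype ι'] (𝒜 𝒜' 𝒜'' : Subring F)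
    (h𝒜 : 𝒜 ≤ 𝒜'') (h𝒜' : 𝒜' ≤ 𝒜'') (ϖ : 𝒜) (ϖ' : 𝒜') (hϖ : (ϖ : F) = (ϖ' : F))
    (g : ι → 𝒜) (hcover : Ideal.span (Set.range g) ⊔ Ideal.span {ϖ} = ⊤)
    (g' : ι' → 𝒜') (hcover' : Ideal.span (Set.range g') ⊔ Ideal.span {ϖ'} = ⊤) (m E : ℕ) :
    ∃ b : ι × ι' → F, (∀ k, b k ∈ 𝒜'') ∧ ∃ c ∈ 𝒜'',
      ∑ k : ι × ι', b k * ((g k.1 : F) * (g' k.2 : F)) ^ E = 1 + (ϖ : F) ^ m * c := by
  classical
  obtain ⟨b, c, hbc⟩ := exists_partition_pow g ϖ hcover E m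
  obtain ⟨b', c', hbc'⟩ := exists_partition_pow g' ϖ' hcover' E m
  have hbcF : ∑ i, (b i : F) * (g i : F) ^ E = 1 + (ϖ : F) ^ m * (c : F) := by
    have := congrArg (fun x : 𝒜 => (x : F)) hbc
    simpa using this
  have hbcF' : ∑ j, (b' j : F) * (g' j : F) ^ E = 1 + (ϖ : F) ^ m * (c' : F) := by
    have := congrArg (fun x : 𝒜' => (x : F)) hbc'
    rw [hϖ]
    simpa using this
  refine ⟨fun k => (b k.1 : F) * (b' k.2 : F),
    fun k => 𝒜''.mul_mem (h𝒜 (b k.1).2) (h𝒜' (b' k.2).2),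
    (c : F) + (c' : F) + (ϖ : F) ^ m * (c : F) * (c' : F), ?_, ?_⟩
  · exact 𝒜''.add_mem (𝒜''.add_mem (h𝒜 c.2) (h𝒜' c'.2))
      (𝒜''.mul_mem (𝒜''.mul_mem (pow_mem (h𝒜 ϖ.2) _) (h𝒜 c.2)) (h𝒜' c'.2))
  · have h1 : ∑ k : ι × ι', (b k.1 : F) * (b' k.2 : F) * ((g k.1 : F) * (g' k.2 : F)) ^ E =
        (∑ i, (b i : F) * (g i : F) ^ E) * (∑ j, (b' j : F) * (g' j : F) ^ E) := by
      rw [Finset.sum_mul_sum, ← Finset.sum_product']
      refine Finset.sum_congr rfl fun k _ => ?_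
      rw [mul_pow]
      ring
    rw [h1, hbcF, hbcF']
    ring

/-- **Divisibility by `ϖ ^ m` is local** on a cover of the special fibre by principal opens. -/
theorem div_pow_mem_of_local {κ : Type*} [Fintype κ] (𝒜 : Subring F) (L : Submodule R0 F)
    (hL : ∀ a ∈ 𝒜, ∀ x ∈ L, a * x ∈ L) (ϖ : 𝒜) (h : κ → 𝒜)
    (hcover : Ideal.span (Set.range h) ⊔ Ideal.span {ϖ} = ⊤) (m : ℕ) {x : F} (hx : x ∈ L)
    (hloc : ∀ k, ∃ E : ℕ, (h k : F) ^ E * (x / (ϖ : F) ^ m) ∈ L) : x / (ϖ : F) ^ m ∈ L := by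
  refine div_pow_mem_of_partition 𝒜 L hL (ϖ : F) (fun k => (h k : F)) (fun k => (h k).2) m
    (fun E => ?_) hx hloc
  obtain ⟨b, c, hbc⟩ := exists_partition_pow h ϖ hcover E m
  refine ⟨fun k => (b k : F), fun k => (b k).2, (c : F), c.2, ?_⟩
  have := congrArg (fun x : 𝒜 => (x : F)) hbc
  simpa using this

/-- **The glued section is primitive.**  If `u ≡ σ` modulo `ϖ ^ m` on `D(g)`, `m ≥ 1`, where
`σ = s * v`, `s` generates `LU` on `D(g)`, `v` is a unit modulo `ϖ ^ m` of the ring `S` of `D(g)`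
(in the form `w * v ^ n - 1 ∈ ϖ ^ m S`, `n ≥ 1`) and `ϖ` is not a unit of `S`, then `u` is not
`ϖ` times a section on `D(g)`. -/
theorem not_eq_mul_of_local_generator (S : Subring F) {ϖ s v w u : F} {n m : ℕ}
    (hn0 : 0 < n) (hm : 0 < m) (hϖS : ϖ ∈ S) (hϖinv : ϖ⁻¹ ∉ S) (hϖ0 : ϖ ≠ 0) (hs0 : s ≠ 0)
    (hw : w ∈ S)
    (hunit : ∃ y ∈ S, w * v ^ n - 1 = ϖ ^ m * y)
    {y z : F} (hy : y / s ∈ S) (hz : z / s ∈ S)
    (hu : u - s * v = ϖ ^ m * y) : u ≠ ϖ * z := by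
  intro huz
  -- `v = ϖ * a` with `a ∈ S`
  set a := z / s - ϖ ^ (m - 1) * (y / s) with ha
  have haS : a ∈ S := S.sub_mem hz (S.mul_mem (pow_mem hϖS _) hy)
  have hϖm : ϖ ^ m = ϖ * ϖ ^ (m - 1) := by rw [← pow_succ', Nat.sub_add_cancel hm]
  have hva : v = ϖ * a := by
    have h1 : s * v = ϖ * z - ϖ ^ m * y := by rw [← huz, ← hu]; ring
    have h2 : v = (ϖ * z - ϖ ^ m * y) / s := by rw [← h1]; field_simp
    rw [h2, ha, hϖm]
    field_simp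
  obtain ⟨b, hb, e⟩ := hunit
  -- `1 = ϖ * (w * ϖ ^ (n - 1) * a ^ n - ϖ ^ (m - 1) * b)`
  have hϖn : ϖ ^ n = ϖ * ϖ ^ (n - 1) := by rw [← pow_succ', Nat.sub_add_cancel hn0]
  have h1 : (1 : F) = ϖ * (w * ϖ ^ (n - 1) * a ^ n - ϖ ^ (m - 1) * b) := by
    have : (1 : F) = w * v ^ n - ϖ ^ m * b := by rw [← e]; ring
    rw [this, hva, mul_pow, hϖn, hϖm]
    ring
  apply hϖinv
  have h2 : ϖ⁻¹ = w * ϖ ^ (n - 1) * a ^ n - ϖ ^ (m - 1) * b := by
    rw [eq_comm, ← mul_right_inj' hϖ0, ← h1, mul_inv_cancel₀ hϖ0]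
  rw [h2]
  exact S.sub_mem (S.mul_mem (S.mul_mem hw (pow_mem hϖS _)) (pow_mem haS _))
    (S.mul_mem (pow_mem hϖS _) hb)

end Fermat.Agent.S36.FormalLift
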