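import Fermat.Agent.S36.FormalLift.Away
import Fermat.Agent.S36.FormalLift.GlueLoc
import Fermat.Agent.S36.FormalLift.Fil

/-!
# PROJECT V (S36): THE SOFT CORE (helper24), line-bundle form, valuation-free

Mathlib + `FormalLift/*`.  Exported theorem: `SoftCore.exists_global_section` (and its level-wise
form `SoftCore.exists_global_section_of_normalised`).

## Informal statement

`X` a model over a noetherian base `R0` (`ϖ ∈ R0`), given inside its function field `F` by two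
affine charts `U = {φ ≠ ∞}`, `U' = {φ ≠ 0}` with rings `𝒜`, `𝒜' ≤ F` (`φ ∈ 𝒜`, `φ⁻¹ ∈ 𝒜'`,
`𝒜' ⊆ 𝒜[1/φ]`).  A rank-one sheaf `𝓛 ⊆ F` is given by its sections `LU`, `LU'` on the charts
(`LU[1/φ] = LU'[φ]`).  Suppose

* (`Charts`) the special fibres of `U`, `U'` are covered by principal opens `D(g i)`, `D(g' j)`;
* (`Charts.FiniteH1`) `H¹(X, 𝓛) = 𝓛(U ∩ U') ⧸ (LU + LU')` is a finitely generated `R0`-module
  (`Charts.finiteH1_of_span`: true if `LU` is finitely generated over `R0[φ]`);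
* (`LocalGen`) `𝓛` has generators `s i`, `s' j` on the opens, and the special fibre of one
  `D(g i₀)` is not empty;
* (`RootData`) `f ∈ F` with `f * s ^ n` a function on each open, `n` invertible modulo `ϖ`, and
  functions `t i`, `t' j` on the opens with `f (s t) ^ n ≡ 1` modulo `rad (ϖ)` ("`s t` is an
  `n`-th root of `1 / f` on the REDUCED special fibre") such that the `s t` agree modulo
  `rad (ϖ)` on all pairwise overlaps.

Then `𝓛` has a nonzero global section: `∃ h ≠ 0, h ∈ LU ⊓ LU'`.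

No completeness, no valuations, no reducedness or normality of anything: the deformation from the
reduced fibre to all thickenings is Newton's method modulo the nil ideal `rad (ϖ) / (ϖ ^ m)`
(`NthRoot.lean`), the local trivialisations glue by uniqueness (`Away.lean`), a partition of unity
produces sections `u_m ∈ LU`, `u'_m ∈ LU'` congruent modulo `ϖ ^ m` (`GlueLoc.lean`), and the
finiteness of `H¹` bounds the `ϖ`-torsion (`Basic.lean`, `Fil.lean`).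

`exists_global_section_of_normalised` is the second half alone: it starts from local generators
`s i * v i` already normalised modulo `ϖ ^ M` (`Normalised`), for every `M`.
-/

set_option autoImplicit false

namespace Fermat.Agent.S36.SoftCore

open Fermat.Agent.S36.FormalLift

/-- Two affine charts of a model inside its function field `F`, a rank-one sheaf on it, and finite
covers of the special fibres of the charts by principal opens. -/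
structure Charts (R0 : Type*) [CommRing R0] (F : Type*) [Field F] [Algebra R0 F]
    (ι ι' : Type*) where
  /-- the uniformiser -/
  ϖ : R0
  hϖ0 : algebraMap R0 F ϖ ≠ 0
  /-- the ring of `U = {φ ≠ ∞}` -/
  𝒜 : Subring F
  /-- the ring of `U' = {φ ≠ 0}` -/
  𝒜' : Subring F
  hR0 : ∀ r : R0, algebraMap R0 F r ∈ 𝒜
  hR0' : ∀ r : R0, algebraMap R0 F r ∈ 𝒜'
  /-- the chart function -/
  φ : F
  hφ0 : φ ≠ 0
  hφ : φ ∈ 𝒜
  hφ' : φ⁻¹ ∈ 𝒜'
  h𝒜' : ∀ x ∈ 𝒜', ∃ N : ℕ, φ ^ N * x ∈ 𝒜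
  /-- sections of `𝓛` on `U` -/
  LU : Submodule R0 F
  /-- sections of `𝓛` on `U'` -/
  LU' : Submodule R0 F
  hLU : ∀ a ∈ 𝒜, ∀ x ∈ LU, a * x ∈ LU
  hLU' : ∀ a ∈ 𝒜', ∀ x ∈ LU', a * x ∈ LU'
  sheaf : ∀ x ∈ LU, ∃ N : ℕ, φ⁻¹ ^ N * x ∈ LU'
  sheaf' : ∀ x ∈ LU', ∃ N : ℕ, φ ^ N * x ∈ LU
  /-- principal opens covering the special fibre of `U` -/
  g : ι → 𝒜
  hcover : Ideal.span (Set.range g) ⊔ Ideal.span {(⟨algebraMap R0 F ϖ, hR0 ϖ⟩ : 𝒜)} = ⊤
  /-- principal opens covering the special fibre of `U'` -/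
  g' : ι' → 𝒜'
  hcover' : Ideal.span (Set.range g') ⊔ Ideal.span {(⟨algebraMap R0 F ϖ, hR0' ϖ⟩ : 𝒜')} = ⊤

namespace Charts

variable {R0 : Type*} [CommRing R0] {F : Type*} [Field F] [Algebra R0 F]
  {ι ι' : Type*} (C : Charts R0 F ι ι')

/-- the uniformiser in `F` -/
def ϖF : F := algebraMap R0 F C.ϖ

/-- the ring of `D(g i) ⊆ U` -/
def S (i : ι) : Subring F := awaySubring C.𝒜 (C.g i) (C.g i).2

/-- the ring of `D(g' j) ⊆ U'` -/
def S' (j : ι') : Subring F := awaySubring C.𝒜' (C.g' j) (C.g' j).2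

/-- the ring of `D(g i) ∩ D(g j)` -/
def S₂ (i j : ι) : Subring F :=
  awaySubring C.𝒜 ((C.g i : F) * (C.g j : F)) (C.𝒜.mul_mem (C.g i).2 (C.g j).2)

/-- the ring of `D(g' i) ∩ D(g' j)` -/
def S₂' (i j : ι') : Subring F :=
  awaySubring C.𝒜' ((C.g' i : F) * (C.g' j : F)) (C.𝒜'.mul_mem (C.g' i).2 (C.g' j).2)

/-- the ring of `U ∩ U'` -/
def 𝒜'' : Subring F := awaySubring C.𝒜 C.φ C.hφ

theorem 𝒜_le : C.𝒜 ≤ C.𝒜'' := le_awaySubring _ _ _

theorem 𝒜'_le : C.𝒜' ≤ C.𝒜'' := fun x hx => C.h𝒜' x hx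

/-- the ring of `D(g i) ∩ D(g' j)` -/
def Smix (i : ι) (j : ι') : Subring F :=
  awaySubring C.𝒜'' ((C.g i : F) * (C.g' j : F))
    (C.𝒜''.mul_mem (C.𝒜_le (C.g i).2) (C.𝒜'_le (C.g' j).2))

theorem φ_mul_mem : ∀ x ∈ C.LU, C.φ * x ∈ C.LU := fun _ hx => C.hLU _ C.hφ _ hx

theorem φ_inv_mul_mem : ∀ x ∈ C.LU', C.φ⁻¹ * x ∈ C.LU' := fun _ hx => C.hLU' _ C.hφ' _ hx

/-- sections of `𝓛` on `U ∩ U'` -/
def LUU' : Submodule R0 F := overlap C.LU C.φ C.φ_mul_mem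

/-- `H¹(X, 𝓛) = 𝓛(U ∩ U') ⧸ (𝓛(U) + 𝓛(U'))` is a finitely generated `R0`-module -/
def FiniteH1 : Prop := FormalLift.FiniteH1 C.LU C.LU' C.φ C.φ_mul_mem

/-- `H¹` is finitely generated as soon as `𝓛(U)` is finitely generated over `R0[φ]`
(helper23's Lemma FG'): `sgen` a finite subset of `LU` whose `φ`-power multiples span `LU`. -/
theorem finiteH1_of_span (sgen : Finset F) (hsgen : ∀ a ∈ sgen, a ∈ C.LU)
    (hspan : ∀ y ∈ C.LU,
      y ∈ Submodule.span R0 {z | ∃ (n : ℕ) (a : F), a ∈ sgen ∧ z = C.φ ^ n * a}) :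
    C.FiniteH1 :=
  FormalLift.finiteH1_of_span C.LU C.LU' C.hφ0 C.φ_mul_mem C.φ_inv_mul_mem C.sheaf sgen hsgen
    hspan

/-- `H¹` is finitely generated by the pole filtration along `Z = φ^*(∞)`: `ρ : LU' → E` with
`ker ρ ⊆ φ⁻¹ LU'`, `E` noetherian (e.g. `E = LU' ⧸ φ⁻¹ LU'`), and no sections in very negative
degree. -/
theorem finiteH1_of_leading [IsNoetherianRing R0] {E : Type*} [AddCommGroup E] [Module R0 E]
    [IsNoetherian R0 E] (ρ : C.LU' →ₗ[R0] E) (hρ : ∀ x : C.LU', ρ x = 0 → C.φ * (x : F) ∈ C.LU')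
    (hvanish : ∃ c : ℕ, ∀ x ∈ C.LU, C.φ ^ c * x ∈ C.LU' → x = 0) : C.FiniteH1 :=
  FormalLift.finiteH1_of_leading C.LU C.LU' C.hφ0 C.φ_mul_mem C.φ_inv_mul_mem C.sheaf ρ hρ
    hvanish

theorem LU_le : C.LU ≤ C.LUU' := le_overlap _ _ _

theorem LU'_le : C.LU' ≤ C.LUU' := fun x hx => C.sheaf' x hx

theorem mul_mem_LUU' : ∀ a ∈ C.𝒜'', ∀ x ∈ C.LUU', a * x ∈ C.LUU' := by
  rintro a ⟨e1, h1⟩ x ⟨e2, h2⟩
  refine ⟨e1 + e2, ?_⟩
  have : C.φ ^ (e1 + e2) * (a * x) = (C.φ ^ e1 * a) * (C.φ ^ e2 * x) := by rw [pow_add]; ring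
  rw [this]
  exact C.hLU _ h1 _ h2

theorem S_le_S₂_left (i j : ι) : C.S i ≤ C.S₂ i j :=
  awaySubring_le_mul_left C.𝒜 (C.g i).2 (C.g j).2

theorem S_le_S₂_right (i j : ι) : C.S j ≤ C.S₂ i j :=
  awaySubring_le_mul_right C.𝒜 (C.g i).2 (C.g j).2

theorem S'_le_S₂'_left (i j : ι') : C.S' i ≤ C.S₂' i j :=
  awaySubring_le_mul_left C.𝒜' (C.g' i).2 (C.g' j).2

theorem S'_le_S₂'_right (i j : ι') : C.S' j ≤ C.S₂' i j :=
  awaySubring_le_mul_right C.𝒜' (C.g' i).2 (C.g' j).2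

theorem S_le_Smix (i : ι) (j : ι') : C.S i ≤ C.Smix i j :=
  (awaySubring_mono C.𝒜_le (C.g i).2).trans
    (awaySubring_le_mul_left C.𝒜'' (C.𝒜_le (C.g i).2) (C.𝒜'_le (C.g' j).2))

theorem S'_le_Smix (i : ι) (j : ι') : C.S' j ≤ C.Smix i j :=
  (awaySubring_mono C.𝒜'_le (C.g' j).2).trans
    (awaySubring_le_mul_right C.𝒜'' (C.𝒜_le (C.g i).2) (C.𝒜'_le (C.g' j).2))

theorem algebraMap_mem_S (i : ι) (r : R0) : algebraMap R0 F r ∈ C.S i :=
  le_awaySubring _ _ _ (C.hR0 r)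

theorem algebraMap_mem_S' (j : ι') (r : R0) : algebraMap R0 F r ∈ C.S' j :=
  le_awaySubring _ _ _ (C.hR0' r)

end Charts

/-- Local generators of the sheaf of `C` on the opens of the two covers (local freeness near the
special fibre), and an open `D(g i₀)` whose special fibre is not empty. -/
structure LocalGen {R0 : Type*} [CommRing R0] {F : Type*} [Field F] [Algebra R0 F]
    {ι ι' : Type*} (C : Charts R0 F ι ι') where
  /-- local generators of `𝓛` on `D(g i)` -/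
  s : ι → F
  hs0 : ∀ i, s i ≠ 0
  hs_mem : ∀ i, ∃ e : ℕ, (C.g i : F) ^ e * s i ∈ C.LU
  hs_gen : ∀ i, ∀ x ∈ C.LU, x / s i ∈ C.S i
  /-- local generators of `𝓛` on `D(g' j)` -/
  s' : ι' → F
  hs0' : ∀ j, s' j ≠ 0
  hs_mem' : ∀ j, ∃ e : ℕ, (C.g' j : F) ^ e * s' j ∈ C.LU'
  hs_gen' : ∀ j, ∀ x ∈ C.LU', x / s' j ∈ C.S' j
  /-- an open of the cover of `U` with nonempty special fibre -/
  i₀ : ι
  hi₀ : C.ϖF⁻¹ ∉ C.S i₀

/-- Local generators `s i * v i`, `s' j * v' j` normalised at level `M`: pairwise congruent modulo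
`ϖ ^ M` on all overlaps, and `f (s i₀ * v i₀) ^ n ≡ 1` modulo `ϖ ^ M`. -/
structure Normalised {R0 : Type*} [CommRing R0] {F : Type*} [Field F] [Algebra R0 F]
    {ι ι' : Type*} (C : Charts R0 F ι ι') (G : LocalGen C) (n : ℕ) (f : F) (M : ℕ) where
  v : ι → F
  hv : ∀ i, v i ∈ C.S i
  v' : ι' → F
  hv' : ∀ j, v' j ∈ C.S' j
  hpair : ∀ i j, DvdIn (C.S₂ i j) (C.ϖF ^ M) (G.s i / G.s j * v i - v j)
  hpair' : ∀ i j, DvdIn (C.S₂' i j) (C.ϖF ^ M) (G.s' i / G.s' j * v' i - v' j)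
  hpairmix : ∀ i j, DvdIn (C.Smix i j) (C.ϖF ^ M) (G.s i / G.s' j * v i - v' j)
  hunit : DvdIn (C.S G.i₀) (C.ϖF ^ M) (f * G.s G.i₀ ^ n * v G.i₀ ^ n - 1)

/-- An `n`-torsion structure on the sheaf of `C` and an `n`-th root on the reduced special
fibre, in the local trivialisations `G`. -/
structure RootData {R0 : Type*} [CommRing R0] {F : Type*} [Field F] [Algebra R0 F]
    {ι ι' : Type*} (C : Charts R0 F ι ι') (G : LocalGen C) where
  n : ℕ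
  hn0 : 0 < n
  hn : ∃ n' c : R0, (n : R0) * n' = 1 + C.ϖ * c
  /-- `div f = n D` -/
  f : F
  hw : ∀ i, f * G.s i ^ n ∈ C.S i
  hw' : ∀ j, f * G.s' j ^ n ∈ C.S' j
  /-- the root on the reduced special fibre, in the local trivialisations -/
  t : ι → F
  ht : ∀ i, t i ∈ C.S i
  hroot : ∀ i, RadIn (C.S i) C.ϖF (f * G.s i ^ n * t i ^ n - 1)
  t' : ι' → F
  ht' : ∀ j, t' j ∈ C.S' j
  hroot' : ∀ j, RadIn (C.S' j) C.ϖF (f * G.s' j ^ n * t' j ^ n - 1)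
  hcompat : ∀ i j, RadIn (C.S₂ i j) C.ϖF (G.s i / G.s j * t i - t j)
  hcompat' : ∀ i j, RadIn (C.S₂' i j) C.ϖF (G.s' i / G.s' j * t' i - t' j)
  hcompat_mix : ∀ i j, RadIn (C.Smix i j) C.ϖF (G.s i / G.s' j * t i - t' j)

/-! ### Generic one-chart lemmas -/

section Generic

variable {R0 : Type*} [CommRing R0] {F : Type*} [Field F] [Algebra R0 F]

/-- the transition function between two local generators is a function on the overlap -/
theorem div_mem_awaySubring_mul (𝒜 : Subring F) (LU : Submodule R0 F) {gi gj si sj : F}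
    (hgi : gi ∈ 𝒜) (hgj : gj ∈ 𝒜) (hmem : ∃ e : ℕ, gi ^ e * si ∈ LU)
    (hgen : ∀ x ∈ LU, x / sj ∈ awaySubring 𝒜 gj hgj) :
    si / sj ∈ awaySubring 𝒜 (gi * gj) (𝒜.mul_mem hgi hgj) := by
  obtain ⟨e, he⟩ := hmem
  obtain ⟨e', he'⟩ := hgen _ he
  refine ⟨e + e', ?_⟩
  have h1 : (gi * gj) ^ (e + e') * (si / sj) =
      (gi ^ e' * gj ^ e) * (gj ^ e' * (gi ^ e * si / sj)) := by
    rw [mul_pow, pow_add, pow_add]
    ring
  rw [h1]
  exact 𝒜.mul_mem (𝒜.mul_mem (pow_mem hgi _) (pow_mem hgj _)) he'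

/-- a function on `D(g)` times a section on `D(g)` is a section on `D(g)` -/
theorem exists_pow_mul_mem (𝒜 : Subring F) (LU : Submodule R0 F)
    (hLU : ∀ a ∈ 𝒜, ∀ x ∈ LU, a * x ∈ LU) {g y x : F} (hg : g ∈ 𝒜)
    (hy : y ∈ awaySubring 𝒜 g hg) (hx : ∃ e : ℕ, g ^ e * x ∈ LU) :
    ∃ e : ℕ, g ^ e * (x * y) ∈ LU := by
  obtain ⟨e1, h1⟩ := hy
  obtain ⟨e2, h2⟩ := hx
  refine ⟨e1 + e2, ?_⟩
  have : g ^ (e1 + e2) * (x * y) = (g ^ e1 * y) * (g ^ e2 * x) := by rw [pow_add]; ring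
  rw [this]
  exact hLU _ h1 _ h2

/-- **One chart.**  Normalised local generators `s i * v i`, pairwise congruent modulo `ϖ ^ M` on
the overlaps, glue to a section `u` with `u ≡ s j * v j` modulo `ϖ ^ M` on every `D(g j)`. -/
theorem exists_glued_of_dvdIn {ι : Type*} [Fintype ι] (𝒜 : Subring F) (LU : Submodule R0 F)
    (hLU : ∀ a ∈ 𝒜, ∀ x ∈ LU, a * x ∈ LU) (ϖ : 𝒜) (hϖ0 : (ϖ : F) ≠ 0)
    (g : ι → 𝒜) (hcover : Ideal.span (Set.range g) ⊔ Ideal.span {ϖ} = ⊤)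
    (s v : ι → F) (hs0 : ∀ i, s i ≠ 0) (hs_mem : ∀ i, ∃ e : ℕ, (g i : F) ^ e * s i ∈ LU)
    (hv : ∀ i, v i ∈ awaySubring 𝒜 (g i) (g i).2) (M : ℕ)
    (hpair : ∀ i j, DvdIn (awaySubring 𝒜 ((g i : F) * (g j : F)) (𝒜.mul_mem (g i).2 (g j).2))
      ((ϖ : F) ^ M) (s i / s j * v i - v j)) :
    ∃ u ∈ LU, ∀ j, ∃ e : ℕ, (g j : F) ^ e * ((u - s j * v j) / (ϖ : F) ^ M) ∈ LU := by
  refine exists_glued_section_loc 𝒜 LU hLU ϖ hϖ0 g hcover (fun i => s i * v i) M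
    (fun i => exists_pow_mul_mem 𝒜 LU hLU (g i).2 (hv i) (hs_mem i)) (fun i j => ?_)
  obtain ⟨y, hy, e⟩ := exists_sub_div_eq_mul hϖ0 (hs0 j) (hpair i j)
  rw [e]
  refine exists_pow_mul_mem 𝒜 LU hLU (𝒜.mul_mem (g i).2 (g j).2) hy ?_
  obtain ⟨e2, h2⟩ := hs_mem j
  refine ⟨e2, ?_⟩
  have : ((g i : F) * (g j : F)) ^ e2 * s j = (g i : F) ^ e2 * ((g j : F) ^ e2 * s j) := by
    rw [mul_pow]; ring
  rw [this]
  exact hLU _ (pow_mem (g i).2 _) _ h2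

end Generic

/-! ### The soft core -/

section Main

variable {R0 : Type*} [CommRing R0] {F : Type*} [Field F] [Algebra R0 F]
  {ι ι' : Type*} [Fintype ι] [Fintype ι']

/-- **From normalised generators to sections.**  At a level `M ≥ 1`, normalised local generators
produce `u ∈ LU`, `u' ∈ LU'` congruent modulo `ϖ ^ M` on the overlap, with `u` primitive. -/
theorem exists_sections_of_normalised (C : Charts R0 F ι ι') (G : LocalGen C) {n : ℕ}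
    (hn0 : 0 < n) {f : F} (hw₀ : f * G.s G.i₀ ^ n ∈ C.S G.i₀) {M : ℕ} (hMpos : 0 < M)
    (N : Normalised C G n f M) :
    ∃ u ∈ C.LU, ∃ u' ∈ C.LU', (u - u') / C.ϖF ^ M ∈ C.LUU' ∧ ∀ z ∈ C.LU, u ≠ C.ϖF * z := by
  classical
  have hϖ0 : C.ϖF ≠ 0 := C.hϖ0
  -- glue on each chart
  obtain ⟨u, huLU, hu⟩ := exists_glued_of_dvdIn C.𝒜 C.LU C.hLU ⟨C.ϖF, C.hR0 C.ϖ⟩ hϖ0 C.g
    C.hcover G.s N.v G.hs0 G.hs_mem N.hv M N.hpair
  obtain ⟨u', huLU', hu'⟩ := exists_glued_of_dvdIn C.𝒜' C.LU' C.hLU' ⟨C.ϖF, C.hR0' C.ϖ⟩ hϖ0 C.g'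
    C.hcover' G.s' N.v' G.hs0' G.hs_mem' N.hv' M N.hpair'
  simp only [] at hu hu'
  refine ⟨u, huLU, u', huLU', ?_, ?_⟩
  -- the two sections are congruent on the overlap
  · refine div_pow_mem_of_partition C.𝒜'' C.LUU' C.mul_mem_LUU' C.ϖF
      (fun k : ι × ι' => (C.g k.1 : F) * (C.g' k.2 : F))
      (fun k => C.𝒜''.mul_mem (C.𝒜_le (C.g k.1).2) (C.𝒜'_le (C.g' k.2).2)) M
      (fun e => exists_partition_prod C.𝒜 C.𝒜' C.𝒜'' C.𝒜_le C.𝒜'_le ⟨C.ϖF, C.hR0 C.ϖ⟩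
        ⟨C.ϖF, C.hR0' C.ϖ⟩ rfl C.g C.hcover C.g' C.hcover' M e)
      (C.LUU'.sub_mem (C.LU_le huLU) (C.LU'_le huLU')) ?_
    rintro ⟨i, j⟩
    simp only []
    obtain ⟨e1, h1⟩ := hu i
    obtain ⟨e2, h2⟩ := hu' j
    obtain ⟨y, hy, ey⟩ := exists_sub_div_eq_mul hϖ0 (G.hs0' j) (N.hpairmix i j)
    obtain ⟨e3, h3⟩ := hy
    obtain ⟨e4, h4⟩ := G.hs_mem' j
    have hϖM : C.ϖF ^ M ≠ 0 := pow_ne_zero _ hϖ0
    have hdecomp : (u - u') / C.ϖF ^ M = (u - G.s i * N.v i) / C.ϖF ^ M -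
        (u' - G.s' j * N.v' j) / C.ϖF ^ M + G.s' j * y := by
      rw [← ey]
      field_simp
      ring
    have hgi : (C.g i : F) ∈ C.𝒜'' := C.𝒜_le (C.g i).2
    have hgj : (C.g' j : F) ∈ C.𝒜'' := C.𝒜'_le (C.g' j).2
    have hgg : (C.g i : F) * (C.g' j : F) ∈ C.𝒜'' := C.𝒜''.mul_mem hgi hgj
    -- the three terms
    have t1 : ((C.g i : F) * (C.g' j : F)) ^ e1 * ((u - G.s i * N.v i) / C.ϖF ^ M) ∈
        C.LUU' := by
      have : ((C.g i : F) * (C.g' j : F)) ^ e1 * ((u - G.s i * N.v i) / C.ϖF ^ M) =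
          (C.g' j : F) ^ e1 * ((C.g i : F) ^ e1 * ((u - G.s i * N.v i) / C.ϖF ^ M)) := by
        rw [mul_pow]; ring
      rw [this]
      exact C.mul_mem_LUU' _ (pow_mem hgj _) _ (C.LU_le h1)
    have t2 : ((C.g i : F) * (C.g' j : F)) ^ e2 * ((u' - G.s' j * N.v' j) / C.ϖF ^ M) ∈
        C.LUU' := by
      have : ((C.g i : F) * (C.g' j : F)) ^ e2 * ((u' - G.s' j * N.v' j) / C.ϖF ^ M) =
          (C.g i : F) ^ e2 * ((C.g' j : F) ^ e2 * ((u' - G.s' j * N.v' j) / C.ϖF ^ M)) := by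
        rw [mul_pow]; ring
      rw [this]
      exact C.mul_mem_LUU' _ (pow_mem hgi _) _ (C.LU'_le h2)
    have t3 : ((C.g i : F) * (C.g' j : F)) ^ (e3 + e4) * (G.s' j * y) ∈ C.LUU' := by
      have : ((C.g i : F) * (C.g' j : F)) ^ (e3 + e4) * (G.s' j * y) =
          (((C.g i : F) * (C.g' j : F)) ^ e3 * y * (C.g i : F) ^ e4) *
            ((C.g' j : F) ^ e4 * G.s' j) := by
        rw [pow_add, mul_pow, mul_pow]; ring
      rw [this]
      exact C.mul_mem_LUU' _ (C.𝒜''.mul_mem h3 (pow_mem hgi _)) _ (C.LU'_le h4)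
    refine ⟨e1 + e2 + (e3 + e4), ?_⟩
    rw [hdecomp, mul_add, mul_sub]
    refine C.LUU'.add_mem (C.LUU'.sub_mem ?_ ?_) ?_
    · exact pow_mul_mem_module_of_le C.𝒜'' C.LUU' C.mul_mem_LUU' hgg (by omega) t1
    · exact pow_mul_mem_module_of_le C.𝒜'' C.LUU' C.mul_mem_LUU' hgg (by omega) t2
    · exact pow_mul_mem_module_of_le C.𝒜'' C.LUU' C.mul_mem_LUU' hgg (by omega) t3
  -- primitivity
  · intro z hz
    obtain ⟨e1, h1⟩ := hu G.i₀
    have hϖM : C.ϖF ^ M ≠ 0 := pow_ne_zero _ hϖ0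
    set y := (u - G.s G.i₀ * N.v G.i₀) / C.ϖF ^ M with hy
    have hyS : y / G.s G.i₀ ∈ C.S G.i₀ := by
      obtain ⟨e2, h2⟩ := G.hs_gen G.i₀ _ h1
      refine ⟨e2 + e1, ?_⟩
      have : (C.g G.i₀ : F) ^ (e2 + e1) * (y / G.s G.i₀) =
          (C.g G.i₀ : F) ^ e2 * ((C.g G.i₀ : F) ^ e1 * y / G.s G.i₀) := by
        rw [pow_add]; ring
      rw [this]
      exact h2
    obtain ⟨b, hb, eb⟩ := N.hunit
    refine not_eq_mul_of_local_generator (C.S G.i₀) hn0 hMpos (C.algebraMap_mem_S G.i₀ C.ϖ)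
      G.hi₀ hϖ0 (G.hs0 G.i₀) hw₀ ⟨b, hb, eb⟩ hyS (G.hs_gen G.i₀ z hz) ?_
    have hyu : u - G.s G.i₀ * N.v G.i₀ = C.ϖF ^ M * y := by
      rw [hy]
      field_simp
    exact hyu

/-- **THE SOFT CORE, level-wise form.**  If `H¹` is finitely generated and for every level
`M ≥ 1` the local generators can be normalised modulo `ϖ ^ M`, there is a nonzero global
section. -/
theorem exists_global_section_of_normalised [IsNoetherianRing R0] (C : Charts R0 F ι ι')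
    (G : LocalGen C) (hfin : C.FiniteH1) {n : ℕ} (hn0 : 0 < n) {f : F}
    (hw₀ : f * G.s G.i₀ ^ n ∈ C.S G.i₀)
    (hN : ∀ M : ℕ, 0 < M → Nonempty (Normalised C G n f M)) :
    ∃ h : F, h ≠ 0 ∧ h ∈ C.LU ∧ h ∈ C.LU' := by
  refine exists_global_section_of_finite C.ϖ C.LU C.LU' C.φ_mul_mem C.sheaf' hfin (fun m => ?_)
  obtain ⟨N⟩ := hN (m + 1) (Nat.succ_pos m)
  obtain ⟨u, huLU, u', huLU', hw, hprim⟩ :=
    exists_sections_of_normalised C G hn0 hw₀ (Nat.succ_pos m) N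
  have hϖ0 : C.ϖF ≠ 0 := C.hϖ0
  refine ⟨u, huLU, u', huLU', C.ϖF * ((u - u') / C.ϖF ^ (m + 1)), ?_, hprim, ?_⟩
  · obtain ⟨a, ha⟩ := hw
    refine ⟨a, ?_⟩
    have : C.φ ^ a * (C.ϖF * ((u - u') / C.ϖF ^ (m + 1))) =
        C.ϖF * (C.φ ^ a * ((u - u') / C.ϖF ^ (m + 1))) := by
      ring
    rw [this]
    exact C.hLU _ (C.hR0 C.ϖ) _ ha
  · have hϖM : C.ϖF ^ (m + 1) ≠ 0 := pow_ne_zero _ hϖ0
    change u - u' = C.ϖF ^ m * (C.ϖF * ((u - u') / C.ϖF ^ (m + 1)))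
    rw [← mul_assoc, ← pow_succ]
    field_simp

omit [Fintype ι] [Fintype ι'] in
/-- **Deformation.**  A root on the reduced special fibre gives normalised local generators at
every level (Newton modulo the nil ideal `rad (ϖ) / (ϖ ^ M)` and uniqueness). -/
theorem RootData.normalised {C : Charts R0 F ι ι'} {G : LocalGen C} (T : RootData C G) (M : ℕ) :
    Nonempty (Normalised C G T.n T.f M) := by
  classical
  -- `n` is invertible modulo `ϖ`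
  have hnF : ∃ n' c : R0, (T.n : F) * algebraMap R0 F n' = 1 + C.ϖF * algebraMap R0 F c := by
    obtain ⟨n', c, e⟩ := T.hn
    refine ⟨n', c, ?_⟩
    have := congrArg (algebraMap R0 F) e
    simpa [Charts.ϖF] using this
  have hnS : ∀ i, ∃ n' ∈ C.S i, ∃ c ∈ C.S i, (T.n : F) * n' = 1 + C.ϖF * c := by
    intro i
    obtain ⟨n', c, e⟩ := hnF
    exact ⟨_, C.algebraMap_mem_S i n', _, C.algebraMap_mem_S i c, e⟩
  have hnS' : ∀ j, ∃ n' ∈ C.S' j, ∃ c ∈ C.S' j, (T.n : F) * n' = 1 + C.ϖF * c := by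
    intro j
    obtain ⟨n', c, e⟩ := hnF
    exact ⟨_, C.algebraMap_mem_S' j n', _, C.algebraMap_mem_S' j c, e⟩
  -- normalised local generators modulo `ϖ ^ M`
  have hex : ∀ i, ∃ v ∈ C.S i, DvdIn (C.S i) (C.ϖF ^ M) (T.f * G.s i ^ T.n * v ^ T.n - 1) ∧
      RadIn (C.S i) C.ϖF (v - T.t i) := fun i =>
    exists_root_mod_pow_in (C.S i) (C.algebraMap_mem_S i C.ϖ) (T.hw i) (T.ht i) T.hn0 (hnS i)
      (T.hroot i) M
  have hex' : ∀ j, ∃ v ∈ C.S' j, DvdIn (C.S' j) (C.ϖF ^ M) (T.f * G.s' j ^ T.n * v ^ T.n - 1) ∧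
      RadIn (C.S' j) C.ϖF (v - T.t' j) := fun j =>
    exists_root_mod_pow_in (C.S' j) (C.algebraMap_mem_S' j C.ϖ) (T.hw' j) (T.ht' j) T.hn0 (hnS' j)
      (T.hroot' j) M
  choose v hvS hvdvd hvrad using hex
  choose v' hvS' hvdvd' hvrad' using hex'
  -- transition functions
  have htrans : ∀ i j, G.s i / G.s j ∈ C.S₂ i j := fun i j =>
    div_mem_awaySubring_mul C.𝒜 C.LU (C.g i).2 (C.g j).2 (G.hs_mem i) (G.hs_gen j)
  have htrans' : ∀ i j, G.s' i / G.s' j ∈ C.S₂' i j := fun i j =>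
    div_mem_awaySubring_mul C.𝒜' C.LU' (C.g' i).2 (C.g' j).2 (G.hs_mem' i) (G.hs_gen' j)
  have htransmix : ∀ i j, G.s i / G.s' j ∈ C.Smix i j := by
    intro i j
    obtain ⟨e, he⟩ := G.hs_mem i
    obtain ⟨N, hN⟩ := C.sheaf _ he
    obtain ⟨e', he'⟩ := G.hs_gen' j _ hN
    refine ⟨e + e', ?_⟩
    have h1 : ((C.g i : F) * (C.g' j : F)) ^ (e + e') * (G.s i / G.s' j) =
        (C.φ ^ N * ((C.g i : F) ^ e' * (C.g' j : F) ^ e)) *
          ((C.g' j : F) ^ e' * (C.φ⁻¹ ^ N * ((C.g i : F) ^ e * G.s i) / G.s' j)) := by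
      have hφN : C.φ ^ N ≠ 0 := pow_ne_zero _ C.hφ0
      rw [mul_pow, pow_add, pow_add, inv_pow]
      field_simp
    rw [h1]
    refine C.𝒜''.mul_mem (C.𝒜''.mul_mem (pow_mem (C.𝒜_le C.hφ) _)
      (C.𝒜''.mul_mem (pow_mem (C.𝒜_le (C.g i).2) _) (pow_mem (C.𝒜'_le (C.g' j).2) _)))
      (C.𝒜'_le he')
  -- pairwise congruences
  exact ⟨{
    v := v
    hv := hvS
    v' := v'
    hv' := hvS'
    hpair := fun i j =>
      dvdIn_pair (C.S i) (C.S j) (C.S₂ i j) (C.S_le_S₂_left i j) (C.S_le_S₂_right i j)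
        (C.algebraMap_mem_S j C.ϖ) (G.hs0 j) T.hn0 (hnS j) (T.hw j) (htrans i j) (hvS i) (hvS j)
        (T.ht i) (T.ht j) (hvdvd i) (hvdvd j) (hvrad i) (hvrad j) (T.hcompat i j)
    hpair' := fun i j =>
      dvdIn_pair (C.S' i) (C.S' j) (C.S₂' i j) (C.S'_le_S₂'_left i j) (C.S'_le_S₂'_right i j)
        (C.algebraMap_mem_S' j C.ϖ) (G.hs0' j) T.hn0 (hnS' j) (T.hw' j) (htrans' i j) (hvS' i)
        (hvS' j) (T.ht' i) (T.ht' j) (hvdvd' i) (hvdvd' j) (hvrad' i) (hvrad' j)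
        (T.hcompat' i j)
    hpairmix := fun i j =>
      dvdIn_pair (C.S i) (C.S' j) (C.Smix i j) (C.S_le_Smix i j) (C.S'_le_Smix i j)
        (C.algebraMap_mem_S' j C.ϖ) (G.hs0' j) T.hn0 (hnS' j) (T.hw' j) (htransmix i j) (hvS i)
        (hvS' j) (T.ht i) (T.ht' j) (hvdvd i) (hvdvd' j) (hvrad i) (hvrad' j)
        (T.hcompat_mix i j)
    hunit := hvdvd G.i₀ }⟩

/-- **THE SOFT CORE.**  An `n`-torsion rank-one sheaf on a two-chart model over a noetherian base,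
locally free near the special fibre, with finitely generated `H¹`, and trivialised on the REDUCED
special fibre compatibly with its `n`-torsion structure (`n` invertible modulo `ϖ`), has a nonzero
global section. -/
theorem exists_global_section [IsNoetherianRing R0] (C : Charts R0 F ι ι') (G : LocalGen C)
    (hfin : C.FiniteH1) (T : RootData C G) : ∃ h : F, h ≠ 0 ∧ h ∈ C.LU ∧ h ∈ C.LU' :=
  exists_global_section_of_normalised C G hfin T.hn0 (T.hw G.i₀) (fun M _ => T.normalised M)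

end Main

end Fermat.Agent.S36.SoftCore
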