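import Fermat.Agent.S18.CoreOrd
import Fermat.Agent.S36.FormalLift.SoftCore

/-!
# PROJECT V (S36), chain (V16), concrete half (helper24): the lattices of `O(D)`

`O → K → F`: `O` the base ring (the discrete valuation ring of the inertia field `K0`), `K` the
constant field, `F` the function field (`F_2 = K0(X0(q² M''))`).  A model is described inside `F`
by

* a set `Vert` of *vertical* valuation subrings of `F` (at `X0`: `W20`, `W11`, `W02`),
* the *horizontal* valuation subrings: all places `v : Place K F`,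
* a chart function `φ` (a unit of every vertical valuation subring).

For a weight `D : Place K F → ℤ` (a horizontal divisor) and a set `S` of places,

  `lat Vert hO D S = {x | x ∈ W for all W ∈ Vert, ord_v x ≥ -D v for all v ∈ S}`

is the `O`-module of sections of `O(D̄)` over the open of the model whose horizontal part is `S`;
`ring Vert S` is the ring of that open (`D = 0`).  With `finiteAt φ = {v | φ ∈ v}` (the chart
`U = {φ ≠ ∞}`) and `finiteAt φ⁻¹` (the chart `U' = {φ ≠ 0}`) all fields of `SoftCore.Charts`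
except the covers are theorems:

* `ring_finiteAt_inv_le` : `𝒜' ⊆ 𝒜[1/φ]`;
* `mul_mem_lat` : `lat` is a module over `ring`;
* `exists_inv_pow_mul_mem_lat`, `exists_pow_mul_mem_lat` : the sheaf conditions
  `LU ⊆ LU'[φ]`, `LU' ⊆ LU[1/φ]`
  (only input: `φ` has finitely many zeros and poles);
* `charts` : the resulting `SoftCore.Charts`, for any covers of the special fibres;
* `ord_ge_of_mem_lat_inf` : a global section `h ∈ LU ⊓ LU'` has `ord_v h ≥ -D v` at EVERY place.
-/

set_option autoImplicit false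

namespace Fermat.Agent.S36.Lattice

open AlgebraicCurve Fermat.Agent.S24.Ord Fermat.Agent.S18.CoreOrd Fermat.Agent.S36.FormalLift

variable {O K F : Type*} [CommRing O] [Field K] [Field F] [Algebra O K] [Algebra K F] [Algebra O F]
  [IsScalarTower O K F]

/-- membership in the valuation ring of a place, in terms of `ord` -/
theorem mem_iff_ord (v : Place K F) {f : F} (hf : f ≠ 0) :
    f ∈ v.toValuationSubring ↔ 0 ≤ v.ord f := by
  rw [mem_iff, ord_nonneg_iff v hf]

/-- the constants from `O` have order zero -/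
theorem ord_algebraMap_base (v : Place K F) (c : O) : v.ord (algebraMap O F c) = 0 := by
  rw [IsScalarTower.algebraMap_apply O K F]
  exact ord_algebraMap v _

theorem algebraMap_base_mem (v : Place K F) (c : O) : algebraMap O F c ∈ v.toValuationSubring := by
  rw [IsScalarTower.algebraMap_apply O K F]
  exact v.algebraMap_mem' _

/-- the places at which `φ` is finite -/
def finiteAt (φ : F) : Set (Place K F) := {v | φ ∈ v.toValuationSubring}

theorem mem_finiteAt {φ : F} {v : Place K F} :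
    v ∈ finiteAt (K := K) φ ↔ φ ∈ v.toValuationSubring := Iff.rfl

theorem mem_finiteAt_or_inv (φ : F) (v : Place K F) :
    v ∈ finiteAt (K := K) φ ∨ v ∈ finiteAt (K := K) φ⁻¹ :=
  v.toValuationSubring.mem_or_inv_mem φ

section Defs

variable (Vert : Set (ValuationSubring F))

/-- the ring of the open with horizontal part `S` -/
def ring (S : Set (Place K F)) : Subring F where
  carrier := {x | (∀ W ∈ Vert, x ∈ W) ∧ ∀ v ∈ S, x ∈ v.toValuationSubring}
  mul_mem' := fun hx hy =>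
    ⟨fun W hW => W.mul_mem _ _ (hx.1 W hW) (hy.1 W hW),
      fun v hv => (v.toValuationSubring).mul_mem _ _ (hx.2 v hv) (hy.2 v hv)⟩
  one_mem' := ⟨fun W _ => W.one_mem, fun v _ => v.toValuationSubring.one_mem⟩
  add_mem' := fun hx hy =>
    ⟨fun W hW => W.add_mem _ _ (hx.1 W hW) (hy.1 W hW),
      fun v hv => (v.toValuationSubring).add_mem _ _ (hx.2 v hv) (hy.2 v hv)⟩
  zero_mem' := ⟨fun W _ => W.zero_mem, fun v _ => v.toValuationSubring.zero_mem⟩
  neg_mem' := fun hx =>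
    ⟨fun W hW => W.neg_mem _ (hx.1 W hW), fun v hv => (v.toValuationSubring).neg_mem _ (hx.2 v hv)⟩

theorem mem_ring {S : Set (Place K F)} {x : F} :
    x ∈ ring Vert S ↔ (∀ W ∈ Vert, x ∈ W) ∧ ∀ v ∈ S, x ∈ v.toValuationSubring := Iff.rfl

variable (hO : ∀ W ∈ Vert, ∀ c : O, algebraMap O F c ∈ W)

include hO in
theorem algebraMap_mem_ring (S : Set (Place K F)) (c : O) : algebraMap O F c ∈ ring Vert S :=
  ⟨fun W hW => hO W hW c, fun v _ => algebraMap_base_mem v c⟩

/-- sections of `O(D̄)` over the open with horizontal part `S` -/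
def lat (D : Place K F → ℤ) (S : Set (Place K F)) : Submodule O F where
  carrier := {x | (∀ W ∈ Vert, x ∈ W) ∧ ∀ v ∈ S, x ≠ 0 → -D v ≤ v.ord x}
  add_mem' := by
    rintro x y ⟨hx1, hx2⟩ ⟨hy1, hy2⟩
    refine ⟨fun W hW => W.add_mem _ _ (hx1 W hW) (hy1 W hW), fun v hv hxy => ?_⟩
    rcases eq_or_ne x 0 with rfl | hx0
    · rw [zero_add] at hxy ⊢
      exact hy2 v hv hxy
    rcases eq_or_ne y 0 with rfl | hy0
    · rw [add_zero] at hxy ⊢
      exact hx2 v hv hxy
    exact (le_min (hx2 v hv hx0) (hy2 v hv hy0)).trans (min_le_ord_add v hxy)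
  zero_mem' := ⟨fun W _ => W.zero_mem, fun _ _ h => absurd rfl h⟩
  smul_mem' := by
    rintro c x ⟨hx1, hx2⟩
    refine ⟨fun W hW => ?_, fun v hv hcx => ?_⟩
    · rw [Algebra.smul_def]
      exact W.mul_mem _ _ (hO W hW c) (hx1 W hW)
    · rw [Algebra.smul_def] at hcx ⊢
      have hc0 : algebraMap O F c ≠ 0 := left_ne_zero_of_mul hcx
      have hx0 : x ≠ 0 := right_ne_zero_of_mul hcx
      rw [v.ord_mul hc0 hx0, ord_algebraMap_base, zero_add]
      exact hx2 v hv hx0

theorem mem_lat {D : Place K F → ℤ} {S : Set (Place K F)} {x : F} :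
    x ∈ lat Vert hO D S ↔ (∀ W ∈ Vert, x ∈ W) ∧ ∀ v ∈ S, x ≠ 0 → -D v ≤ v.ord x := Iff.rfl

/-- `lat` is a module over `ring` -/
theorem mul_mem_lat (D : Place K F → ℤ) (S : Set (Place K F)) :
    ∀ a ∈ ring Vert S, ∀ x ∈ lat Vert hO D S, a * x ∈ lat Vert hO D S := by
  rintro a ⟨ha1, ha2⟩ x ⟨hx1, hx2⟩
  refine ⟨fun W hW => W.mul_mem _ _ (ha1 W hW) (hx1 W hW), fun v hv hax => ?_⟩
  have ha0 : a ≠ 0 := left_ne_zero_of_mul hax
  have hx0 : x ≠ 0 := right_ne_zero_of_mul hax
  rw [v.ord_mul ha0 hx0]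
  have h1 : 0 ≤ v.ord a := (mem_iff_ord v ha0).mp (ha2 v hv)
  have h2 := hx2 v hv hx0
  omega

end Defs

section Sheaf

variable (Vert : Set (ValuationSubring F))
  (hO : ∀ W ∈ Vert, ∀ c : O, algebraMap O F c ∈ W)

theorem mem_ring_iff_mem_lat_zero {S : Set (Place K F)} {x : F} :
    x ∈ ring Vert S ↔ x ∈ lat Vert hO (fun _ => 0) S := by
  rw [mem_ring, mem_lat]
  refine and_congr_right fun _ => forall₂_congr fun v _ => ?_
  constructor
  · intro h hx0
    rw [neg_zero]
    exact (mem_iff_ord v hx0).mp h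
  · intro h
    rcases eq_or_ne x 0 with rfl | hx0
    · exact zero_mem _
    · have := h hx0
      rw [neg_zero] at this
      exact (mem_iff_ord v hx0).mpr this

/-- **Key lemma.**  `ψ ≠ 0` integral at every vertical valuation, with finitely many zeros.
A section over `{ψ ≠ 0}` becomes a section over `{ψ ≠ ∞}` after multiplication by a power of
`ψ`. -/
theorem exists_pow_mul_mem_lat_of_inv (D : Place K F → ℤ) {ψ : F} (hψ0 : ψ ≠ 0)
    (hψV : ∀ W ∈ Vert, ψ ∈ W) (hψfin : {v : Place K F | v.ord ψ ≠ 0}.Finite) {x : F}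
    (hx : x ∈ lat Vert hO D (finiteAt (K := K) ψ⁻¹)) :
    ∃ N : ℕ, ψ ^ N * x ∈ lat Vert hO D (finiteAt (K := K) ψ) := by
  classical
  rcases eq_or_ne x 0 with rfl | hx0
  · exact ⟨0, by rw [mul_zero]; exact Submodule.zero_mem _⟩
  obtain ⟨hx1, hx2⟩ := hx
  set Zf : Finset (Place K F) := hψfin.toFinset with hZf
  set N : ℕ := ∑ v ∈ Zf, Int.toNat (-D v - v.ord x) with hN
  refine ⟨N, fun W hW => W.mul_mem _ _ (pow_mem (hψV W hW) N) (hx1 W hW), fun v hv _ => ?_⟩
  have hψN : ψ ^ N ≠ 0 := pow_ne_zero _ hψ0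
  rw [v.ord_mul hψN hx0, ord_pow]
  have hord : 0 ≤ v.ord ψ := (mem_iff_ord v hψ0).mp hv
  rcases eq_or_lt_of_le hord with h0 | hpos
  · -- `ψ` is a unit at `v`
    have hinv : v ∈ finiteAt (K := K) ψ⁻¹ := by
      rw [mem_finiteAt, mem_iff_ord v (inv_ne_zero hψ0), v.ord_inv, ← h0, neg_zero]
    have := hx2 v hinv hx0
    rw [← h0, mul_zero, zero_add]
    exact this
  · -- `v` is a zero of `ψ`
    have hvZ : v ∈ Zf := by
      rw [hZf, Set.Finite.mem_toFinset]
      exact ne_of_gt hpos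
    have h1 : Int.toNat (-D v - v.ord x) ≤ N :=
      Finset.single_le_sum (f := fun v : Place K F => Int.toNat (-D v - v.ord x))
        (fun _ _ => Nat.zero_le _) hvZ
    have h2 : -D v - v.ord x ≤ (Int.toNat (-D v - v.ord x) : ℤ) := Int.self_le_toNat _
    have h3 : (Int.toNat (-D v - v.ord x) : ℤ) ≤ (N : ℤ) := by exact_mod_cast h1
    have h4 : (N : ℤ) ≤ (N : ℤ) * v.ord ψ := by
      have : (1 : ℤ) ≤ v.ord ψ := hpos
      nlinarith [Int.natCast_nonneg N]
    omega

variable {φ : F} (hφ0 : φ ≠ 0) (hφV : ∀ W ∈ Vert, φ ∈ W) (hφV' : ∀ W ∈ Vert, φ⁻¹ ∈ W)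
  (hφfin : {v : Place K F | v.ord φ ≠ 0}.Finite)

include hφ0 hφV hφfin in
/-- the sheaf condition `LU' ⊆ LU[1/φ]` -/
theorem exists_pow_mul_mem_lat (D : Place K F → ℤ) {x : F}
    (hx : x ∈ lat Vert hO D (finiteAt (K := K) φ⁻¹)) :
    ∃ N : ℕ, φ ^ N * x ∈ lat Vert hO D (finiteAt (K := K) φ) :=
  exists_pow_mul_mem_lat_of_inv Vert hO D hφ0 hφV hφfin hx

include hφ0 hφV' hφfin in
/-- the sheaf condition `LU ⊆ LU'[φ]` -/
theorem exists_inv_pow_mul_mem_lat (D : Place K F → ℤ) {x : F}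
    (hx : x ∈ lat Vert hO D (finiteAt (K := K) φ)) :
    ∃ N : ℕ, φ⁻¹ ^ N * x ∈ lat Vert hO D (finiteAt (K := K) φ⁻¹) := by
  have hfin' : {v : Place K F | v.ord φ⁻¹ ≠ 0}.Finite := by
    refine hφfin.subset fun v hv => ?_
    have hv' : v.ord φ⁻¹ ≠ 0 := hv
    rw [v.ord_inv] at hv'
    change v.ord φ ≠ 0
    omega
  have hx' : x ∈ lat Vert hO D (finiteAt (K := K) (φ⁻¹)⁻¹) := by rwa [inv_inv]
  exact exists_pow_mul_mem_lat_of_inv Vert hO D (inv_ne_zero hφ0) hφV' hfin' hx'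

include hO hφ0 hφV hφfin in
/-- `𝒜' ⊆ 𝒜[1/φ]` -/
theorem exists_pow_mul_mem_ring {x : F} (hx : x ∈ ring Vert (finiteAt (K := K) φ⁻¹)) :
    ∃ N : ℕ, φ ^ N * x ∈ ring Vert (finiteAt (K := K) φ) := by
  rw [mem_ring_iff_mem_lat_zero Vert hO] at hx
  obtain ⟨N, hN⟩ := exists_pow_mul_mem_lat Vert hO hφ0 hφV hφfin _ hx
  exact ⟨N, (mem_ring_iff_mem_lat_zero Vert hO).mpr hN⟩

include hφV in
theorem self_mem_ring : φ ∈ ring Vert (finiteAt (K := K) φ) :=
  ⟨hφV, fun _ hv => hv⟩

include hφV' in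
theorem inv_mem_ring : φ⁻¹ ∈ ring Vert (finiteAt (K := K) φ⁻¹) :=
  ⟨hφV', fun _ hv => hv⟩

/-- **A global section has `ord_v h ≥ -D v` at every place.** -/
theorem ord_ge_of_mem_lat_inf (D : Place K F → ℤ) (φ : F) {h : F} (hh0 : h ≠ 0)
    (h1 : h ∈ lat Vert hO D (finiteAt (K := K) φ))
    (h2 : h ∈ lat Vert hO D (finiteAt (K := K) φ⁻¹)) (v : Place K F) : -D v ≤ v.ord h := by
  rcases mem_finiteAt_or_inv φ v with hv | hv
  · exact h1.2 v hv hh0
  · exact h2.2 v hv hh0

end Sheaf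

section Charts

open Fermat.Agent.S36.SoftCore

variable (Vert : Set (ValuationSubring F))
  (hO : ∀ W ∈ Vert, ∀ c : O, algebraMap O F c ∈ W)
  {φ : F} (hφ0 : φ ≠ 0) (hφV : ∀ W ∈ Vert, φ ∈ W) (hφV' : ∀ W ∈ Vert, φ⁻¹ ∈ W)
  (hφfin : {v : Place K F | v.ord φ ≠ 0}.Finite)

/-- **The two-chart model of `O(D̄)`** as a `SoftCore.Charts`, for any covers of the special
fibres of the two charts. -/
def charts (D : Place K F → ℤ) (ϖ : O) (hϖ0 : algebraMap O F ϖ ≠ 0) {ι ι' : Type*}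
    (g : ι → ring Vert (finiteAt (K := K) φ))
    (hcover : Ideal.span (Set.range g) ⊔ Ideal.span
      {(⟨algebraMap O F ϖ, algebraMap_mem_ring Vert hO _ ϖ⟩ : ring Vert (finiteAt (K := K) φ))}
        = ⊤)
    (g' : ι' → ring Vert (finiteAt (K := K) φ⁻¹))
    (hcover' : Ideal.span (Set.range g') ⊔ Ideal.span
      {(⟨algebraMap O F ϖ, algebraMap_mem_ring Vert hO _ ϖ⟩ :
        ring Vert (finiteAt (K := K) φ⁻¹))} = ⊤) :
    Charts O F ι ι' where
  ϖ := ϖ
  hϖ0 := hϖ0
  𝒜 := ring Vert (finiteAt (K := K) φ)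
  𝒜' := ring Vert (finiteAt (K := K) φ⁻¹)
  hR0 := algebraMap_mem_ring Vert hO _
  hR0' := algebraMap_mem_ring Vert hO _
  φ := φ
  hφ0 := hφ0
  hφ := self_mem_ring Vert hφV
  hφ' := inv_mem_ring Vert hφV'
  h𝒜' := fun _ hx => exists_pow_mul_mem_ring Vert hO hφ0 hφV hφfin hx
  LU := lat Vert hO D (finiteAt (K := K) φ)
  LU' := lat Vert hO D (finiteAt (K := K) φ⁻¹)
  hLU := mul_mem_lat Vert hO D _
  hLU' := mul_mem_lat Vert hO D _
  sheaf := fun _ hx => exists_inv_pow_mul_mem_lat Vert hO hφ0 hφV' hφfin D hx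
  sheaf' := fun _ hx => exists_pow_mul_mem_lat Vert hO hφ0 hφV hφfin D hx
  g := g
  hcover := hcover
  g' := g'
  hcover' := hcover'

end Charts

section Principal

open Classical in
/-- **End of (V16).**  If `h ≠ 0` has `ord_v h ≥ -D v` at every place and `deg D = 0`, then
`D = div (h⁻¹)`: the divisor `D` is principal. -/
theorem eq_ord_inv_of_global_section [HasPrincipalDivisors K F]
    (hdeg : ∀ v : Place K F, 0 < v.deg) (D : Divisor K F) (hD : Divisor.degree D = 0) {h : F}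
    (hh0 : h ≠ 0) (hh : ∀ v : Place K F, -D v ≤ v.ord h) (v : Place K F) :
    D v = v.ord h⁻¹ := by
  obtain ⟨Dh, hDh, hdegh⟩ := HasPrincipalDivisors.exists_divisor (K := K) h hh0
  set E : Divisor K F := D + Dh with hE
  have hEnonneg : ∀ w : Place K F, 0 ≤ E w := by
    intro w
    rw [hE, Finsupp.add_apply, hDh w]
    have := hh w
    omega
  have hEdeg : Divisor.degree E = 0 := by rw [hE, map_add, hD, hdegh, add_zero]
  have hsum : Divisor.degree E = ∑ w ∈ E.support, E w * (w.deg : ℤ) := by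
    simp [Divisor.degree, Finsupp.sum]
  have hzero : ∀ w ∈ E.support, E w * (w.deg : ℤ) = 0 := by
    rw [hsum] at hEdeg
    exact (Finset.sum_eq_zero_iff_of_nonneg fun w _ =>
      mul_nonneg (hEnonneg w) (Int.natCast_nonneg _)).mp hEdeg
  have hEv : E v = 0 := by
    by_contra hne
    have hv : v ∈ E.support := Finsupp.mem_support_iff.mpr hne
    have h1 := hzero v hv
    have h2 : (0 : ℤ) < (v.deg : ℤ) := by exact_mod_cast hdeg v
    rcases mul_eq_zero.mp h1 with h3 | h3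
    · exact hne h3
    · omega
  rw [hE, Finsupp.add_apply, hDh v] at hEv
  rw [v.ord_inv]
  omega

/-- the divisor of a global section: `D` is principal -/
theorem isPrincipal_of_global_section [HasPrincipalDivisors K F]
    (hdeg : ∀ v : Place K F, 0 < v.deg) (D : Divisor K F) (hD : Divisor.degree D = 0) {h : F}
    (hh0 : h ≠ 0) (hh : ∀ v : Place K F, -D v ≤ v.ord h) : Divisor.IsPrincipal D :=
  ⟨h⁻¹, inv_ne_zero hh0, fun v => eq_ord_inv_of_global_section hdeg D hD hh0 hh v⟩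

end Principal

section Final

open Fermat.Agent.S36.SoftCore

variable (Vert : Set (ValuationSubring F))
  (hO : ∀ W ∈ Vert, ∀ c : O, algebraMap O F c ∈ W)
  {φ : F} (hφ0 : φ ≠ 0) (hφV : ∀ W ∈ Vert, φ ∈ W) (hφV' : ∀ W ∈ Vert, φ⁻¹ ∈ W)
  (hφfin : {v : Place K F | v.ord φ ≠ 0}.Finite)

/-- **(V16), assembled.**  For a divisor `D` of degree zero on `F / K`: if the two-chart model of
`O(D̄)` satisfies the hypotheses of the soft core, `D` is principal. -/
theorem isPrincipal_of_rootData [IsNoetherianRing O] [HasPrincipalDivisors K F]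
    (hdeg : ∀ v : Place K F, 0 < v.deg) (D : Divisor K F) (hD : Divisor.degree D = 0)
    (ϖ : O) (hϖ0 : algebraMap O F ϖ ≠ 0) {ι ι' : Type*} [Fintype ι] [Fintype ι']
    (g : ι → ring Vert (finiteAt (K := K) φ))
    (hcover : Ideal.span (Set.range g) ⊔ Ideal.span
      {(⟨algebraMap O F ϖ, algebraMap_mem_ring Vert hO _ ϖ⟩ : ring Vert (finiteAt (K := K) φ))}
        = ⊤)
    (g' : ι' → ring Vert (finiteAt (K := K) φ⁻¹))
    (hcover' : Ideal.span (Set.range g') ⊔ Ideal.span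
      {(⟨algebraMap O F ϖ, algebraMap_mem_ring Vert hO _ ϖ⟩ :
        ring Vert (finiteAt (K := K) φ⁻¹))} = ⊤)
    (G : LocalGen (charts Vert hO hφ0 hφV hφV' hφfin (fun v => D v) ϖ hϖ0 g hcover g' hcover'))
    (hfin : (charts Vert hO hφ0 hφV hφV' hφfin (fun v => D v) ϖ hϖ0 g hcover g'
      hcover').FiniteH1)
    (T : RootData _ G) : Divisor.IsPrincipal D := by
  obtain ⟨h, hh0, h1, h2⟩ := exists_global_section _ G hfin T
  exact isPrincipal_of_global_section hdeg D hD hh0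
    (ord_ge_of_mem_lat_inf Vert hO (fun v => D v) φ hh0 h1 h2)

end Final

end Fermat.Agent.S36.Lattice
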