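import Fermat.Agent.S36.FormalLift.NthRoot

/-!
# PROJECT V (S36), soft core, helper24: principal opens of a chart inside the function field

Mathlib only.  `F` is a field (the function field), `𝒜 ≤ F` a subring (the ring of an affine
chart of a model).

* `awaySubring 𝒜 g` : `𝒜[1/g] = {x | ∃ E, g ^ E * x ∈ 𝒜}` as a subring of `F` (`g ∈ 𝒜`).
* `DvdIn S a x` : `x ∈ a S`;  `RadIn S a x` : `x ∈ rad (a S)`, elementwise inside `F`.
* `exists_root_mod_pow_in`, `root_unique_mod_pow_in` : the Newton lemmas of `NthRoot.lean` for a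
  subring of `F`.
* `dvdIn_pair` : two local trivialisations `s_a v_a`, `s_b v_b` of an `n`-torsion line bundle,
  normalised by `f (s v) ^ n ≡ 1` modulo `ϖ ^ m` and with the same reduction on the reduced fibre
  of the overlap, agree modulo `ϖ ^ m` on the overlap.
-/

set_option autoImplicit false

namespace Fermat.Agent.S36.FormalLift

variable {F : Type*} [Field F]

/-! ### `𝒜[1/g]` -/

/-- `𝒜[1/g]` inside the field `F` -/
def awaySubring (𝒜 : Subring F) (g : F) (hg : g ∈ 𝒜) : Subring F where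
  carrier := {x | ∃ E : ℕ, g ^ E * x ∈ 𝒜}
  mul_mem' := by
    rintro x y ⟨E, hx⟩ ⟨E', hy⟩
    refine ⟨E + E', ?_⟩
    have : g ^ (E + E') * (x * y) = (g ^ E * x) * (g ^ E' * y) := by ring
    rw [this]
    exact 𝒜.mul_mem hx hy
  one_mem' := ⟨0, by simp⟩
  add_mem' := by
    rintro x y ⟨E, hx⟩ ⟨E', hy⟩
    refine ⟨E + E', ?_⟩
    have : g ^ (E + E') * (x + y) = g ^ E' * (g ^ E * x) + g ^ E * (g ^ E' * y) := by ring
    rw [this]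
    exact 𝒜.add_mem (𝒜.mul_mem (pow_mem hg _) hx) (𝒜.mul_mem (pow_mem hg _) hy)
  zero_mem' := ⟨0, by simp⟩
  neg_mem' := by
    rintro x ⟨E, hx⟩
    refine ⟨E, ?_⟩
    rw [mul_neg]
    exact 𝒜.neg_mem hx

theorem mem_awaySubring {𝒜 : Subring F} {g : F} {hg : g ∈ 𝒜} {x : F} :
    x ∈ awaySubring 𝒜 g hg ↔ ∃ E : ℕ, g ^ E * x ∈ 𝒜 := Iff.rfl

theorem le_awaySubring (𝒜 : Subring F) (g : F) (hg : g ∈ 𝒜) : 𝒜 ≤ awaySubring 𝒜 g hg :=
  fun x hx => ⟨0, by simpa using hx⟩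

/-- raising the exponent -/
theorem pow_mul_mem_of_le {𝒜 : Subring F} {g : F} (hg : g ∈ 𝒜) {x : F} {E E' : ℕ} (h : E ≤ E')
    (hx : g ^ E * x ∈ 𝒜) : g ^ E' * x ∈ 𝒜 := by
  obtain ⟨d, rfl⟩ := Nat.exists_eq_add_of_le h
  have : g ^ (E + d) * x = g ^ d * (g ^ E * x) := by ring
  rw [this]
  exact 𝒜.mul_mem (pow_mem hg _) hx

theorem awaySubring_le_mul_left (𝒜 : Subring F) {g g' : F} (hg : g ∈ 𝒜) (hg' : g' ∈ 𝒜) :
    awaySubring 𝒜 g hg ≤ awaySubring 𝒜 (g * g') (𝒜.mul_mem hg hg') := by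
  rintro x ⟨E, hx⟩
  refine ⟨E, ?_⟩
  have : (g * g') ^ E * x = g' ^ E * (g ^ E * x) := by ring
  rw [this]
  exact 𝒜.mul_mem (pow_mem hg' _) hx

theorem awaySubring_le_mul_right (𝒜 : Subring F) {g g' : F} (hg : g ∈ 𝒜) (hg' : g' ∈ 𝒜) :
    awaySubring 𝒜 g' hg' ≤ awaySubring 𝒜 (g * g') (𝒜.mul_mem hg hg') := by
  rintro x ⟨E, hx⟩
  refine ⟨E, ?_⟩
  have : (g * g') ^ E * x = g ^ E * (g' ^ E * x) := by ring
  rw [this]
  exact 𝒜.mul_mem (pow_mem hg _) hx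

theorem awaySubring_mono {𝒜 ℬ : Subring F} (h : 𝒜 ≤ ℬ) {g : F} (hg : g ∈ 𝒜) :
    awaySubring 𝒜 g hg ≤ awaySubring ℬ g (h hg) := by
  rintro x ⟨E, hx⟩
  exact ⟨E, h hx⟩

theorem inv_mem_awaySubring (𝒜 : Subring F) {g : F} (hg : g ∈ 𝒜) :
    g⁻¹ ∈ awaySubring 𝒜 g hg := by
  by_cases h0 : g = 0
  · subst h0
    exact ⟨1, by simp⟩
  · exact ⟨1, by simp [h0]⟩

/-! ### Divisibility and radical membership, elementwise -/

/-- `x ∈ a S` -/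
def DvdIn (S : Subring F) (a x : F) : Prop := ∃ y ∈ S, x = a * y

/-- `x ∈ rad (a S)` -/
def RadIn (S : Subring F) (a x : F) : Prop := ∃ N : ℕ, ∃ y ∈ S, x ^ N = a * y

theorem DvdIn.mono {S T : Subring F} (h : S ≤ T) {a x : F} (hx : DvdIn S a x) : DvdIn T a x := by
  obtain ⟨y, hy, e⟩ := hx
  exact ⟨y, h hy, e⟩

theorem RadIn.mono {S T : Subring F} (h : S ≤ T) {a x : F} (hx : RadIn S a x) : RadIn T a x := by
  obtain ⟨N, y, hy, e⟩ := hx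
  exact ⟨N, y, h hy, e⟩

theorem dvdIn_iff (S : Subring F) (a x : S) :
    DvdIn S (a : F) (x : F) ↔ x ∈ Ideal.span {a} := by
  rw [Ideal.mem_span_singleton']
  constructor
  · rintro ⟨y, hy, e⟩
    refine ⟨⟨y, hy⟩, ?_⟩
    apply Subtype.ext
    rw [Subring.coe_mul, e, mul_comm]
  · rintro ⟨y, e⟩
    refine ⟨y, y.2, ?_⟩
    rw [← e, Subring.coe_mul, mul_comm]

theorem radIn_iff (S : Subring F) (a x : S) :
    RadIn S (a : F) (x : F) ↔ x ∈ (Ideal.span {a}).radical := by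
  constructor
  · rintro ⟨N, y, hy, e⟩
    refine ⟨N, ?_⟩
    rw [← dvdIn_iff]
    exact ⟨y, hy, by rw [Subring.coe_pow, e]⟩
  · rintro ⟨N, hN⟩
    rw [← dvdIn_iff] at hN
    obtain ⟨y, hy, e⟩ := hN
    exact ⟨N, y, hy, by rw [← e, Subring.coe_pow]⟩

theorem RadIn.add {S : Subring F} {a x y : F} (ha : a ∈ S) (hxS : x ∈ S) (hyS : y ∈ S)
    (hx : RadIn S a x) (hy : RadIn S a y) : RadIn S a (x + y) := by
  have h1 := (radIn_iff S ⟨a, ha⟩ ⟨x, hxS⟩).mp hx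
  have h2 := (radIn_iff S ⟨a, ha⟩ ⟨y, hyS⟩).mp hy
  exact (radIn_iff S ⟨a, ha⟩ (⟨x, hxS⟩ + ⟨y, hyS⟩)).mpr (Ideal.add_mem _ h1 h2)

theorem RadIn.mul_left {S : Subring F} {a x z : F} (hz : z ∈ S) (hx : RadIn S a x) :
    RadIn S a (z * x) := by
  obtain ⟨N, y, hy, e⟩ := hx
  refine ⟨N, z ^ N * y, S.mul_mem (pow_mem hz _) hy, ?_⟩
  rw [mul_pow, e]
  ring

theorem RadIn.neg {S : Subring F} {a x : F} (hx : RadIn S a x) : RadIn S a (-x) := by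
  have := RadIn.mul_left (S.neg_mem S.one_mem) hx
  simpa using this

theorem RadIn.sub {S : Subring F} {a x y : F} (ha : a ∈ S) (hxS : x ∈ S) (hyS : y ∈ S)
    (hx : RadIn S a x) (hy : RadIn S a y) : RadIn S a (x - y) := by
  rw [sub_eq_add_neg]
  exact RadIn.add ha hxS (S.neg_mem hyS) hx hy.neg

/-! ### Newton inside a subring of `F` -/

/-- **Existence of approximate `n`-th roots** in a subring of `F`. -/
theorem exists_root_mod_pow_in (S : Subring F) {ϖ w t : F} (hϖ : ϖ ∈ S) (hw : w ∈ S)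
    (ht : t ∈ S) {n : ℕ} (hn0 : 0 < n)
    (hn : ∃ n' ∈ S, ∃ c ∈ S, (n : F) * n' = 1 + ϖ * c)
    (hwt : RadIn S ϖ (w * t ^ n - 1)) (m : ℕ) :
    ∃ v ∈ S, DvdIn S (ϖ ^ m) (w * v ^ n - 1) ∧ RadIn S ϖ (v - t) := by
  obtain ⟨n', hn', c, hc, hnc⟩ := hn
  have hn'' : ∃ n' c : S, ((n : ℕ) : S) * n' = 1 + (⟨ϖ, hϖ⟩ : S) * c := by
    refine ⟨⟨n', hn'⟩, ⟨c, hc⟩, ?_⟩
    apply Subtype.ext
    push_cast
    exact hnc
  have hwt' : (⟨w, hw⟩ : S) * (⟨t, ht⟩ : S) ^ n - 1 ∈ (Ideal.span {(⟨ϖ, hϖ⟩ : S)}).radical := by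
    rw [← radIn_iff]
    simpa using hwt
  obtain ⟨v, hv1, hv2⟩ := exists_root_mod_pow hn0 hn'' hwt' m
  refine ⟨v, v.2, ?_, ?_⟩
  · have := (dvdIn_iff S ((⟨ϖ, hϖ⟩ : S) ^ m) _).mpr hv1
    simpa using this
  · have := (radIn_iff S (⟨ϖ, hϖ⟩ : S) _).mpr hv2
    simpa using this

/-- **Uniqueness of approximate `n`-th roots** in a subring of `F`. -/
theorem root_unique_mod_pow_in (S : Subring F) {ϖ w v₁ v₂ : F} (hϖ : ϖ ∈ S) (hw : w ∈ S)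
    (hv₁ : v₁ ∈ S) (hv₂ : v₂ ∈ S) {n : ℕ} (hn0 : 0 < n)
    (hn : ∃ n' ∈ S, ∃ c ∈ S, (n : F) * n' = 1 + ϖ * c) {m : ℕ}
    (h₁ : DvdIn S (ϖ ^ m) (w * v₁ ^ n - 1)) (h₂ : DvdIn S (ϖ ^ m) (w * v₂ ^ n - 1))
    (h : RadIn S ϖ (v₁ - v₂)) : DvdIn S (ϖ ^ m) (v₁ - v₂) := by
  obtain ⟨n', hn', c, hc, hnc⟩ := hn
  have hn'' : ∃ n' c : S, ((n : ℕ) : S) * n' = 1 + (⟨ϖ, hϖ⟩ : S) * c := by
    refine ⟨⟨n', hn'⟩, ⟨c, hc⟩, ?_⟩
    apply Subtype.ext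
    push_cast
    exact hnc
  have e₁ : (⟨w, hw⟩ : S) * (⟨v₁, hv₁⟩ : S) ^ n - 1 ∈ Ideal.span {(⟨ϖ, hϖ⟩ : S) ^ m} := by
    rw [← dvdIn_iff]
    simpa using h₁
  have e₂ : (⟨w, hw⟩ : S) * (⟨v₂, hv₂⟩ : S) ^ n - 1 ∈ Ideal.span {(⟨ϖ, hϖ⟩ : S) ^ m} := by
    rw [← dvdIn_iff]
    simpa using h₂
  have e : (⟨v₁, hv₁⟩ : S) - ⟨v₂, hv₂⟩ ∈ (Ideal.span {(⟨ϖ, hϖ⟩ : S)}).radical := by
    rw [← radIn_iff]
    simpa using h
  have := (dvdIn_iff S ((⟨ϖ, hϖ⟩ : S) ^ m) _).mpr (root_unique_mod_pow hn0 hn'' e₁ e₂ e)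
  simpa using this

/-! ### Two normalised local trivialisations agree on the overlap -/

/-- **Pair lemma.**  `Sa`, `Sb` the rings of two affine opens, `T` the ring of their overlap; `sa`,
`sb` local generators of the line bundle, `f sa ^ n`, `f sb ^ n` the units trivialising its `n`-th
power; `va`, `vb` normalisations modulo `ϖ ^ m` with reductions `ta`, `tb` on the reduced fibre.
If `sa ta` and `sb tb` agree on the reduced fibre of the overlap then `sa va ≡ sb vb` modulo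
`ϖ ^ m` on the overlap. -/
theorem dvdIn_pair (Sa Sb T : Subring F) (haT : Sa ≤ T) (hbT : Sb ≤ T)
    {ϖ f sa sb va vb ta tb : F} {n m : ℕ} (hϖ : ϖ ∈ Sb) (hsb : sb ≠ 0) (hn0 : 0 < n)
    (hn : ∃ n' ∈ Sb, ∃ c ∈ Sb, (n : F) * n' = 1 + ϖ * c)
    (hwb : f * sb ^ n ∈ Sb) (hr : sa / sb ∈ T)
    (hva : va ∈ Sa) (hvb : vb ∈ Sb) (hta : ta ∈ Sa) (htb : tb ∈ Sb)
    (h₁ : DvdIn Sa (ϖ ^ m) (f * sa ^ n * va ^ n - 1))
    (h₂ : DvdIn Sb (ϖ ^ m) (f * sb ^ n * vb ^ n - 1))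
    (ra : RadIn Sa ϖ (va - ta)) (rb : RadIn Sb ϖ (vb - tb))
    (rab : RadIn T ϖ (sa / sb * ta - tb)) :
    DvdIn T (ϖ ^ m) (sa / sb * va - vb) := by
  have hn' : ∃ n' ∈ T, ∃ c ∈ T, (n : F) * n' = 1 + ϖ * c := by
    obtain ⟨n', hn', c, hc, e⟩ := hn
    exact ⟨n', hbT hn', c, hbT hc, e⟩
  have hϖT : ϖ ∈ T := hbT hϖ
  refine root_unique_mod_pow_in T hϖT (hbT hwb) (T.mul_mem hr (haT hva)) (hbT hvb) hn0 hn'
    ?_ (h₂.mono hbT) ?_
  · have e : f * sb ^ n * (sa / sb * va) ^ n - 1 = f * sa ^ n * va ^ n - 1 := by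
      have h1 : sb ^ n * (sa / sb * va) ^ n = sa ^ n * va ^ n := by
        rw [← mul_pow, ← mul_pow]
        congr 1
        field_simp
      rw [mul_assoc, h1, ← mul_assoc]
    rw [e]
    exact h₁.mono haT
  · have e : sa / sb * va - vb = sa / sb * (va - ta) + (sa / sb * ta - tb) - (vb - tb) := by ring
    rw [e]
    have hm1 : sa / sb * (va - ta) ∈ T := T.mul_mem hr (T.sub_mem (haT hva) (haT hta))
    have hm2 : sa / sb * ta - tb ∈ T := T.sub_mem (T.mul_mem hr (haT hta)) (hbT htb)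
    have hm3 : vb - tb ∈ T := T.sub_mem (hbT hvb) (hbT htb)
    exact RadIn.sub hϖT (T.add_mem hm1 hm2) hm3
      (RadIn.add hϖT hm1 hm2 (RadIn.mul_left hr (ra.mono haT)) rab) (rb.mono hbT)

/-- the difference of the two normalised generators, divided by `ϖ ^ m`, is `sb` times a function
on the overlap -/
theorem exists_sub_div_eq_mul {T : Subring F} {ϖ sa sb va vb : F} {m : ℕ} (hϖ0 : ϖ ≠ 0)
    (hsb : sb ≠ 0) (h : DvdIn T (ϖ ^ m) (sa / sb * va - vb)) :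
    ∃ y ∈ T, (sa * va - sb * vb) / ϖ ^ m = sb * y := by
  obtain ⟨y, hy, e⟩ := h
  refine ⟨y, hy, ?_⟩
  have hϖm : ϖ ^ m ≠ 0 := pow_ne_zero _ hϖ0
  have e2 : sa * va - sb * vb = sb * (sa / sb * va - vb) := by
    field_simp
  rw [e2, e]
  field_simp

end Fermat.Agent.S36.FormalLift
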