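import Fermat.Agent.S36.FormalLift.Lattice

/-!
# PROJECT V (S36), chain (V14)/(V16) dictionary (helper24): principal opens, valuatively

Setting of `FormalLift/Lattice.lean`: vertical valuation subrings `Vert`, horizontal places
`Place K F`, `ring Vert S` the ring of an open, `lat Vert hO D S` the sections of `O(D̄)` on it.
Extra hypotheses here: `Vert` is finite and every `W ∈ Vert` has rank one
(`g ∈ W`, `g⁻¹ ∉ W` ⟹ `∀ y, ∃ e, g ^ e * y ∈ W`; true for a discrete valuation ring).

* `exists_pow_mul_mem_lat_of_local` : **sections on `D(g)`, valuatively**: if `y` satisfies the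
  conditions of `lat D S` at every vertical `W` and every place `v ∈ S` at which `g` is a UNIT,
  then `g ^ e * y ∈ lat D S` for some `e` (the finitely many components of `{g = 0}` are absorbed).
* `mem_away_ring_of_local` : the case `D = 0`: `y ∈ (ring Vert S)[1/g]`.
* `localGen_fields` : **the fields `hs_mem`, `hs_gen` of `SoftCore.LocalGen` from a valuative
  generator**: `s ≠ 0` with `s ∈ Wˣ` for the vertical `W` meeting `D(g)` and `ord_v s = -D v` at
  the places `v ∈ S` meeting `D(g)`.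
-/

set_option autoImplicit false

namespace Fermat.Agent.S36.Lattice

open AlgebraicCurve Fermat.Agent.S24.Ord Fermat.Agent.S18.CoreOrd Fermat.Agent.S36.FormalLift

variable {O K F : Type*} [CommRing O] [Field K] [Field F] [Algebra O K] [Algebra K F] [Algebra O F]
  [IsScalarTower O K F]

variable (Vert : Set (ValuationSubring F))
  (hO : ∀ W ∈ Vert, ∀ c : O, algebraMap O F c ∈ W)
  (hVfin : Vert.Finite)
  (hVrank : ∀ W ∈ Vert, ∀ g ∈ W, g⁻¹ ∉ W → ∀ y : F, ∃ e : ℕ, g ^ e * y ∈ W)

include hVfin hVrank in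
/-- **Sections on `D(g)`, valuatively.** -/
theorem exists_pow_mul_mem_lat_of_local (D : Place K F → ℤ) (S : Set (Place K F)) {g : F}
    (hg : g ∈ ring Vert S) (hg0 : g ≠ 0) (hgfin : {v : Place K F | v.ord g ≠ 0}.Finite) {y : F}
    (hyW : ∀ W ∈ Vert, g⁻¹ ∈ W → y ∈ W)
    (hyv : ∀ v ∈ S, v.ord g = 0 → y ≠ 0 → -D v ≤ v.ord y) :
    ∃ e : ℕ, g ^ e * y ∈ lat Vert hO D S := by
  classical
  rcases eq_or_ne y 0 with rfl | hy0
  · exact ⟨0, by rw [mul_zero]; exact Submodule.zero_mem _⟩
  -- exponents for the vertical valuations at which `g` is not a unit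
  have hexW : ∀ W : ValuationSubring F, ∃ e : ℕ, W ∈ Vert → g⁻¹ ∉ W → g ^ e * y ∈ W := by
    intro W
    by_cases hW : W ∈ Vert ∧ g⁻¹ ∉ W
    · obtain ⟨e, he⟩ := hVrank W hW.1 g (hg.1 W hW.1) hW.2 y
      exact ⟨e, fun _ _ => he⟩
    · exact ⟨0, fun h1 h2 => absurd ⟨h1, h2⟩ hW⟩
  choose eW heW using hexW
  set Vf : Finset (ValuationSubring F) := hVfin.toFinset with hVf
  set Zf : Finset (Place K F) := hgfin.toFinset with hZf
  set e : ℕ := ∑ W ∈ Vf, eW W + ∑ v ∈ Zf, Int.toNat (-D v - v.ord y) with he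
  refine ⟨e, fun W hW => ?_, fun v hv _ => ?_⟩
  · by_cases hgW : g⁻¹ ∈ W
    · exact W.mul_mem _ _ (pow_mem (hg.1 W hW) e) (hyW W hW hgW)
    · have hWf : W ∈ Vf := by rw [hVf, Set.Finite.mem_toFinset]; exact hW
      have hle : eW W ≤ e :=
        le_trans (Finset.single_le_sum (f := eW) (fun _ _ => Nat.zero_le _) hWf)
          (Nat.le_add_right _ _)
      obtain ⟨d, hd⟩ := Nat.exists_eq_add_of_le hle
      have : g ^ e * y = g ^ d * (g ^ eW W * y) := by rw [hd, pow_add]; ring
      rw [this]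
      exact W.mul_mem _ _ (pow_mem (hg.1 W hW) d) (heW W hW hgW)
  · have hge : g ^ e ≠ 0 := pow_ne_zero _ hg0
    rw [v.ord_mul hge hy0, ord_pow]
    have hord : 0 ≤ v.ord g := (mem_iff_ord v hg0).mp (hg.2 v hv)
    rcases eq_or_lt_of_le hord with h0 | hpos
    · rw [← h0, mul_zero, zero_add]
      exact hyv v hv h0.symm hy0
    · have hvZ : v ∈ Zf := by
        rw [hZf, Set.Finite.mem_toFinset]
        exact ne_of_gt hpos
      have h1 : Int.toNat (-D v - v.ord y) ≤ e :=
        le_trans (Finset.single_le_sum (f := fun v : Place K F => Int.toNat (-D v - v.ord y))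
          (fun _ _ => Nat.zero_le _) hvZ) (Nat.le_add_left _ _)
      have h2 : -D v - v.ord y ≤ (Int.toNat (-D v - v.ord y) : ℤ) := Int.self_le_toNat _
      have h3 : (Int.toNat (-D v - v.ord y) : ℤ) ≤ (e : ℤ) := by exact_mod_cast h1
      have h4 : (e : ℤ) ≤ (e : ℤ) * v.ord g := by
        have : (1 : ℤ) ≤ v.ord g := hpos
        nlinarith [Int.natCast_nonneg e]
      omega

include hO hVfin hVrank in
/-- **Functions on `D(g)`, valuatively**: `y ∈ (ring Vert S)[1/g]` as soon as `y` is integral at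
every vertical valuation and every place of `S` at which `g` is a unit. -/
theorem mem_away_ring_of_local (S : Set (Place K F)) {g : F} (hg : g ∈ ring Vert S)
    (hg0 : g ≠ 0) (hgfin : {v : Place K F | v.ord g ≠ 0}.Finite) {y : F}
    (hyW : ∀ W ∈ Vert, g⁻¹ ∈ W → y ∈ W)
    (hyv : ∀ v ∈ S, v.ord g = 0 → y ∈ v.toValuationSubring) :
    y ∈ awaySubring (ring Vert S) g hg := by
  obtain ⟨e, he⟩ := exists_pow_mul_mem_lat_of_local Vert hO hVfin hVrank (fun _ => 0) S hg hg0
    hgfin hyW (fun v hv h0 hy0 => by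
      rw [neg_zero]
      exact (mem_iff_ord v hy0).mp (hyv v hv h0))
  exact ⟨e, (mem_ring_iff_mem_lat_zero Vert hO).mpr he⟩

include hVfin hVrank in
/-- **`SoftCore.LocalGen.hs_mem`, `hs_gen` from a valuative generator.**  `s ≠ 0` is a unit of
every vertical `W` meeting `D(g)` and has `ord_v s = -D v` at every place `v ∈ S` meeting
`D(g)`. -/
theorem localGen_fields (D : Place K F → ℤ) (S : Set (Place K F)) {g : F}
    (hg : g ∈ ring Vert S) (hg0 : g ≠ 0) (hgfin : {v : Place K F | v.ord g ≠ 0}.Finite) {s : F}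
    (hs0 : s ≠ 0) (hsW : ∀ W ∈ Vert, g⁻¹ ∈ W → s ∈ W ∧ s⁻¹ ∈ W)
    (hsv : ∀ v ∈ S, v.ord g = 0 → v.ord s = -D v) :
    (∃ e : ℕ, g ^ e * s ∈ lat Vert hO D S) ∧
      ∀ x ∈ lat Vert hO D S, x / s ∈ awaySubring (ring Vert S) g hg := by
  refine ⟨?_, fun x hx => ?_⟩
  · exact exists_pow_mul_mem_lat_of_local Vert hO hVfin hVrank D S hg hg0 hgfin
      (fun W hW hgW => (hsW W hW hgW).1) (fun v hv h0 _ => le_of_eq (hsv v hv h0).symm)
  · refine mem_away_ring_of_local Vert hO hVfin hVrank S hg hg0 hgfin (fun W hW hgW => ?_)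
      (fun v hv h0 => ?_)
    · rw [div_eq_mul_inv]
      exact W.mul_mem _ _ (hx.1 W hW) (hsW W hW hgW).2
    · rcases eq_or_ne x 0 with rfl | hx0
      · rw [zero_div]
        exact zero_mem _
      · have hxs : x / s ≠ 0 := div_ne_zero hx0 hs0
        rw [mem_iff_ord v hxs, ord_div v hx0 hs0, hsv v hv h0]
        have := hx.2 v hv hx0
        omega

end Fermat.Agent.S36.Lattice
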