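import Fermat.Agent.S36.SoftCoreInput
import Fermat.Agent.S36.FormalLift.LatticeLocal

/-!
# PROJECT V (S36), chain (V15)/(V16) dictionary (helper24): the vertical valuations detect the
reduced special fibre of every principal open of the lattice charts

Setting of `FormalLift/Lattice.lean`, with the vertical valuation subrings given as a finite family
`W : 𝒲 → ValuationSubring F` of rank one.  helper1's adapter `SoftCoreInput.GenericRoot` asks for
`Detects W ϖ S` (an element of `S` in the maximal ideal of every `W w ⊇ S` lies in `rad (ϖ S)`) for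
the five kinds of rings `S` of `SoftCore.Charts`.  For the lattice charts they are all theorems:

* `detects_away` : `S = (ring Vert 𝒮)[1/g]`  (covers `C.S i`, `C.S' j`, `C.S₂ i j`, `C.S₂' i j`);
* `mem_away_away_of_local`, `detects_away_away` : `S = (ring Vert 𝒮)[1/φ][1/h]`  (covers
  `C.Smix i j`).
-/

set_option autoImplicit false

namespace Fermat.Agent.S36.Lattice

open AlgebraicCurve Fermat.Agent.S24.Ord Fermat.Agent.S18.CoreOrd Fermat.Agent.S36.FormalLift
  Fermat.Agent.S36.SoftCoreInput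

variable {O K F : Type*} [CommRing O] [Field K] [Field F] [Algebra O K] [Algebra K F] [Algebra O F]
  [IsScalarTower O K F]

variable {𝒲 : Type*} [Fintype 𝒲] (W : 𝒲 → ValuationSubring F)
  (hO : ∀ V ∈ Set.range W, ∀ c : O, algebraMap O F c ∈ V)
  (hVrank : ∀ V ∈ Set.range W, ∀ g ∈ V, g⁻¹ ∉ V → ∀ y : F, ∃ e : ℕ, g ^ e * y ∈ V)

/-- an element of valuation `< 1` is in the valuation ring and, if nonzero, not a unit of it -/
theorem mem_and_inv_not_mem_of_val_lt (V : ValuationSubring F) {x : F} (hx0 : x ≠ 0)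
    (hx : V.valuation x < 1) : x ∈ V ∧ x⁻¹ ∉ V := by
  refine ⟨(V.valuation_le_one_iff x).mp hx.le, fun hinv => ?_⟩
  have h1 : V.valuation x⁻¹ ≤ 1 := (V.valuation_le_one_iff _).mpr hinv
  have h2 : V.valuation x * V.valuation x⁻¹ = 1 := by
    rw [← map_mul, mul_inv_cancel₀ hx0, map_one]
  have h3 : V.valuation x * V.valuation x⁻¹ < 1 := by
    calc V.valuation x * V.valuation x⁻¹ ≤ V.valuation x * 1 := mul_le_mul' le_rfl h1
      _ = V.valuation x := mul_one _
      _ < 1 := hx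
  rw [h2] at h3
  exact lt_irrefl _ h3

/-- the constants of `O` that are nonzero in `F` are units at every place -/
theorem inv_algebraMap_base_mem (v : Place K F) {c : O} (hc : algebraMap O F c ≠ 0) :
    (algebraMap O F c)⁻¹ ∈ v.toValuationSubring := by
  rw [mem_iff_ord v (inv_ne_zero hc), v.ord_inv, ord_algebraMap_base, neg_zero]

include hO hVrank in
/-- **The vertical valuations detect the reduced special fibre of `D(g)`.** -/
theorem detects_away (S : Set (Place K F)) {g : F} (hg : g ∈ ring (Set.range W) S) (hg0 : g ≠ 0)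
    (hgfin : {v : Place K F | v.ord g ≠ 0}.Finite) (ϖ : O) (hϖ0 : algebraMap O F ϖ ≠ 0) :
    Detects W (algebraMap O F ϖ) (awaySubring (ring (Set.range W) S) g hg) := by
  classical
  intro x hxS hx
  rcases eq_or_ne x 0 with rfl | hx0
  · exact ⟨1, 0, Subring.zero_mem _, by simp⟩
  have hVfin : (Set.range W).Finite := Set.finite_range W
  -- `g⁻¹ ∈ W w` means that `W w` contains the ring of `D(g)`
  have hle : ∀ w, g⁻¹ ∈ W w → awaySubring (ring (Set.range W) S) g hg ≤ (W w).toSubring := by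
    intro w hgw y ⟨e, he⟩
    have h1 : g ^ e * y ∈ W w := he.1 (W w) ⟨w, rfl⟩
    have h2 : y = g⁻¹ ^ e * (g ^ e * y) := by
      rw [← mul_assoc, ← mul_pow, inv_mul_cancel₀ hg0, one_pow, one_mul]
    rw [h2]
    exact (W w).mul_mem _ _ (pow_mem hgw e) h1
  have hexp : ∀ w, ∃ e : ℕ, g⁻¹ ∈ W w → x ^ e * (algebraMap O F ϖ)⁻¹ ∈ W w := by
    intro w
    by_cases hgw : g⁻¹ ∈ W w
    · obtain ⟨hxW, hxinv⟩ := mem_and_inv_not_mem_of_val_lt (W w) hx0 (hx w (hle w hgw))
      obtain ⟨e, he⟩ := hVrank (W w) ⟨w, rfl⟩ x hxW hxinv (algebraMap O F ϖ)⁻¹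
      exact ⟨e, fun _ => he⟩
    · exact ⟨0, fun h => absurd h hgw⟩
  choose ew hew using hexp
  set N : ℕ := ∑ w, ew w with hN
  refine ⟨N, x ^ N * (algebraMap O F ϖ)⁻¹, ?_, ?_⟩
  · refine mem_away_ring_of_local (Set.range W) hO hVfin hVrank S hg hg0 hgfin ?_ ?_
    · rintro _ ⟨w, rfl⟩ hgw
      have hxW : x ∈ W w := hle w hgw hxS
      have hle' : ew w ≤ N := Finset.single_le_sum (f := ew) (fun _ _ => Nat.zero_le _)
        (Finset.mem_univ w)
      obtain ⟨d, hd⟩ := Nat.exists_eq_add_of_le hle'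
      have : x ^ N * (algebraMap O F ϖ)⁻¹ = x ^ d * (x ^ ew w * (algebraMap O F ϖ)⁻¹) := by
        rw [hd, pow_add]; ring
      rw [this]
      exact (W w).mul_mem _ _ (pow_mem hxW d) (hew w hgw)
    · intro v hv h0
      obtain ⟨e, he⟩ := hxS
      have h1 : g ^ e * x ∈ v.toValuationSubring := he.2 v hv
      have hginv : g⁻¹ ∈ v.toValuationSubring := by
        rw [mem_iff_ord v (inv_ne_zero hg0), v.ord_inv, h0, neg_zero]
      have h2 : x = g⁻¹ ^ e * (g ^ e * x) := by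
        rw [← mul_assoc, ← mul_pow, inv_mul_cancel₀ hg0, one_pow, one_mul]
      have hxv : x ∈ v.toValuationSubring := by
        rw [h2]
        exact (v.toValuationSubring).mul_mem _ _ (pow_mem hginv e) h1
      exact (v.toValuationSubring).mul_mem _ _ (pow_mem hxv N) (inv_algebraMap_base_mem v hϖ0)
  · field_simp

variable (hfinAll : ∀ f : F, f ≠ 0 → {v : Place K F | v.ord f ≠ 0}.Finite)

include hO hVrank hfinAll in
/-- **Functions on `D(φ) ∩ D(h)`, valuatively** (two-level localisation). -/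
theorem mem_away_away_of_local (S : Set (Place K F)) {φ : F} (hφ : φ ∈ ring (Set.range W) S)
    (hφ0 : φ ≠ 0) {h : F}
    (hh : h ∈ awaySubring (ring (Set.range W) S) φ hφ) (hh0 : h ≠ 0) {y : F}
    (hyW : ∀ w, h⁻¹ ∈ W w → y ∈ W w)
    (hyv : ∀ v ∈ S, v.ord φ = 0 → v.ord h = 0 → y ∈ v.toValuationSubring) :
    y ∈ awaySubring (awaySubring (ring (Set.range W) S) φ hφ) h hh := by
  have hVfin : (Set.range W).Finite := Set.finite_range W
  obtain ⟨a, ha⟩ := hh
  -- `g̃ = φ ^ (a + 1) * h` is a function on the chart with `D(g̃) = D(φ) ∩ D(h)`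
  have hgt : φ * (φ ^ a * h) ∈ ring (Set.range W) S := Subring.mul_mem _ hφ ha
  have hgt0 : φ * (φ ^ a * h) ≠ 0 := mul_ne_zero hφ0 (mul_ne_zero (pow_ne_zero _ hφ0) hh0)
  have hmem : y ∈ awaySubring (ring (Set.range W) S) (φ * (φ ^ a * h)) hgt := by
    refine mem_away_ring_of_local (Set.range W) hO hVfin hVrank S hgt hgt0 (hfinAll _ hgt0) ?_ ?_
    · rintro _ ⟨w, rfl⟩ hgw
      refine hyW w ?_
      have : h⁻¹ = (φ * (φ ^ a * h))⁻¹ * (φ * φ ^ a) := by
        have hφa : φ ^ a ≠ 0 := pow_ne_zero _ hφ0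
        field_simp
      rw [this]
      exact (W w).mul_mem _ _ hgw ((W w).mul_mem _ _ (hφ.1 (W w) ⟨w, rfl⟩)
        (pow_mem (hφ.1 (W w) ⟨w, rfl⟩) a))
    · intro v hv h0
      have hφa : φ ^ a ≠ 0 := pow_ne_zero _ hφ0
      have hφah : φ ^ a * h ≠ 0 := mul_ne_zero hφa hh0
      rw [v.ord_mul hφ0 hφah] at h0
      have h1 : 0 ≤ v.ord φ := (mem_iff_ord v hφ0).mp (hφ.2 v hv)
      have h2 : 0 ≤ v.ord (φ ^ a * h) := (mem_iff_ord v hφah).mp (ha.2 v hv)
      have h3 : v.ord φ = 0 := by omega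
      have h4 : v.ord (φ ^ a * h) = 0 := by omega
      rw [v.ord_mul hφa hh0, ord_pow, h3, mul_zero, zero_add] at h4
      exact hyv v hv h3 h4
  obtain ⟨e, he⟩ := hmem
  refine ⟨e, (a + 1) * e, ?_⟩
  have : φ ^ ((a + 1) * e) * (h ^ e * y) = (φ * (φ ^ a * h)) ^ e * y := by
    rw [mul_pow, mul_pow, ← pow_mul, pow_mul, pow_succ]
    ring
  rw [this]
  exact he

include hO hVrank hfinAll in
/-- **The vertical valuations detect the reduced special fibre of `D(φ) ∩ D(h)`.** -/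
theorem detects_away_away (S : Set (Place K F)) {φ : F} (hφ : φ ∈ ring (Set.range W) S)
    (hφ0 : φ ≠ 0) (hφV' : ∀ V ∈ Set.range W, φ⁻¹ ∈ V) {h : F}
    (hh : h ∈ awaySubring (ring (Set.range W) S) φ hφ) (hh0 : h ≠ 0) (ϖ : O)
    (hϖ0 : algebraMap O F ϖ ≠ 0) :
    Detects W (algebraMap O F ϖ)
      (awaySubring (awaySubring (ring (Set.range W) S) φ hφ) h hh) := by
  classical
  intro x hxS hx
  rcases eq_or_ne x 0 with rfl | hx0
  · exact ⟨1, 0, Subring.zero_mem _, by simp⟩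
  -- `h⁻¹ ∈ W w` means that `W w` contains the ring of `D(φ) ∩ D(h)`
  have hle : ∀ w, h⁻¹ ∈ W w →
      awaySubring (awaySubring (ring (Set.range W) S) φ hφ) h hh ≤ (W w).toSubring := by
    rintro w hhw y ⟨e, b, he⟩
    have h1 : φ ^ b * (h ^ e * y) ∈ W w := he.1 (W w) ⟨w, rfl⟩
    have h2 : y = φ⁻¹ ^ b * h⁻¹ ^ e * (φ ^ b * (h ^ e * y)) := by
      have hφb : φ ^ b ≠ 0 := pow_ne_zero _ hφ0
      have hhe : h ^ e ≠ 0 := pow_ne_zero _ hh0
      rw [inv_pow, inv_pow]
      field_simp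
    rw [h2]
    exact (W w).mul_mem _ _ ((W w).mul_mem _ _ (pow_mem (hφV' (W w) ⟨w, rfl⟩) b)
      (pow_mem hhw e)) h1
  have hexp : ∀ w, ∃ e : ℕ, h⁻¹ ∈ W w → x ^ e * (algebraMap O F ϖ)⁻¹ ∈ W w := by
    intro w
    by_cases hhw : h⁻¹ ∈ W w
    · obtain ⟨hxW, hxinv⟩ := mem_and_inv_not_mem_of_val_lt (W w) hx0 (hx w (hle w hhw))
      obtain ⟨e, he⟩ := hVrank (W w) ⟨w, rfl⟩ x hxW hxinv (algebraMap O F ϖ)⁻¹
      exact ⟨e, fun _ => he⟩
    · exact ⟨0, fun h' => absurd h' hhw⟩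
  choose ew hew using hexp
  set N : ℕ := ∑ w, ew w with hN
  refine ⟨N, x ^ N * (algebraMap O F ϖ)⁻¹, ?_, ?_⟩
  · refine mem_away_away_of_local W hO hVrank hfinAll S hφ hφ0 hh hh0 ?_ ?_
    · intro w hhw
      have hxW : x ∈ W w := hle w hhw hxS
      have hle' : ew w ≤ N := Finset.single_le_sum (f := ew) (fun _ _ => Nat.zero_le _)
        (Finset.mem_univ w)
      obtain ⟨d, hd⟩ := Nat.exists_eq_add_of_le hle'
      have : x ^ N * (algebraMap O F ϖ)⁻¹ = x ^ d * (x ^ ew w * (algebraMap O F ϖ)⁻¹) := by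
        rw [hd, pow_add]; ring
      rw [this]
      exact (W w).mul_mem _ _ (pow_mem hxW d) (hew w hhw)
    · intro v hv h0 h0'
      obtain ⟨e, b, he⟩ := hxS
      have h1 : φ ^ b * (h ^ e * x) ∈ v.toValuationSubring := he.2 v hv
      have hφinv : φ⁻¹ ∈ v.toValuationSubring := by
        rw [mem_iff_ord v (inv_ne_zero hφ0), v.ord_inv, h0, neg_zero]
      have hhinv : h⁻¹ ∈ v.toValuationSubring := by
        rw [mem_iff_ord v (inv_ne_zero hh0), v.ord_inv, h0', neg_zero]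
      have h2 : x = φ⁻¹ ^ b * h⁻¹ ^ e * (φ ^ b * (h ^ e * x)) := by
        have hφb : φ ^ b ≠ 0 := pow_ne_zero _ hφ0
        have hhe : h ^ e ≠ 0 := pow_ne_zero _ hh0
        rw [inv_pow, inv_pow]
        field_simp
      have hxv : x ∈ v.toValuationSubring := by
        rw [h2]
        exact (v.toValuationSubring).mul_mem _ _
          ((v.toValuationSubring).mul_mem _ _ (pow_mem hφinv b) (pow_mem hhinv e)) h1
      exact (v.toValuationSubring).mul_mem _ _ (pow_mem hxv N) (inv_algebraMap_base_mem v hϖ0)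
  · field_simp

end Fermat.Agent.S36.Lattice
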