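import Fermat.Agent.S36.VChartsOfLoc
import Fermat.Agent.S36.FormalLift.LatticeDetects
import Fermat.Agent.S36.NewInertiaDatum

/-!
# PROJECT V (S36), chain (V9) (helper24): `ker_inf` of `BranchCoreT.PDatum` on a chart ring

The vertical valuation subrings cut out the reduced special fibre of the chart `chart O φ`:
an element of the chart lies in the maximal ideal of every `W w` iff a power of it is divisible by
the uniformiser `ϖ` in the chart.

* `exists_pow_eq_mul_chart` : `a ∈ chart O φ`, `val_w a < 1` for all `w` ⟹ `a ^ N = ϖ b`,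
  `b ∈ chart O φ` (rank one + `hvert`, via `VChartsOfLoc.mem_ring_iff_chart`);
* `val_lt_of_pow_eq_mul` : the converse;
* `iInf_ker_eq_radical` : for ANY presentation `AA : Subring F`, `hAA : AA = (chart O φ).toSubring`
  and ANY ring homs `r w : AA →+* B w` with `r w a = 0 ↔ val_w a < 1`:
  `⨅ w, ker (r w) = √(ϖ)`;
* `ker_inf_comp` : the same for three homs `r₂₀ r₁₁ r₀₂` indexed by `NewInertiaDatum.Comp` into one
  ring `B`, in the literal shape of the field `ker_inf` of `BranchCoreT.PDatum`.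
-/

set_option autoImplicit false
set_option linter.unusedSectionVars false
set_option linter.style.haveILetI false

namespace Fermat.Agent.S36.KerInfChart

open AlgebraicCurve Polynomial IntermediateField Fermat.Agent.S36.ChartRing
  Fermat.Agent.S36.ChartVert Fermat.Agent.S36.Lattice Fermat.Agent.S36.NewInertiaDatum

variable {O : Type*} [CommRing O] [IsDomain O] [IsDiscreteValuationRing O] {K : Type*} [Field K]
  [Algebra O K] [IsFractionRing O K] [CharZero K] {F : Type*} [Field F] [Algebra K F]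
  [Algebra O F] [IsScalarTower O K F] {𝒲 : Type*} [Fintype 𝒲]

/-- **an element of the chart in every vertical maximal ideal is nilpotent modulo `ϖ`** -/
theorem exists_pow_eq_mul_chart (W : 𝒲 → ValuationSubring F) {ϖ : O} (hϖ : Irreducible ϖ)
    {φ : F} (hφ : Transcendental K φ) [FiniteDimensional K⟮φ⟯ F]
    (hgauss : ∀ w, IsGaussVert ϖ φ (W w))
    (hvert : ∀ V : ValuationSubring F, (∀ c : O, algebraMap O F c ∈ V) → φ ∈ V →
      (algebraMap O F ϖ)⁻¹ ∉ V →
      (∀ s : O[X], (∃ i, IsUnit (s.coeff i)) → (aeval φ s)⁻¹ ∈ V) → V ∈ Set.range W)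
    (hrank : ∀ V ∈ Set.range W, ∀ g ∈ V, g⁻¹ ∉ V → ∀ y : F, ∃ e : ℕ, g ^ e * y ∈ V)
    {a : F} (ha : a ∈ chart O φ) (hlt : ∀ w, (W w).valuation a < 1) :
    ∃ (N : ℕ) (b : F), b ∈ chart O φ ∧ a ^ N = algebraMap O F ϖ * b := by
  classical
  rcases eq_or_ne a 0 with rfl | ha0
  · exact ⟨1, 0, Subalgebra.zero_mem _, by simp⟩
  have hϖ0 : algebraMap O F ϖ ≠ 0 := by
    intro h0
    have hK : algebraMap O K ϖ = 0 := by
      have := h0
      rw [IsScalarTower.algebraMap_apply O K F] at this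
      exact (map_eq_zero_iff _ (algebraMap K F).injective).1 this
    exact hϖ.ne_zero ((map_eq_zero_iff _ (IsFractionRing.injective O K)).1 hK)
  have haR : a ∈ Lattice.ring (Set.range W) (finiteAt (K := K) φ) :=
    (VChartsOfLoc.mem_ring_iff_chart W hϖ hφ hgauss hvert a).2 ⟨⟨a, ha⟩, rfl⟩
  have hexp : ∀ w, ∃ e : ℕ, a ^ e * (algebraMap O F ϖ)⁻¹ ∈ W w := by
    intro w
    obtain ⟨haW, hainv⟩ := mem_and_inv_not_mem_of_val_lt (W w) ha0 (hlt w)
    exact hrank (W w) ⟨w, rfl⟩ a haW hainv _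
  choose ew hew using hexp
  set N : ℕ := ∑ w, ew w with hN
  have hbR : a ^ N * (algebraMap O F ϖ)⁻¹ ∈ Lattice.ring (Set.range W) (finiteAt (K := K) φ) := by
    refine ⟨?_, ?_⟩
    · rintro _ ⟨w, rfl⟩
      have haW : a ∈ W w := haR.1 _ ⟨w, rfl⟩
      have hle' : ew w ≤ N := Finset.single_le_sum (f := ew) (fun _ _ => Nat.zero_le _)
        (Finset.mem_univ w)
      obtain ⟨d, hd⟩ := Nat.exists_eq_add_of_le hle'
      have : a ^ N * (algebraMap O F ϖ)⁻¹ = a ^ d * (a ^ ew w * (algebraMap O F ϖ)⁻¹) := by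
        rw [hd, pow_add]; ring
      rw [this]
      exact (W w).mul_mem _ _ (pow_mem haW d) (hew w)
    · intro v hv
      exact (v.toValuationSubring).mul_mem _ _ (pow_mem (haR.2 v hv) N)
        (inv_algebraMap_base_mem v hϖ0)
  obtain ⟨b, hb⟩ := (VChartsOfLoc.mem_ring_iff_chart W hϖ hφ hgauss hvert _).1 hbR
  refine ⟨N, a ^ N * (algebraMap O F ϖ)⁻¹, ?_, ?_⟩
  · rw [← hb]
    exact b.2
  · field_simp

omit [IsDomain O] [IsDiscreteValuationRing O] [IsFractionRing O K] [CharZero K] [Fintype 𝒲] in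
/-- the converse: an element with a power divisible by a non-unit is a non-unit -/
theorem val_lt_of_pow_eq_mul (V : ValuationSubring F) {a b c : F} (ha : a ∈ V) (hb : b ∈ V)
    (hc : V.valuation c < 1) {N : ℕ} (h : a ^ N = c * b) : V.valuation a < 1 := by
  by_contra hcon
  have h1 : V.valuation a = 1 :=
    le_antisymm ((V.valuation_le_one_iff _).mpr ha) (not_lt.mp hcon)
  have h2 : V.valuation (a ^ N) = 1 := by rw [map_pow, h1, one_pow]
  have h3 : V.valuation (c * b) < 1 := by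
    rw [map_mul]
    calc V.valuation c * V.valuation b ≤ V.valuation c * 1 :=
          mul_le_mul' le_rfl ((V.valuation_le_one_iff _).mpr hb)
      _ = V.valuation c := mul_one _
      _ < 1 := hc
  rw [← h, h2] at h3
  exact lt_irrefl _ h3

/-- **`ker_inf` for any presentation of the chart ring and any family of reductions** -/
theorem iInf_ker_eq_radical (W : 𝒲 → ValuationSubring F) {ϖ : O} (hϖ : Irreducible ϖ)
    {φ : F} (hφ : Transcendental K φ) [FiniteDimensional K⟮φ⟯ F]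
    (hgauss : ∀ w, IsGaussVert ϖ φ (W w))
    (hvert : ∀ V : ValuationSubring F, (∀ c : O, algebraMap O F c ∈ V) → φ ∈ V →
      (algebraMap O F ϖ)⁻¹ ∉ V →
      (∀ s : O[X], (∃ i, IsUnit (s.coeff i)) → (aeval φ s)⁻¹ ∈ V) → V ∈ Set.range W)
    (hrank : ∀ V ∈ Set.range W, ∀ g ∈ V, g⁻¹ ∉ V → ∀ y : F, ∃ e : ℕ, g ^ e * y ∈ V)
    (AA : Subring F) (hAA : AA = (chart O φ).toSubring)
    {B : 𝒲 → Type*} [∀ w, CommRing (B w)] (r : ∀ w, ↥AA →+* B w)
    (hr : ∀ w (a : ↥AA), r w a = 0 ↔ (W w).valuation (a : F) < 1)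
    (ϖ' : ↥AA) (hϖ' : (ϖ' : F) = algebraMap O F ϖ) :
    (⨅ w, RingHom.ker (r w)) = (Ideal.span {ϖ'}).radical := by
  subst hAA
  ext a
  rw [Ideal.mem_iInf]
  constructor
  · intro h
    have hlt : ∀ w, (W w).valuation (a : F) < 1 := fun w =>
      (hr w a).1 (RingHom.mem_ker.1 (h w))
    obtain ⟨N, b, hb, hab⟩ := exists_pow_eq_mul_chart W hϖ hφ hgauss hvert hrank a.2 hlt
    refine ⟨N, Ideal.mem_span_singleton'.2 ⟨⟨b, hb⟩, ?_⟩⟩
    apply Subtype.ext
    rw [Subring.coe_mul, SubmonoidClass.coe_pow, hab, hϖ', mul_comm]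
  · rintro ⟨N, hN⟩ w
    obtain ⟨b, hb⟩ := Ideal.mem_span_singleton'.1 hN
    have hab : (a : F) ^ N = algebraMap O F ϖ * (b : F) := by
      have := congrArg (fun z : ↥(chart O φ).toSubring => (z : F)) hb
      simp only [Subring.coe_mul, SubmonoidClass.coe_pow, hϖ'] at this
      rw [← this, mul_comm]
    have hmem : ∀ x : ↥(chart O φ).toSubring, (x : F) ∈ W w := fun x =>
      mem_of_mem_chart x.2 (W w) (hgauss w).base (hgauss w).gen
    have hcv : (W w).valuation (algebraMap O F ϖ) < 1 := by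
      by_contra hcon
      have h1 : (W w).valuation (algebraMap O F ϖ) = 1 :=
        le_antisymm (((W w).valuation_le_one_iff _).mpr ((hgauss w).base ϖ)) (not_lt.1 hcon)
      apply (hgauss w).nonunit
      rw [← (W w).valuation_le_one_iff, map_inv₀, h1, inv_one]
    exact RingHom.mem_ker.2 ((hr w a).2 (val_lt_of_pow_eq_mul (W w) (hmem a) (hmem b) hcv hab))

omit [Fintype 𝒲] in
/-- **the field `ker_inf` of `BranchCoreT.PDatum`** for three reductions indexed by `Comp` -/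
theorem ker_inf_comp (W : Comp → ValuationSubring F) {ϖ : O} (hϖ : Irreducible ϖ)
    {φ : F} (hφ : Transcendental K φ) [FiniteDimensional K⟮φ⟯ F]
    (hgauss : ∀ w, IsGaussVert ϖ φ (W w))
    (hvert : ∀ V : ValuationSubring F, (∀ c : O, algebraMap O F c ∈ V) → φ ∈ V →
      (algebraMap O F ϖ)⁻¹ ∉ V →
      (∀ s : O[X], (∃ i, IsUnit (s.coeff i)) → (aeval φ s)⁻¹ ∈ V) → V ∈ Set.range W)
    (hrank : ∀ V ∈ Set.range W, ∀ g ∈ V, g⁻¹ ∉ V → ∀ y : F, ∃ e : ℕ, g ^ e * y ∈ V)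
    (AA : Subring F) (hAA : AA = (chart O φ).toSubring)
    {B : Type*} [CommRing B] (r₂₀ r₁₁ r₀₂ : ↥AA →+* B)
    (h₂₀ : ∀ a : ↥AA, r₂₀ a = 0 ↔ (W Comp.c20).valuation (a : F) < 1)
    (h₁₁ : ∀ a : ↥AA, r₁₁ a = 0 ↔ (W Comp.c11).valuation (a : F) < 1)
    (h₀₂ : ∀ a : ↥AA, r₀₂ a = 0 ↔ (W Comp.c02).valuation (a : F) < 1)
    (ϖ' : ↥AA) (hϖ' : (ϖ' : F) = algebraMap O F ϖ) :
    RingHom.ker r₂₀ ⊓ RingHom.ker r₁₁ ⊓ RingHom.ker r₀₂ = (Ideal.span {ϖ'}).radical := by
  let r : ∀ _ : Comp, ↥AA →+* B := fun w => match w with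
    | Comp.c20 => r₂₀
    | Comp.c11 => r₁₁
    | Comp.c02 => r₀₂
  have hr : ∀ w (a : ↥AA), r w a = 0 ↔ (W w).valuation (a : F) < 1 := by
    intro w a
    cases w
    · exact h₂₀ a
    · exact h₁₁ a
    · exact h₀₂ a
  rw [← iInf_ker_eq_radical W hϖ hφ hgauss hvert hrank AA hAA r hr ϖ' hϖ']
  ext a
  simp only [Ideal.mem_inf, Ideal.mem_iInf]
  constructor
  · rintro ⟨⟨h1, h2⟩, h3⟩ w
    cases w
    · exact h1
    · exact h2
    · exact h3
  · intro h
    exact ⟨⟨h Comp.c20, h Comp.c11⟩, h Comp.c02⟩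

end Fermat.Agent.S36.KerInfChart
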