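import Fermat.Agent.S36.FormalLift.LatticeX0
import Fermat.Agent.S36.FormalLift.KerInfChart

/-!
# PROJECT V (S36), chain (V9) at `X₀` (helper24): `ker_inf` of `BranchCoreT.PDatum` on the two charts

Hypotheses first on helper21's `ThreeValX0.Hyp` (`Y`), helper26's `CompNormalX0.Base` (`hB`) and
(U0) in the `IsGaussVert` shape (helper11 `GaussUniqX0.forall_isGaussVert_eq_Og0`, helper25
`VertX0Final.hU0_Y`).

* `ker_inf_fin` : for ANY presentation `AA = (chart O x₂).toSubring` and ANY three ring homs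
  `r₂₀ r₁₁ r₀₂ : AA →+* B` with `r_w a = 0 ↔ val_{W_w} a < 1` and `ϖ'` the image of `q`:
  `ker r₂₀ ⊓ ker r₁₁ ⊓ ker r₀₂ = √(ϖ')`  (the literal field `ker_inf`);
* `ker_inf_inf` : the same on `chart O x₂⁻¹`;
* `exists_pow_eq_mul_fin`, `exists_pow_eq_mul_inf` : the valuation forms.
-/

set_option autoImplicit false
set_option linter.unusedSectionVars false
set_option linter.style.haveILetI false

noncomputable section

namespace Fermat.Agent.S36.KerInfX0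

open Polynomial IntermediateField Fermat.Agent.S36.PowerBasisK0 Fermat.Agent.S36.JIntegral
  Fermat.Agent.S36.CompNormalX0 Fermat.Agent.S36.NewInertiaDatum Fermat.Agent.S36.ChartVert
  Fermat.Agent.S36.ChartRing Fermat.Agent.S36.Lattice Fermat.Agent.S36.LatticeX0
  Fermat.Agent.S36.KerInfChart

local notation "Kb" => AlgebraicClosure ℚ

variable {H : Subgroup (Kb ≃ₐ[ℚ] Kb)}
variable {N0 q : ℕ} [NeZero N0] [NeZero q] [NeZero (N0 * q)] [NeZero (N0 * q * q)]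
variable {κ : Type} [Field κ] (Y : ThreeValX0.Hyp H N0 q κ)

variable {O : Type*} [CommRing O] [IsDomain O] [IsDiscreteValuationRing O]
  [Algebra O (FK H N0)] [Algebra O (FK H (N0 * q))] [Algebra O (FK H (N0 * q * q))]
  {K : Type*} [Field K] [Algebra O K] [IsFractionRing O K] [CharZero K]
  [Algebra K (FK H (N0 * q * q))] [IsScalarTower O K (FK H (N0 * q * q))]
  {k : Type*} [Field k] [Algebra k κ] [IsAlgClosed k] {π : O →+* k} (hB : Base Y O π)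

include hB

/-- valuation form of `ker_inf` on the chart `{x₂ ≠ ∞}` -/
theorem exists_pow_eq_mul_fin (hq : Irreducible ((q : ℕ) : O))
    (hφ : Transcendental K (x2 H N0 q)) [FiniteDimensional K⟮x2 H N0 q⟯ (FK H (N0 * q * q))]
    (htr : Transcendental O (x2 H N0 q))
    (hU0 : ∀ V₀ : ValuationSubring (FK H N0),
      IsGaussVert ((q : ℕ) : O) (j0K H N0) V₀ → V₀ = Y.O₀)
    {a : FK H (N0 * q * q)} (ha : a ∈ chart O (x2 H N0 q))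
    (hlt : ∀ w, (Wfam Y w).valuation a < 1) :
    ∃ (N : ℕ) (b : FK H (N0 * q * q)), b ∈ chart O (x2 H N0 q) ∧
      a ^ N = algebraMap O (FK H (N0 * q * q)) ((q : ℕ) : O) * b :=
  exists_pow_eq_mul_chart (K := K) (Wfam Y) hq hφ (isGaussVert_Wfam Y hB)
    (LatticeX0.hvert Y hB hq htr hU0) (hrank_Wfam Y) ha hlt

/-- valuation form of `ker_inf` on the chart `{x₂ ≠ 0}` -/
theorem exists_pow_eq_mul_inf (hq : Irreducible ((q : ℕ) : O))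
    (hφ : Transcendental K (x2 H N0 q)⁻¹)
    [FiniteDimensional K⟮(x2 H N0 q)⁻¹⟯ (FK H (N0 * q * q))]
    (htr : Transcendental O (x2 H N0 q)⁻¹)
    (hU0 : ∀ V₀ : ValuationSubring (FK H N0),
      IsGaussVert ((q : ℕ) : O) (j0K H N0) V₀ → V₀ = Y.O₀)
    {a : FK H (N0 * q * q)} (ha : a ∈ chart O (x2 H N0 q)⁻¹)
    (hlt : ∀ w, (Wfam Y w).valuation a < 1) :
    ∃ (N : ℕ) (b : FK H (N0 * q * q)), b ∈ chart O (x2 H N0 q)⁻¹ ∧
      a ^ N = algebraMap O (FK H (N0 * q * q)) ((q : ℕ) : O) * b :=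
  exists_pow_eq_mul_chart (K := K) (Wfam Y) hq hφ (isGaussVert_Wfam_inv Y hB)
    (LatticeX0.hvert' Y hB hq htr hU0) (hrank_Wfam Y) ha hlt

/-- **`PDatum.ker_inf` on the chart `{x₂ ≠ ∞}`** -/
theorem ker_inf_fin (hq : Irreducible ((q : ℕ) : O))
    (hφ : Transcendental K (x2 H N0 q)) [FiniteDimensional K⟮x2 H N0 q⟯ (FK H (N0 * q * q))]
    (htr : Transcendental O (x2 H N0 q))
    (hU0 : ∀ V₀ : ValuationSubring (FK H N0),
      IsGaussVert ((q : ℕ) : O) (j0K H N0) V₀ → V₀ = Y.O₀)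
    (AA : Subring (FK H (N0 * q * q))) (hAA : AA = (chart O (x2 H N0 q)).toSubring)
    {B : Type*} [CommRing B] (r₂₀ r₁₁ r₀₂ : ↥AA →+* B)
    (h₂₀ : ∀ a : ↥AA, r₂₀ a = 0 ↔ Y.W₂₀.valuation (a : FK H (N0 * q * q)) < 1)
    (h₁₁ : ∀ a : ↥AA, r₁₁ a = 0 ↔ Y.W₁₁.valuation (a : FK H (N0 * q * q)) < 1)
    (h₀₂ : ∀ a : ↥AA, r₀₂ a = 0 ↔ Y.W₀₂.valuation (a : FK H (N0 * q * q)) < 1)
    (ϖ' : ↥AA) (hϖ' : (ϖ' : FK H (N0 * q * q)) = ((q : ℕ) : FK H (N0 * q * q))) :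
    RingHom.ker r₂₀ ⊓ RingHom.ker r₁₁ ⊓ RingHom.ker r₀₂ = (Ideal.span {ϖ'}).radical :=
  ker_inf_comp (K := K) (Wfam Y) hq hφ (isGaussVert_Wfam Y hB)
    (LatticeX0.hvert Y hB hq htr hU0) (hrank_Wfam Y) AA hAA r₂₀ r₁₁ r₀₂ h₂₀ h₁₁ h₀₂ ϖ'
    (by rw [hϖ', map_natCast])

/-- **`PDatum.ker_inf` on the chart `{x₂ ≠ 0}`** -/
theorem ker_inf_inf (hq : Irreducible ((q : ℕ) : O))
    (hφ : Transcendental K (x2 H N0 q)⁻¹)
    [FiniteDimensional K⟮(x2 H N0 q)⁻¹⟯ (FK H (N0 * q * q))]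
    (htr : Transcendental O (x2 H N0 q)⁻¹)
    (hU0 : ∀ V₀ : ValuationSubring (FK H N0),
      IsGaussVert ((q : ℕ) : O) (j0K H N0) V₀ → V₀ = Y.O₀)
    (AA : Subring (FK H (N0 * q * q))) (hAA : AA = (chart O (x2 H N0 q)⁻¹).toSubring)
    {B : Type*} [CommRing B] (r₂₀ r₁₁ r₀₂ : ↥AA →+* B)
    (h₂₀ : ∀ a : ↥AA, r₂₀ a = 0 ↔ Y.W₂₀.valuation (a : FK H (N0 * q * q)) < 1)
    (h₁₁ : ∀ a : ↥AA, r₁₁ a = 0 ↔ Y.W₁₁.valuation (a : FK H (N0 * q * q)) < 1)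
    (h₀₂ : ∀ a : ↥AA, r₀₂ a = 0 ↔ Y.W₀₂.valuation (a : FK H (N0 * q * q)) < 1)
    (ϖ' : ↥AA) (hϖ' : (ϖ' : FK H (N0 * q * q)) = ((q : ℕ) : FK H (N0 * q * q))) :
    RingHom.ker r₂₀ ⊓ RingHom.ker r₁₁ ⊓ RingHom.ker r₀₂ = (Ideal.span {ϖ'}).radical :=
  ker_inf_comp (K := K) (Wfam Y) hq hφ (isGaussVert_Wfam_inv Y hB)
    (LatticeX0.hvert' Y hB hq htr hU0) (hrank_Wfam Y) AA hAA r₂₀ r₁₁ r₀₂ h₂₀ h₁₁ h₀₂ ϖ'
    (by rw [hϖ', map_natCast])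

end Fermat.Agent.S36.KerInfX0
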