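/-
PROJECT V (S36), slice V-BranchEqV (helper24), chain (V12)(i): **the components `C₂₀`, `C₀₂` (and
`C₁₁`) of the special fibre are REDUCED at their generic points**, in the literal shape `he20`,
`he02` consumed by `AllPointsT.locPrincipal_of_isMaximal` (`AllPoints.BranchEq (ker r) ϖ`).

Abstract, ring + valuation language.  `A` a noetherian integrally closed domain with fraction field
`F`, `W ≥ A` a valuation subring of `F` whose maximal ideal is generated by `ϖ ∈ A`
(`hgen : val x < 1 → ϖ⁻¹ x ∈ W`), `P = A ∩ 𝔪_W`.  If `P` is a minimal prime over `(ϖ)` then, by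
Krull's principal ideal theorem, `A_P` is a noetherian integrally closed local domain of dimension
`≤ 1`, hence a valuation ring; comparing with `W` gives `P A_P = ϖ A_P`, i.e. `BranchEq P ϖ`.

* `valuationRing_localization` : `A_P` is a valuation ring for `P` of height `≤ 1`;
* `branchEq_of_valuationSubring` : the statement above;
* `mem_minimalPrimes_of_inf` : `P₁ ⊓ P₂ ⊓ P₃ = √(ϖ)`, `P₂, P₃ ⊄ P₁` ⟹ `P₁` minimal over `(ϖ)`;
* `not_ker_le_of_valuation` : incomparability from a separating element (`OpenLift.Separated`);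
* `branchEq_r20`, `branchEq_r11`, `branchEq_r02` : for `D : BranchCoreT.PDatum A₁ A B`
  (`D.ker_inf`), the literal `he20` / `he02` of `AllPointsT`.

SECOND FORM, on the chart ring `chart O φ` itself, WITHOUT minimal primes: for a Gauss-vertical
`W` (`ChartVert.IsGaussVert π φ W`) every `y ∈ W` is `a / s` with `a, s` in the chart ring and `s`
a unit of `W` (`Lattice.exists_mul_eq_of_isGaussVert`), so
* `branchEq_chart` : `BranchEq P ϖ` for `P = chart ∩ 𝔪_W`, `ϖ` the image of `π`, from `hgen` alone;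
* `branchEq_chart_ker` : the same for `P = ker r`, `r : chart O φ →+* B` with
  `r a = 0 ↔ val_W a < 1` (the literal `he20`/`he02` when `D.r20`, `D.ϖ` are so presented);
* `exists_separating_chart` : two different Gauss-vertical rank-one `W w ≠ W w'` are separated by
  an element of the chart ring (`h11`, `h02` of the first form, if wanted).
-/
import Mathlib
import Fermat.Agent.S36.AllPointsT
import Fermat.Agent.S36.FormalLift.LatticeSep

set_option autoImplicit false
set_option linter.unusedSectionVars false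
set_option linter.style.haveILetI false

namespace Fermat.Agent.S36.BranchEqV

open Fermat.Agent.S36.AllPoints Fermat.Agent.S36.BranchCoreT

variable {A : Type*} [CommRing A] [IsDomain A]

/-! ### height one localisations of a noetherian normal domain -/

/-- the localisation of a noetherian integrally closed domain at a prime of height `≤ 1` is a
valuation ring -/
theorem valuationRing_localization [IsNoetherianRing A] [IsIntegrallyClosed A]
    (P : Ideal A) [P.IsPrime] (hP : P.height ≤ 1) :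
    ValuationRing (Localization.AtPrime P) := by
  haveI : IsNoetherianRing (Localization.AtPrime P) :=
    IsLocalization.isNoetherianRing P.primeCompl _ inferInstance
  haveI : IsIntegrallyClosed (Localization.AtPrime P) :=
    isIntegrallyClosed_of_isLocalization _ P.primeCompl P.primeCompl_le_nonZeroDivisors
  haveI : Ring.KrullDimLE 1 (Localization.AtPrime P) := by
    rw [Ring.krullDimLE_iff, IsLocalization.AtPrime.ringKrullDim_eq_height P]
    exact_mod_cast hP
  have h31 := (tfae_of_isNoetherianRing_of_isLocalRing_of_isDomain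
    (R := Localization.AtPrime P)).out 3 1
  exact h31.mp
    ⟨inferInstance, fun Q hQ hQp => IsLocalRing.eq_maximalIdeal (hQp.isMaximal_of_ne_bot hQ)⟩

variable {F : Type*} [Field F] [Algebra A F] [IsFractionRing A F]

local notation "ι" => algebraMap A F

/-- **the generic point of a reduced vertical component**: `ϖ` generates `P = A ∩ 𝔪_W` in `A_P` -/
theorem branchEq_of_valuationSubring [IsNoetherianRing A] [IsIntegrallyClosed A]
    (W : ValuationSubring F) (hA : ∀ a : A, ι a ∈ W) (P : Ideal A)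
    (hP : ∀ a : A, a ∈ P ↔ W.valuation (ι a) < 1) (ϖ : A) (hϖ0 : ϖ ≠ 0)
    (hgen : ∀ x : F, W.valuation x < 1 → (ι ϖ)⁻¹ * x ∈ W)
    (hmin : P ∈ (Ideal.span {ϖ}).minimalPrimes) : BranchEq P ϖ := by
  haveI hPp : P.IsPrime := hmin.1.1
  have hht : P.height ≤ 1 :=
    Ideal.height_le_one_of_isPrincipal_of_mem_minimalPrimes (Ideal.span {ϖ}) P hmin
  haveI := valuationRing_localization P hht
  have hinj : Function.Injective (algebraMap A (Localization.AtPrime P)) :=
    IsLocalization.injective _ P.primeCompl_le_nonZeroDivisors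
  have hιϖ : ι ϖ ≠ 0 := fun h =>
    hϖ0 ((IsFractionRing.injective A F) (h.trans (map_zero _).symm))
  have hvϖ : W.valuation (ι ϖ) ≠ 0 := (Valuation.ne_zero_iff _).mpr hιϖ
  intro a ha
  obtain ⟨c, hc⟩ := ValuationRing.cond (algebraMap A (Localization.AtPrime P) a)
    (algebraMap A (Localization.AtPrime P) ϖ)
  obtain ⟨b, s, rfl⟩ := IsLocalization.exists_mk'_eq P.primeCompl c
  rcases hc with hc | hc
  · -- `a * (b / s) = ϖ` : then `b` is a unit at `P`
    have hab : a * b = ϖ * (s : A) := by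
      apply hinj
      rw [map_mul, map_mul, ← hc, mul_assoc, IsLocalization.mk'_spec]
    have hle : W.valuation (ι a) ≤ W.valuation (ι ϖ) := by
      have h1 := hgen (ι a) ((hP a).mp ha)
      rw [← ValuationSubring.valuation_le_one_iff, map_mul, map_inv₀] at h1
      have h2 := mul_le_mul_right h1 (W.valuation (ι ϖ))
      rwa [mul_one, ← mul_assoc, mul_inv_cancel₀ hvϖ, one_mul] at h2
    have hs1 : W.valuation (ι (s : A)) = 1 :=
      le_antisymm ((W.valuation_le_one_iff _).mpr (hA _))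
        (not_lt.mp fun h => s.2 ((hP _).mpr h))
    have hb : b ∉ P := by
      intro hbP
      have hb1 := (hP b).mp hbP
      have h3 : W.valuation (ι a) * W.valuation (ι b) = W.valuation (ι ϖ) := by
        rw [← map_mul, ← map_mul, hab, map_mul, map_mul, hs1, mul_one]
      have h4 : W.valuation (ι a) * W.valuation (ι b) < W.valuation (ι ϖ) := by
        calc W.valuation (ι a) * W.valuation (ι b)
            ≤ W.valuation (ι ϖ) * W.valuation (ι b) := mul_le_mul_left hle _
          _ < W.valuation (ι ϖ) * 1 :=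
            mul_lt_mul_of_pos_left hb1 (zero_lt_iff.mpr hvϖ)
          _ = W.valuation (ι ϖ) := mul_one _
      exact absurd h3 (ne_of_lt h4)
    exact ⟨b, hb, s, by rw [mul_comm b a, hab, mul_comm]⟩
  · -- `ϖ * (b / s) = a`
    refine ⟨s, s.2, b, ?_⟩
    apply hinj
    rw [map_mul, map_mul, ← hc, ← IsLocalization.mk'_spec (Localization.AtPrime P) b s]
    ring

/-! ### minimality over `(ϖ)` -/

/-- if `√(ϖ) = P₁ ∩ P₂ ∩ P₃` with `P₁` prime and `P₂, P₃ ⊄ P₁`, then `P₁` is a minimal prime over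
`(ϖ)` -/
theorem mem_minimalPrimes_of_inf {P₁ P₂ P₃ : Ideal A} {ϖ : A} (hP₁ : P₁.IsPrime)
    (h : P₁ ⊓ P₂ ⊓ P₃ = (Ideal.span {ϖ}).radical) (h2 : ¬ P₂ ≤ P₁) (h3 : ¬ P₃ ≤ P₁) :
    P₁ ∈ (Ideal.span {ϖ}).minimalPrimes := by
  have hle : Ideal.span {ϖ} ≤ P₁ := by
    refine Ideal.le_radical.trans ?_
    rw [← h]
    exact inf_le_left.trans inf_le_left
  refine ⟨⟨hP₁, hle⟩, fun Q hQ hQP => ?_⟩
  have hQp : Q.IsPrime := hQ.1
  have h1 : P₁ ⊓ P₂ ⊓ P₃ ≤ Q := by
    rw [h]
    exact hQp.radical_le_iff.mpr hQ.2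
  rcases (hQp.inf_le.mp h1) with h12 | h3'
  · rcases (hQp.inf_le.mp h12) with h1' | h2'
    · exact h1'
    · exact absurd (h2'.trans hQP) h2
  · exact absurd (h3'.trans hQP) h3

/-- incomparability of two kernels from a separating element -/
theorem not_ker_le_of_valuation {B : Type*} [CommRing B] (r r' : A →+* B)
    (W W' : ValuationSubring F)
    (hr : ∀ a : A, r a = 0 ↔ W.valuation (ι a) < 1)
    (hr' : ∀ a : A, r' a = 0 ↔ W'.valuation (ι a) < 1)
    (hs : ∃ s : A, W'.valuation (ι s) < 1 ∧ ¬ W.valuation (ι s) < 1) :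
    ¬ RingHom.ker r' ≤ RingHom.ker r := by
  obtain ⟨s, hs', hs⟩ := hs
  intro hle
  exact hs ((hr s).mp (RingHom.mem_ker.mp (hle (RingHom.mem_ker.mpr ((hr' s).mpr hs')))))

/-! ### the literal `he20`, `he11`, `he02` -/

variable [IsNoetherianRing A] [IsIntegrallyClosed A]
variable {A₁ B : Type*} [CommRing A₁] [CommRing B] [IsDomain B]

/-- **`he20` of `AllPointsT.locPrincipal_of_isMaximal`** -/
theorem branchEq_r20 (D : PDatum A₁ A B) (W : ValuationSubring F) (hA : ∀ a : A, ι a ∈ W)
    (hr : ∀ a : A, D.r20 a = 0 ↔ W.valuation (ι a) < 1) (hϖ0 : D.ϖ ≠ 0)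
    (hgen : ∀ x : F, W.valuation x < 1 → (ι D.ϖ)⁻¹ * x ∈ W)
    (h11 : ¬ RingHom.ker D.r11 ≤ RingHom.ker D.r20)
    (h02 : ¬ RingHom.ker D.r02 ≤ RingHom.ker D.r20) :
    BranchEq (RingHom.ker D.r20) D.ϖ :=
  branchEq_of_valuationSubring W hA _ (fun a => RingHom.mem_ker.trans (hr a)) D.ϖ hϖ0 hgen
    (mem_minimalPrimes_of_inf (RingHom.ker_isPrime D.r20) D.ker_inf h11 h02)

/-- **`he02` of `AllPointsT.locPrincipal_of_isMaximal`** -/
theorem branchEq_r02 (D : PDatum A₁ A B) (W : ValuationSubring F) (hA : ∀ a : A, ι a ∈ W)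
    (hr : ∀ a : A, D.r02 a = 0 ↔ W.valuation (ι a) < 1) (hϖ0 : D.ϖ ≠ 0)
    (hgen : ∀ x : F, W.valuation x < 1 → (ι D.ϖ)⁻¹ * x ∈ W)
    (h20 : ¬ RingHom.ker D.r20 ≤ RingHom.ker D.r02)
    (h11 : ¬ RingHom.ker D.r11 ≤ RingHom.ker D.r02) :
    BranchEq (RingHom.ker D.r02) D.ϖ := by
  have hinf : RingHom.ker D.r02 ⊓ RingHom.ker D.r20 ⊓ RingHom.ker D.r11
      = (Ideal.span {D.ϖ}).radical := by
    rw [← D.ker_inf]
    ext a
    simp only [Ideal.mem_inf]
    tauto
  exact branchEq_of_valuationSubring W hA _ (fun a => RingHom.mem_ker.trans (hr a)) D.ϖ hϖ0 hgen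
    (mem_minimalPrimes_of_inf (RingHom.ker_isPrime D.r02) hinf h20 h11)

/-- the same on `C₁₁` (valid when `ϖ` is a uniformiser of `W₁₁`, i.e. at level `q² M` over the
inertia field; not needed by `AllPointsT`, which takes a local equation `z` there) -/
theorem branchEq_r11 (D : PDatum A₁ A B) (W : ValuationSubring F) (hA : ∀ a : A, ι a ∈ W)
    (hr : ∀ a : A, D.r11 a = 0 ↔ W.valuation (ι a) < 1) (hϖ0 : D.ϖ ≠ 0)
    (hgen : ∀ x : F, W.valuation x < 1 → (ι D.ϖ)⁻¹ * x ∈ W)
    (h20 : ¬ RingHom.ker D.r20 ≤ RingHom.ker D.r11)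
    (h02 : ¬ RingHom.ker D.r02 ≤ RingHom.ker D.r11) :
    BranchEq (RingHom.ker D.r11) D.ϖ := by
  have hinf : RingHom.ker D.r11 ⊓ RingHom.ker D.r20 ⊓ RingHom.ker D.r02
      = (Ideal.span {D.ϖ}).radical := by
    rw [← D.ker_inf]
    ext a
    simp only [Ideal.mem_inf]
    tauto
  exact branchEq_of_valuationSubring W hA _ (fun a => RingHom.mem_ker.trans (hr a)) D.ϖ hϖ0 hgen
    (mem_minimalPrimes_of_inf (RingHom.ker_isPrime D.r11) hinf h20 h02)

/-! ### second form: Gauss-vertical valuation subrings of a chart -/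

section Chart

open Fermat.Agent.S36.ChartRing Fermat.Agent.S36.ChartVert Fermat.Agent.S36.Lattice
  IntermediateField Polynomial

variable {O : Type*} [CommRing O] [IsDomain O] [IsDiscreteValuationRing O] {K : Type*} [Field K]
  [Algebra O K] [IsFractionRing O K] [CharZero K] {L : Type*} [Field L] [Algebra K L]
  [Algebra O L] [IsScalarTower O K L]

/-- **`BranchEq` at the centre of a Gauss-vertical valuation subring whose maximal ideal is
generated by `π`** -/
theorem branchEq_chart {π : O} (hπ : Irreducible π) {φ : L} (hφ : Transcendental K φ)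
    [FiniteDimensional K⟮φ⟯ L] {W : ValuationSubring L} (hW : IsGaussVert π φ W)
    (hgen : ∀ x : L, W.valuation x < 1 → (algebraMap O L π)⁻¹ * x ∈ W)
    (P : Ideal ↥(chart O φ)) (hP : ∀ a : ↥(chart O φ), a ∈ P ↔ W.valuation (a : L) < 1)
    (ϖ : ↥(chart O φ)) (hϖ : (ϖ : L) = algebraMap O L π) : BranchEq P ϖ := by
  intro a ha
  have hy : (algebraMap O L π)⁻¹ * (a : L) ∈ W := hgen _ ((hP a).mp ha)
  obtain ⟨s, b, hs, hb, hs0, hsinv, hsb⟩ := exists_mul_eq_of_isGaussVert (K := K) hπ hφ hW hy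
  have hπ0 : algebraMap O L π ≠ 0 := fun h0 => hW.nonunit (by rw [h0, inv_zero]; exact W.zero_mem)
  refine ⟨⟨s, hs⟩, ?_, ⟨b, hb⟩, ?_⟩
  · intro hsP
    have h1 : W.valuation s < 1 := (hP ⟨s, hs⟩).mp hsP
    have h2 : W.valuation s⁻¹ ≤ 1 := (W.valuation_le_one_iff _).mpr hsinv
    have h3 : W.valuation s * W.valuation s⁻¹ = 1 := by
      rw [← map_mul, mul_inv_cancel₀ hs0, map_one]
    have h4 : W.valuation s * W.valuation s⁻¹ < 1 :=
      calc W.valuation s * W.valuation s⁻¹ ≤ W.valuation s * 1 := mul_le_mul' le_rfl h2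
        _ = W.valuation s := mul_one _
        _ < 1 := h1
    rw [h3] at h4
    exact lt_irrefl _ h4
  · apply Subtype.ext
    change s * (a : L) = b * (ϖ : L)
    rw [hϖ, ← hsb]
    field_simp

/-- the same with `P` the kernel of a reduction map -/
theorem branchEq_chart_ker {π : O} (hπ : Irreducible π) {φ : L} (hφ : Transcendental K φ)
    [FiniteDimensional K⟮φ⟯ L] {W : ValuationSubring L} (hW : IsGaussVert π φ W)
    (hgen : ∀ x : L, W.valuation x < 1 → (algebraMap O L π)⁻¹ * x ∈ W)
    {B' : Type*} [CommRing B'] (r : ↥(chart O φ) →+* B')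
    (hr : ∀ a : ↥(chart O φ), r a = 0 ↔ W.valuation (a : L) < 1)
    (ϖ : ↥(chart O φ)) (hϖ : (ϖ : L) = algebraMap O L π) : BranchEq (RingHom.ker r) ϖ :=
  branchEq_chart hπ hφ hW hgen _ (fun a => RingHom.mem_ker.trans (hr a)) ϖ hϖ

/-- **two different Gauss-vertical rank-one valuation subrings are separated by an element of the
chart ring** -/
theorem exists_separating_chart {π : O} (hπ : Irreducible π) {φ : L} (hφ : Transcendental K φ)
    [FiniteDimensional K⟮φ⟯ L] {W W' : ValuationSubring L} (hW : IsGaussVert π φ W)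
    (hW' : IsGaussVert π φ W')
    (hrank : ∀ g ∈ W, g⁻¹ ∉ W → ∀ y : L, ∃ e : ℕ, g ^ e * y ∈ W) (hne : W ≠ W') :
    ∃ s ∈ chart O φ, W'.valuation s < 1 ∧ ¬ W.valuation s < 1 := by
  by_contra hcon
  push Not at hcon
  have hle : W ≤ W' := by
    intro y hy
    obtain ⟨s, a, hs, ha, hs0, hsinv, hsa⟩ := exists_mul_eq_of_isGaussVert (K := K) hπ hφ hW hy
    have hsW' : s ∈ W' := mem_of_mem_chart hs W' hW'.base hW'.gen
    have haW' : a ∈ W' := mem_of_mem_chart ha W' hW'.base hW'.gen
    have hsw' : s⁻¹ ∈ W' := by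
      refine inv_mem_of_not_lt _ hsW' fun hlt => ?_
      have h1 := hcon s hs hlt
      have h2 : W.valuation s⁻¹ ≤ 1 := (W.valuation_le_one_iff _).mpr hsinv
      have h3 : W.valuation s * W.valuation s⁻¹ = 1 := by
        rw [← map_mul, mul_inv_cancel₀ hs0, map_one]
      have h4 : W.valuation s * W.valuation s⁻¹ < 1 :=
        calc W.valuation s * W.valuation s⁻¹ ≤ W.valuation s * 1 := mul_le_mul' le_rfl h2
          _ = W.valuation s := mul_one _
          _ < 1 := h1
      rw [h3] at h4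
      exact lt_irrefl _ h4
    have : y = s⁻¹ * a := by
      rw [← hsa, ← mul_assoc, inv_mul_cancel₀ hs0, one_mul]
    rw [this]
    exact W'.mul_mem _ _ hsw' haW'
  have htop : W' ≠ ⊤ := fun h => hW'.nonunit (h ▸ ValuationSubring.mem_top _)
  exact hne (le_antisymm hle (le_of_le_of_rank_one hle hrank htop))

end Chart

end Fermat.Agent.S36.BranchEqV
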