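import Fermat.Agent.S36.FormalLift.LatticeX0
import Fermat.Agent.S36.FormalLift.BranchEqV

/-!
# PROJECT V (S36), chain (V12)(i) at `X₀` (helper24): `he20`, `he02` on the two charts

Hypotheses first on helper21's `ThreeValX0.Hyp` (`Y`) and helper26's `CompNormalX0.Base` (`hB`).

* `π₁_eq`, `π₂_eq` : the uniformisers of `ThreeVal.Setup` at `X₀` are `q`;
* `isUnif_W₂₀`, `isUnif_W₀₂` : `q` is a uniformiser of `W₂₀`, `W₀₂` (NOT of the thick `W₁₁`);
* `hgen_W₂₀`, `hgen_W₀₂` : `val x < 1 → q⁻¹ x ∈ W` (the hypothesis `hgen` of `BranchEqV`);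
* `branchEq_fin_c20`, `branchEq_fin_c02` : for ANY ring hom `r : chart O x₂ →+* B'` with
  `r a = 0 ↔ val_W a < 1` (`W = W₂₀`, resp. `W₀₂`) and `ϖ` the image of `q` in the chart:
  `AllPoints.BranchEq (ker r) ϖ`, i.e. the literal `he20`, `he02` of
  `AllPointsT.locPrincipal_of_isMaximal` for a `TDatum` on `chart O x₂` whose `r20`, `r02` are
  restrictions of `Y.r₂₀`, `Y.r₀₂`;
* `branchEq_inf_c20`, `branchEq_inf_c02` : the same on `chart O x₂⁻¹`;
* `exists_separating_fin`, `exists_separating_inf` : two different members of the family are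
  separated by an element of the chart ring.
-/

set_option autoImplicit false
set_option linter.unusedSectionVars false
set_option linter.style.haveILetI false

noncomputable section

namespace Fermat.Agent.S36.BranchEqX0

open Polynomial IntermediateField Fermat.Agent.S36.PowerBasisK0 Fermat.Agent.S36.JIntegral
  Fermat.Agent.S36.CompNormalX0 Fermat.Agent.S36.NewInertiaDatum Fermat.Agent.S36.ChartVert
  Fermat.Agent.S36.ChartRing Fermat.Agent.S36.Lattice Fermat.Agent.S36.LatticeX0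
  Fermat.Agent.S36.ThreeVal Fermat.Agent.S36.AllPoints Fermat.Agent.S36.BranchEqV

local notation "Kb" => AlgebraicClosure ℚ

variable {H : Subgroup (Kb ≃ₐ[ℚ] Kb)}
variable {N0 q : ℕ} [NeZero N0] [NeZero q] [NeZero (N0 * q)] [NeZero (N0 * q * q)]
variable {κ : Type} [Field κ] (Y : ThreeValX0.Hyp H N0 q κ)

/-! ### `q` is a uniformiser of the thin places -/

theorem π₁_eq : Y.setup.π₁ = ((q : ℕ) : FK H (N0 * q)) := by
  show (((q : ℕ) : ↥Y.V₁) : FK H (N0 * q)) = _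
  exact SubringClass.coe_natCast _ _

theorem π₂_eq : Y.setup.π₂ = ((q : ℕ) : FK H (N0 * q)) := by
  show (((q : ℕ) : ↥Y.V₂) : FK H (N0 * q)) = _
  exact SubringClass.coe_natCast _ _

theorem isUnif_W₂₀ : Setup.IsUnif Y.W₂₀ ((q : ℕ) : FK H (N0 * q * q)) := by
  have h := Y.setup.isUnif_W₂₀
  rwa [π₁_eq, map_natCast] at h

theorem isUnif_W₀₂ : Setup.IsUnif Y.W₀₂ ((q : ℕ) : FK H (N0 * q * q)) := by
  have h := Y.setup.isUnif_W₀₂'
  rwa [π₂_eq, map_natCast] at h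

/-- a uniformiser generates the maximal ideal, in the shape `hgen` of `BranchEqV` -/
theorem hgen_of_isUnif {W : ValuationSubring (FK H (N0 * q * q))} {ϖ : FK H (N0 * q * q)}
    (h : Setup.IsUnif W ϖ) (x : FK H (N0 * q * q)) (hx : W.valuation x < 1) : ϖ⁻¹ * x ∈ W := by
  by_cases hϖ0 : ϖ = 0
  · rw [hϖ0, inv_zero, zero_mul]
    exact W.zero_mem
  have h1 := h.2 x ((ValuationSubring.mem_nonunits_iff W).mpr hx)
  have hv : W.valuation ϖ ≠ 0 := (Valuation.ne_zero_iff _).mpr hϖ0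
  rw [← ValuationSubring.valuation_le_one_iff, map_mul, map_inv₀]
  calc (W.valuation ϖ)⁻¹ * W.valuation x ≤ (W.valuation ϖ)⁻¹ * W.valuation ϖ :=
        mul_le_mul' le_rfl h1
    _ = 1 := inv_mul_cancel₀ hv

/-- **`hgen` for `W₂₀`** -/
theorem hgen_W₂₀ (x : FK H (N0 * q * q)) (hx : Y.W₂₀.valuation x < 1) :
    ((q : ℕ) : FK H (N0 * q * q))⁻¹ * x ∈ Y.W₂₀ :=
  hgen_of_isUnif (isUnif_W₂₀ Y) x hx

/-- **`hgen` for `W₀₂`** -/
theorem hgen_W₀₂ (x : FK H (N0 * q * q)) (hx : Y.W₀₂.valuation x < 1) :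
    ((q : ℕ) : FK H (N0 * q * q))⁻¹ * x ∈ Y.W₀₂ :=
  hgen_of_isUnif (isUnif_W₀₂ Y) x hx

/-! ### `he20`, `he02` on the two charts -/

section Charts

variable {O : Type*} [CommRing O] [IsDomain O] [IsDiscreteValuationRing O]
  [Algebra O (FK H N0)] [Algebra O (FK H (N0 * q))] [Algebra O (FK H (N0 * q * q))]
  {K : Type*} [Field K] [Algebra O K] [IsFractionRing O K] [CharZero K]
  [Algebra K (FK H (N0 * q * q))] [IsScalarTower O K (FK H (N0 * q * q))]
  {k : Type*} [Field k] [Algebra k κ] [IsAlgClosed k] {π : O →+* k} (hB : Base Y O π)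

include hB

/-- **`he20` on the chart `{x₂ ≠ ∞}`** -/
theorem branchEq_fin_c20 (hq : Irreducible ((q : ℕ) : O)) (hφ : Transcendental K (x2 H N0 q))
    [FiniteDimensional K⟮x2 H N0 q⟯ (FK H (N0 * q * q))]
    {B' : Type*} [CommRing B'] (r : ↥(chart O (x2 H N0 q)) →+* B')
    (hr : ∀ a : ↥(chart O (x2 H N0 q)),
      r a = 0 ↔ Y.W₂₀.valuation (a : FK H (N0 * q * q)) < 1)
    (ϖ : ↥(chart O (x2 H N0 q)))
    (hϖ : (ϖ : FK H (N0 * q * q)) = ((q : ℕ) : FK H (N0 * q * q))) :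
    BranchEq (RingHom.ker r) ϖ :=
  branchEq_chart_ker (K := K) hq hφ (isGaussVert_Wfam Y hB Comp.c20)
    (fun x hx => by rw [map_natCast]; exact hgen_W₂₀ Y x hx) r hr ϖ (by rw [hϖ, map_natCast])

/-- **`he02` on the chart `{x₂ ≠ ∞}`** -/
theorem branchEq_fin_c02 (hq : Irreducible ((q : ℕ) : O)) (hφ : Transcendental K (x2 H N0 q))
    [FiniteDimensional K⟮x2 H N0 q⟯ (FK H (N0 * q * q))]
    {B' : Type*} [CommRing B'] (r : ↥(chart O (x2 H N0 q)) →+* B')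
    (hr : ∀ a : ↥(chart O (x2 H N0 q)),
      r a = 0 ↔ Y.W₀₂.valuation (a : FK H (N0 * q * q)) < 1)
    (ϖ : ↥(chart O (x2 H N0 q)))
    (hϖ : (ϖ : FK H (N0 * q * q)) = ((q : ℕ) : FK H (N0 * q * q))) :
    BranchEq (RingHom.ker r) ϖ :=
  branchEq_chart_ker (K := K) hq hφ (isGaussVert_Wfam Y hB Comp.c02)
    (fun x hx => by rw [map_natCast]; exact hgen_W₀₂ Y x hx) r hr ϖ (by rw [hϖ, map_natCast])

/-- **`he20` on the chart `{x₂ ≠ 0}`** -/
theorem branchEq_inf_c20 (hq : Irreducible ((q : ℕ) : O))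
    (hφ : Transcendental K (x2 H N0 q)⁻¹)
    [FiniteDimensional K⟮(x2 H N0 q)⁻¹⟯ (FK H (N0 * q * q))]
    {B' : Type*} [CommRing B'] (r : ↥(chart O (x2 H N0 q)⁻¹) →+* B')
    (hr : ∀ a : ↥(chart O (x2 H N0 q)⁻¹),
      r a = 0 ↔ Y.W₂₀.valuation (a : FK H (N0 * q * q)) < 1)
    (ϖ : ↥(chart O (x2 H N0 q)⁻¹))
    (hϖ : (ϖ : FK H (N0 * q * q)) = ((q : ℕ) : FK H (N0 * q * q))) :
    BranchEq (RingHom.ker r) ϖ :=
  branchEq_chart_ker (K := K) hq hφ (isGaussVert_Wfam_inv Y hB Comp.c20)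
    (fun x hx => by rw [map_natCast]; exact hgen_W₂₀ Y x hx) r hr ϖ (by rw [hϖ, map_natCast])

/-- **`he02` on the chart `{x₂ ≠ 0}`** -/
theorem branchEq_inf_c02 (hq : Irreducible ((q : ℕ) : O))
    (hφ : Transcendental K (x2 H N0 q)⁻¹)
    [FiniteDimensional K⟮(x2 H N0 q)⁻¹⟯ (FK H (N0 * q * q))]
    {B' : Type*} [CommRing B'] (r : ↥(chart O (x2 H N0 q)⁻¹) →+* B')
    (hr : ∀ a : ↥(chart O (x2 H N0 q)⁻¹),
      r a = 0 ↔ Y.W₀₂.valuation (a : FK H (N0 * q * q)) < 1)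
    (ϖ : ↥(chart O (x2 H N0 q)⁻¹))
    (hϖ : (ϖ : FK H (N0 * q * q)) = ((q : ℕ) : FK H (N0 * q * q))) :
    BranchEq (RingHom.ker r) ϖ :=
  branchEq_chart_ker (K := K) hq hφ (isGaussVert_Wfam_inv Y hB Comp.c02)
    (fun x hx => by rw [map_natCast]; exact hgen_W₀₂ Y x hx) r hr ϖ (by rw [hϖ, map_natCast])

/-- two different members of the family are separated on the chart `{x₂ ≠ ∞}` -/
theorem exists_separating_fin (hq : Irreducible ((q : ℕ) : O))
    (hφ : Transcendental K (x2 H N0 q))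
    [FiniteDimensional K⟮x2 H N0 q⟯ (FK H (N0 * q * q))] {w w' : Comp} (hne : w ≠ w') :
    ∃ s ∈ chart O (x2 H N0 q), (Wfam Y w').valuation s < 1 ∧ ¬ (Wfam Y w).valuation s < 1 :=
  exists_separating_chart (K := K) hq hφ (isGaussVert_Wfam Y hB w) (isGaussVert_Wfam Y hB w')
    (hrank_Wfam Y _ ⟨w, rfl⟩) fun h => hne (Wfam_injective Y h)

/-- two different members of the family are separated on the chart `{x₂ ≠ 0}` -/
theorem exists_separating_inf (hq : Irreducible ((q : ℕ) : O))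
    (hφ : Transcendental K (x2 H N0 q)⁻¹)
    [FiniteDimensional K⟮(x2 H N0 q)⁻¹⟯ (FK H (N0 * q * q))] {w w' : Comp} (hne : w ≠ w') :
    ∃ s ∈ chart O (x2 H N0 q)⁻¹, (Wfam Y w').valuation s < 1 ∧ ¬ (Wfam Y w).valuation s < 1 :=
  exists_separating_chart (K := K) hq hφ (isGaussVert_Wfam_inv Y hB w)
    (isGaussVert_Wfam_inv Y hB w') (hrank_Wfam Y _ ⟨w, rfl⟩) fun h => hne (Wfam_injective Y h)

end Charts

end Fermat.Agent.S36.BranchEqX0
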