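import Mathlib

/-!
# S36 exploration (helper24, Stage 0, design-independent algebra): the formal-lifting lemmas

Mathlib only.  This is the non-complete, line-bundle form of the "two-chart `ℙ¹` cohomology"
core for S36 (board #2470 (R4)(c), #2471 (1); idempotent form: helper1 #2468).

Vocabulary: `M` is the module of sections of a rank-one sheaf `𝓛` on the overlap `U ∩ U'` of two
affine charts (`U = {j ≠ ∞}`, `U' = {j ≠ 0}`) of a normal model over a discrete valuation ring
`R` with uniformiser `ϖ`; `A`, `B ≤ M` are the sections on `U`, `U'`; `A ⊓ B` are the global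
sections and `M ⧸ (A ⊔ B)` is `H¹`.

* `pow_smul_mkQ_eq_zero`, `pow_pred_smul_mkQ_ne_zero` : **Lemma FL**.  If `A ⊓ B = ⊥`, `u ∈ A` is
  not divisible by `ϖ` in `A`, `u' ∈ B` and `u - u' = ϖ ^ m • w`, then the class of `w` in
  `M ⧸ (A ⊔ B)` has order exactly `ϖ ^ m`.
* `exists_bounded_exponent` : in a finitely generated module over a noetherian ring the
  `ϖ`-power torsion has bounded exponent.
* `inf_ne_bot_of_forall_exists` : FL + bounded exponent: if `H¹` is finitely generated and for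
  every `m` there are primitive `u ∈ A`, `u' ∈ B` congruent modulo `ϖ ^ m`, then `A ⊓ B ≠ ⊥`
  (a global section exists).
* `exists_stable` : stabilisation of the pole-order filtration `Afil N` of `A` under `J`
  (multiplication by `j`): the leading-coefficient images form an increasing chain in a
  noetherian module.
* `finite_quotient` : **Lemma FG**.  `M ⧸ (A ⊔ B)` is a finitely generated `R`-module.
-/

set_option autoImplicit false

namespace Fermat.Agent.S36.FormalLift

open Submodule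

/-! ### Lemma FL -/

section FL

variable {R : Type*} [CommRing R] {M : Type*} [AddCommGroup M] [Module R M]

/-- the class of `w` is killed by `ϖ ^ m` -/
theorem pow_smul_mkQ_eq_zero (ϖ : R) (A B : Submodule R M) {u u' w : M} (hu : u ∈ A)
    (hu' : u' ∈ B) {m : ℕ} (h : u - u' = ϖ ^ m • w) : ϖ ^ m • (A ⊔ B).mkQ w = 0 := by
  rw [← map_smul, ← h, Submodule.mkQ_apply, Submodule.Quotient.mk_eq_zero]
  exact Submodule.sub_mem _ (Submodule.mem_sup_left hu) (Submodule.mem_sup_right hu')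

/-- **Lemma FL**: the class of `w` is not killed by `ϖ ^ (m - 1)`. -/
theorem pow_pred_smul_mkQ_ne_zero (ϖ : R) (A B : Submodule R M) (hAB : A ⊓ B = ⊥)
    {u u' w : M} (hu : u ∈ A) (hu' : u' ∈ B) (hprim : ∀ v ∈ A, u ≠ ϖ • v)
    {m : ℕ} (hm : 0 < m) (h : u - u' = ϖ ^ m • w) :
    ϖ ^ (m - 1) • (A ⊔ B).mkQ w ≠ 0 := by
  intro h0
  rw [← map_smul, Submodule.mkQ_apply, Submodule.Quotient.mk_eq_zero, Submodule.mem_sup] at h0
  obtain ⟨v, hv, v', hv', hvv⟩ := h0
  have h1 : ϖ ^ m • w = ϖ • (ϖ ^ (m - 1) • w) := by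
    rw [smul_smul, ← pow_succ', Nat.sub_add_cancel hm]
  have h2 : u - ϖ • v = u' + ϖ • v' := by
    have h3 : u - u' = ϖ • v + ϖ • v' := by rw [h, h1, ← hvv, smul_add]
    have h4 : u = u' + (ϖ • v + ϖ • v') := by rw [← h3]; abel
    rw [h4]
    abel
  have hzA : u - ϖ • v ∈ A := A.sub_mem hu (A.smul_mem ϖ hv)
  have hzB : u - ϖ • v ∈ B := by
    rw [h2]
    exact B.add_mem hu' (B.smul_mem ϖ hv')
  have hz : u - ϖ • v ∈ A ⊓ B := ⟨hzA, hzB⟩
  rw [hAB, Submodule.mem_bot, sub_eq_zero] at hz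
  exact hprim v hv hz

/-- In a finitely generated module over a noetherian ring the `ϖ`-power torsion has bounded
exponent. -/
theorem exists_bounded_exponent [IsNoetherianRing R] {H : Type*} [AddCommGroup H] [Module R H]
    [Module.Finite R H] (ϖ : R) :
    ∃ ℓ : ℕ, ∀ (h : H) (k : ℕ), ϖ ^ k • h = 0 → ϖ ^ ℓ • h = 0 := by
  have : IsNoetherian R H := isNoetherian_of_isNoetherianRing_of_finite R H
  let f : ℕ →o Submodule R H :=
    { toFun := fun k => Submodule.torsionBy R H (ϖ ^ k)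
      monotone' := by
        intro k k' hkk' h hh
        rw [Submodule.mem_torsionBy_iff] at hh ⊢
        obtain ⟨d, rfl⟩ := Nat.exists_eq_add_of_le hkk'
        rw [pow_add, mul_comm, mul_smul, hh, smul_zero] }
  obtain ⟨n, hn⟩ := monotone_stabilizes_iff_noetherian.mpr inferInstance f
  refine ⟨n, fun h k hk => ?_⟩
  rcases le_total k n with hkn | hnk
  · obtain ⟨d, rfl⟩ := Nat.exists_eq_add_of_le hkn
    rw [pow_add, mul_comm, mul_smul, hk, smul_zero]
  · have hmem : h ∈ f k := (Submodule.mem_torsionBy_iff _ _).mpr hk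
    rw [← hn k hnk] at hmem
    exact (Submodule.mem_torsionBy_iff _ _).mp hmem

/-- **FL + bounded exponent**: if `H¹ = M ⧸ (A ⊔ B)` is finitely generated and for every `m`
there are `u ∈ A` primitive and `u' ∈ B` with `u ≡ u'` modulo `ϖ ^ m`, then `A ⊓ B ≠ ⊥`. -/
theorem inf_ne_bot_of_forall_exists [IsNoetherianRing R] (ϖ : R) (A B : Submodule R M)
    [Module.Finite R (M ⧸ (A ⊔ B))]
    (hex : ∀ m : ℕ, ∃ u ∈ A, ∃ u' ∈ B, ∃ w : M, (∀ v ∈ A, u ≠ ϖ • v) ∧ u - u' = ϖ ^ m • w) :
    A ⊓ B ≠ ⊥ := by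
  intro hAB
  obtain ⟨ℓ, hℓ⟩ := exists_bounded_exponent (R := R) (H := M ⧸ (A ⊔ B)) ϖ
  obtain ⟨u, hu, u', hu', w, hprim, h⟩ := hex (ℓ + 1)
  have h0 := pow_smul_mkQ_eq_zero ϖ A B hu hu' h
  have h1 := pow_pred_smul_mkQ_ne_zero ϖ A B hAB hu hu' hprim (Nat.succ_pos ℓ) h
  rw [Nat.succ_sub_one] at h1
  exact h1 (hℓ _ _ h0)

end FL

/-! ### Lemma FG -/

section FG

variable {R : Type*} [CommRing R] {M : Type*} [AddCommGroup M] [Module R M]

/-- **Stabilisation.**  `Afil N` is the filtration of `A` by the pole order along `Z = div_∞ j`,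
`J` is multiplication by `j`, `lam N` is the leading polar coefficient on `Afil N` (kernel
`Afil (N - 1)`), with values in a fixed noetherian module `E`.  Then for `N` large
`Afil (N + 1) = J (Afil N) + Afil N`. -/
theorem exists_stable [IsNoetherianRing R] {E : Type*} [AddCommGroup E] [Module R E]
    [IsNoetherian R E] (J : Module.End R M) (Afil : ℕ → Submodule R M) (hmono : Monotone Afil)
    (hJ : ∀ N, ∀ x ∈ Afil N, J x ∈ Afil (N + 1))
    (lam : ∀ N, Afil N →ₗ[R] E)
    (hker : ∀ N (x : Afil (N + 1)), lam (N + 1) x = 0 → (x : M) ∈ Afil N)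
    (hcompat : ∀ N (x : Afil N), lam (N + 1) ⟨J x, hJ N x x.2⟩ = lam N x) :
    ∃ N₁, ∀ N, N₁ ≤ N → Afil (N + 1) = (Afil N).map J ⊔ Afil N := by
  let f : ℕ →o Submodule R E :=
    { toFun := fun N => LinearMap.range (lam N)
      monotone' := by
        apply monotone_nat_of_le_succ
        rintro N _ ⟨x, rfl⟩
        exact ⟨⟨J x, hJ N x x.2⟩, hcompat N x⟩ }
  obtain ⟨N₁, hN₁⟩ := monotone_stabilizes_iff_noetherian.mpr inferInstance f
  refine ⟨N₁, fun N hN => le_antisymm ?_ ?_⟩
  · intro x hx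
    have hrange : f (N + 1) = f N := by
      rw [← hN₁ (N + 1) (le_trans hN (Nat.le_succ N)), ← hN₁ N hN]
    have hmem : lam (N + 1) ⟨x, hx⟩ ∈ f N := by
      rw [← hrange]
      exact ⟨⟨x, hx⟩, rfl⟩
    obtain ⟨y, hy⟩ := hmem
    have hJy : J y ∈ Afil (N + 1) := hJ N y y.2
    have hdiff : lam (N + 1) (⟨x, hx⟩ - ⟨J y, hJy⟩) = 0 := by
      rw [map_sub, hcompat N y, hy, sub_self]
    have h1 : x - J y ∈ Afil N := hker N _ hdiff
    rw [Submodule.mem_sup]
    exact ⟨J y, Submodule.mem_map_of_mem y.2, x - J y, h1, by abel⟩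
  · refine sup_le ?_ (hmono (Nat.le_succ N))
    rintro _ ⟨x, hx, rfl⟩
    exact hJ N x hx

/-- from the stabilisation: `Afil (N₁ + k)` is generated by `J ^ i (Afil N₁)`, `i ≤ k` -/
theorem afil_le_iSup (J : Module.End R M) (Afil : ℕ → Submodule R M) (N₁ : ℕ)
    (hstab : ∀ N, N₁ ≤ N → Afil (N + 1) = (Afil N).map J ⊔ Afil N) (k : ℕ) :
    Afil (N₁ + k) ≤ ⨆ i ∈ Finset.range (k + 1), (Afil N₁).map (J ^ i) := by
  induction k with
  | zero =>
    intro x hx
    refine Submodule.mem_iSup_of_mem 0 (Submodule.mem_iSup_of_mem (by simp) ?_)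
    rw [pow_zero]
    exact ⟨x, hx, rfl⟩
  | succ k ih =>
    rw [← add_assoc, hstab (N₁ + k) (Nat.le_add_right N₁ k)]
    refine sup_le ?_ ?_
    · refine le_trans (Submodule.map_mono ih) ?_
      rw [Submodule.map_iSup]
      refine iSup_le fun i => ?_
      rw [Submodule.map_iSup]
      refine iSup_le fun hi => ?_
      rw [← Submodule.map_comp]
      have hi' : i + 1 ∈ Finset.range (k + 1 + 1) := by
        rw [Finset.mem_range] at hi ⊢
        omega
      refine le_trans ?_ (le_iSup₂ (f := fun i _ => (Afil N₁).map (J ^ i)) (i + 1) hi')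
      rw [pow_succ']
      rfl
    · refine le_trans ih ?_
      refine iSup₂_le fun i hi => ?_
      have hi' : i ∈ Finset.range (k + 1 + 1) := by
        rw [Finset.mem_range] at hi ⊢
        omega
      exact le_iSup₂ (f := fun i _ => (Afil N₁).map (J ^ i)) i hi'

variable (J Jinv : Module.End R M)

/-- `Jinv ^ a * J ^ i` for commuting inverse endomorphisms -/
theorem inv_pow_mul_pow (hJ : Jinv * J = 1) (a i : ℕ) :
    Jinv ^ a * J ^ i = if a ≤ i then J ^ (i - a) else Jinv ^ (a - i) := by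
  induction a generalizing i with
  | zero => simp
  | succ a ih =>
    cases i with
    | zero => simp
    | succ i =>
      have h1 : Jinv ^ (a + 1) * J ^ (i + 1) = Jinv ^ a * J ^ i := by
        rw [pow_succ, pow_succ', mul_assoc, ← mul_assoc Jinv J, hJ, one_mul]
      rw [h1, ih i]
      by_cases h : a ≤ i
      · rw [if_pos h, if_pos (Nat.succ_le_succ h), Nat.succ_sub_succ]
      · rw [if_neg h, if_neg (fun h' => h (Nat.le_of_succ_le_succ h')), Nat.succ_sub_succ]

/-- **Lemma FG.**  `M` = sections on the overlap, `J` = multiplication by `j` (invertible on `M`),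
`A` = sections on `{j ≠ ∞}` with its pole-order filtration `Afil`, `B` = sections on `{j ≠ 0}`.
If the filtration is stable from `N₁` on and `Afil N₁` is finitely generated, then
`H¹ = M ⧸ (A ⊔ B)` is a finitely generated `R`-module. -/
theorem finite_quotient (hJ : Jinv * J = 1) (A B : Submodule R M) (Afil : ℕ → Submodule R M)
    (hmono : Monotone Afil) (hAfil : ∀ N, Afil N ≤ A) (hA : ∀ y ∈ A, ∃ N, y ∈ Afil N)
    (hJA : ∀ x ∈ A, J x ∈ A) (hB : ∀ c, ∀ x ∈ Afil c, (Jinv ^ c) x ∈ B)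
    (hM : ∀ x : M, ∃ a, (J ^ a) x ∈ A)
    (N₁ : ℕ) (hstab : ∀ N, N₁ ≤ N → Afil (N + 1) = (Afil N).map J ⊔ Afil N)
    (hfg : (Afil N₁).FG) : Module.Finite R (M ⧸ (A ⊔ B)) := by
  classical
  set S : Submodule R M := ⨆ c ∈ Finset.Ico 1 N₁, (Afil N₁).map (Jinv ^ c) with hS
  have hSfg : S.FG := by
    rw [hS]
    have h1 : (⨆ c ∈ Finset.Ico 1 N₁, (Afil N₁).map (Jinv ^ c)) =
        (Finset.Ico 1 N₁).sup (fun c => (Afil N₁).map (Jinv ^ c)) := by
      rw [Finset.sup_eq_iSup]
    rw [h1]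
    exact Submodule.fg_finset_sup _ _ (fun c _ => hfg.map _)
  have hJpowA : ∀ t : ℕ, ∀ x ∈ A, (J ^ t) x ∈ A := by
    intro t
    induction t with
    | zero => intro x hx; simpa using hx
    | succ t ih =>
      intro x hx
      rw [pow_succ', Module.End.mul_apply]
      exact hJA _ (ih x hx)
  have htop : ∀ x : M, x ∈ (A ⊔ B) ⊔ S := by
    intro x
    obtain ⟨a, ha⟩ := hM x
    obtain ⟨N, hN⟩ := hA _ ha
    have hN' : (J ^ a) x ∈ Afil (N₁ + N) := hmono (Nat.le_add_left N N₁) hN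
    have hx : x = (Jinv ^ a) ((J ^ a) x) := by
      have h1 := inv_pow_mul_pow J Jinv hJ a a
      rw [if_pos le_rfl, Nat.sub_self, pow_zero] at h1
      rw [← Module.End.mul_apply, h1, Module.End.one_apply]
    have hmem : (Jinv ^ a) ((J ^ a) x) ∈
        (⨆ i ∈ Finset.range (N + 1), (Afil N₁).map (J ^ i)).map (Jinv ^ a) :=
      Submodule.mem_map_of_mem (afil_le_iSup J Afil N₁ hstab N hN')
    rw [← hx] at hmem
    refine (?_ : (⨆ i ∈ Finset.range (N + 1), (Afil N₁).map (J ^ i)).map (Jinv ^ a) ≤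
      (A ⊔ B) ⊔ S) hmem
    rw [Submodule.map_iSup]
    refine iSup_le fun i => ?_
    rw [Submodule.map_iSup]
    refine iSup_le fun _ => ?_
    rw [← Submodule.map_comp]
    have hcomp : (Jinv ^ a).comp (J ^ i) = Jinv ^ a * J ^ i := rfl
    rw [hcomp, inv_pow_mul_pow J Jinv hJ a i]
    by_cases hai : a ≤ i
    · rw [if_pos hai]
      refine le_trans ?_ (le_trans (le_sup_left : A ≤ A ⊔ B) le_sup_left)
      rintro _ ⟨z, hz, rfl⟩
      exact hJpowA _ z (hAfil N₁ hz)
    · rw [if_neg hai]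
      have hc : 1 ≤ a - i := by omega
      by_cases hcN : N₁ ≤ a - i
      · refine le_trans ?_ (le_trans (le_sup_right : B ≤ A ⊔ B) le_sup_left)
        rintro _ ⟨z, hz, rfl⟩
        exact hB (a - i) z (hmono hcN hz)
      · refine le_trans ?_ (le_sup_right : S ≤ (A ⊔ B) ⊔ S)
        have hmemIco : a - i ∈ Finset.Ico 1 N₁ := by
          rw [Finset.mem_Ico]
          omega
        exact le_iSup₂ (f := fun c _ => (Afil N₁).map (Jinv ^ c)) (a - i) hmemIco
  have : Module.Finite R S := Module.Finite.iff_fg.mpr hSfg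
  refine Module.Finite.of_surjective ((A ⊔ B).mkQ.comp S.subtype) ?_
  intro y
  obtain ⟨x, rfl⟩ := Submodule.mkQ_surjective _ y
  obtain ⟨p, hp, s, hs, hps⟩ := Submodule.mem_sup.mp (htop x)
  refine ⟨⟨s, hs⟩, ?_⟩
  rw [LinearMap.comp_apply, Submodule.subtype_apply, ← hps, map_add]
  have : (A ⊔ B).mkQ p = 0 := by
    rw [Submodule.mkQ_apply, Submodule.Quotient.mk_eq_zero]
    exact hp
  rw [this, zero_add]

end FG

end Fermat.Agent.S36.FormalLift
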