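import Mathlib

/-!
# PROJECT V (S36), soft core (helper24): finite covers of the special fibre

Mathlib only.  `A` the ring of a chart, `ϖ ∈ A`.  If a set `G ⊆ A` has the property that every
maximal ideal containing `ϖ` (every closed point of the special fibre) misses some `g ∈ G`, then
finitely many elements of `G`, together with `ϖ`, generate the unit ideal: the input `hcover` of
`SoftCore.Charts`, with index type the finite set itself.
-/

set_option autoImplicit false

namespace Fermat.Agent.S36.FormalLift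

variable {A : Type*} [CommRing A]

/-- a cover of the special fibre by principal opens has a finite subcover -/
theorem exists_finset_cover (ϖ : A) (G : Set A)
    (h : ∀ m : Ideal A, m.IsMaximal → ϖ ∈ m → ∃ g ∈ G, g ∉ m) :
    ∃ s : Finset A, (↑s : Set A) ⊆ G ∧ Ideal.span (↑s : Set A) ⊔ Ideal.span {ϖ} = ⊤ := by
  classical
  have htop : Ideal.span (G ∪ {ϖ}) = ⊤ := by
    by_contra hne
    obtain ⟨m, hm, hle⟩ := Ideal.exists_le_maximal _ hne
    have hϖ : ϖ ∈ m := hle (Ideal.subset_span (Or.inr rfl))
    obtain ⟨g, hg, hgm⟩ := h m hm hϖ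
    exact hgm (hle (Ideal.subset_span (Or.inl hg)))
  obtain ⟨s', hs', hspan⟩ := (Ideal.span_eq_top_iff_finite _).mp htop
  refine ⟨s'.filter (· ∈ G), ?_, ?_⟩
  · intro x hx
    exact (Finset.mem_filter.mp (Finset.mem_coe.mp hx)).2
  · rw [eq_top_iff, ← hspan, Ideal.span_le]
    intro x hx
    rcases hs' hx with hG | hϖ
    · exact Ideal.mem_sup_left (Ideal.subset_span
        (Finset.mem_coe.mpr (Finset.mem_filter.mpr ⟨Finset.mem_coe.mp hx, hG⟩)))
    · rw [Set.mem_singleton_iff] at hϖ
      rw [hϖ]
      exact Ideal.mem_sup_right (Ideal.mem_span_singleton_self _)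

/-- the same with the finite set as index type, in the shape of `SoftCore.Charts.hcover` -/
theorem exists_finset_cover_range (ϖ : A) (G : Set A)
    (h : ∀ m : Ideal A, m.IsMaximal → ϖ ∈ m → ∃ g ∈ G, g ∉ m) :
    ∃ s : Finset A, (∀ g : s, (g : A) ∈ G) ∧
      Ideal.span (Set.range (fun g : s => (g : A))) ⊔ Ideal.span {ϖ} = ⊤ := by
  obtain ⟨s, hs, hspan⟩ := exists_finset_cover ϖ G h
  refine ⟨s, fun g => hs g.2, ?_⟩
  have : Set.range (fun g : s => (g : A)) = (↑s : Set A) := by
    ext x
    simp
  rw [this]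
  exact hspan

end Fermat.Agent.S36.FormalLift
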