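import Fermat.Agent.S36.ChartRing
import Fermat.Agent.S36.FormalLift.SoftCore

/-!
# PROJECT V (S36), chain (V16) (helper24): `H¹` is finitely generated on a chart of the normal model

`FormalLift/SoftCore` + helper12's `ChartRing` + helper23's `FGPoly`.

`O` a discrete valuation ring with fraction field `K` of characteristic zero, `F / K(φ)` finite,
`φ` transcendental.  For `C : SoftCore.Charts O F ι ι'` with chart function `φ`:

* `Charts.finiteH1_of_isIntegral` : if `d * LU` consists of elements integral over `O[φ]` for one
  `d ≠ 0` ("`𝓛(U)` is a fractional ideal of the integral closure of `O[φ]`"), then `C.FiniteH1`.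

Proof: `LU` is an `O[φ]`-submodule of `d⁻¹ • integralClosure O[φ] F`, a finite module over the
noetherian ring `O[φ]` (`ChartRing.chart_finite`), hence finitely generated over `O[φ]`, and
`Charts.finiteH1_of_span` applies.  No expansion at any pole of `φ`, no Riemann–Roch.
-/

set_option autoImplicit false

namespace Fermat.Agent.S36.SoftCore

open Fermat.Agent.S36.FormalLift Fermat.Agent.S36.ChartRing IntermediateField

variable {O : Type*} [CommRing O] [IsDomain O] [IsDiscreteValuationRing O] {K : Type*} [Field K]
  [Algebra O K] [IsFractionRing O K] [CharZero K] {F : Type*} [Field F] [Algebra K F]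
  [Algebra O F] [IsScalarTower O K F] {ι ι' : Type*}

/-- **`H¹` is finitely generated** when `𝓛(U)` is a fractional ideal of the integral closure of
`O[φ]` in `F`. -/
theorem Charts.finiteH1_of_isIntegral (C : Charts O F ι ι') (hφ : Transcendental K C.φ)
    [FiniteDimensional K⟮C.φ⟯ F] {d : F} (hd : d ≠ 0)
    (hint : ∀ x ∈ C.LU, IsIntegral (Algebra.adjoin O ({C.φ} : Set F)) (d * x)) :
    C.FiniteH1 := by
  classical
  set B := Algebra.adjoin O ({C.φ} : Set F) with hB
  have : IsNoetherianRing B := adjoin_isNoetherianRing (O := O) (K := K) hφ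
  have : Module.Finite B (chart O C.φ) := chart_finite (O := O) (K := K) hφ
  have : IsNoetherian B (chart O C.φ) := isNoetherian_of_isNoetherianRing_of_finite B _
  -- `B ⊆ 𝒜`
  let 𝒜alg : Subalgebra O F :=
    { C.𝒜.toSubsemiring with algebraMap_mem' := C.hR0 }
  have hB𝒜 : ∀ b : B, (b : F) ∈ C.𝒜 := by
    intro b
    have hle : B ≤ 𝒜alg := Algebra.adjoin_le (by
      rw [Set.singleton_subset_iff]
      exact C.hφ)
    exact hle b.2
  -- `LU` as a `B`-submodule of `F`
  let N : Submodule B F :=
    { carrier := C.LU
      add_mem' := fun hx hy => C.LU.add_mem hx hy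
      zero_mem' := C.LU.zero_mem
      smul_mem' := fun b x hx => by
        rw [Algebra.smul_def]
        exact C.hLU _ (hB𝒜 b) _ hx }
  have hNmem : ∀ x, x ∈ N ↔ x ∈ C.LU := fun x => Iff.rfl
  -- multiplication by `d` maps it into the integral closure
  let md : F →ₗ[B] F := LinearMap.mulLeft B d
  have hmd : Function.Injective md := by
    intro x y hxy
    exact mul_left_cancel₀ hd hxy
  have hle : N.map md ≤ Subalgebra.toSubmodule (chart O C.φ) := by
    rintro _ ⟨x, hx, rfl⟩
    exact hint x hx
  have hfg : (N.map md).FG := Submodule.FG.of_le_of_isNoetherian hle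
  have hNfg : N.FG := Submodule.fg_of_fg_map_injective md hmd hfg
  obtain ⟨sgen, hsgen⟩ := hNfg
  refine C.finiteH1_of_span sgen (fun a ha => ?_) (fun y hy => ?_)
  · have : a ∈ N := hsgen ▸ Submodule.subset_span ha
    exact this
  · have hy' : y ∈ Submodule.span B (sgen : Set F) := by rw [hsgen]; exact hy
    have key : ∀ z ∈ Submodule.span B (sgen : Set F),
        z ∈ Submodule.span O {z | ∃ (n : ℕ) (a : F), a ∈ (sgen : Set F) ∧ z = C.φ ^ n • a} := by
      intro z hz
      induction hz using Submodule.span_induction with
      | mem w hw => exact Submodule.subset_span ⟨0, w, hw, by rw [pow_zero, one_smul]⟩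
      | zero => exact Submodule.zero_mem _
      | add u v _ _ hu hv => exact Submodule.add_mem _ hu hv
      | smul b u _ hu =>
        have := FGPoly.smul_mem_span_pow (R := O) (T := F) (F := F) C.φ (sgen : Set F) b.2 hu
        rw [Algebra.smul_def]
        exact this
    have := key y hy'
    simpa only [smul_eq_mul, Finset.mem_coe] using this

end Fermat.Agent.S36.SoftCore
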