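import Mathlib

/-!
# PROJECT V (S36), soft core, helper24: gluing local sections by a partition of unity mod `ϖ ^ m`

Mathlib only.  Board #2481.

* `exists_partition_pow` : in a commutative ring, if `g i` and `ϖ` generate the unit ideal then for
  all `E m` there are `b i`, `c` with `∑ b i * g i ^ E = 1 + ϖ ^ m * c`.
* `exists_glued_section` : `𝒜 ≤ F` the ring of a chart, `LU` the `𝒜`-module of sections of `O(D)`
  on the chart, `O k` the vertical valuation rings.  Finitely many local sections `γi i` on the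
  principal opens `D(g i)` (`g i ^ E * γi i ∈ LU`), the `D(g i)` covering the special fibre of the
  chart (`g i`, `ϖ` generate the unit ideal of `𝒜`), all congruent to one `γ` modulo `ϖ ^ m`
  generically along every vertical component.  Then there is a section `u ∈ LU` on the whole chart
  with `(u - γ) / ϖ ^ m ∈ O k` for all `k`.
* `not_eq_mul_of_unit` : such a `u` is primitive (`u ≠ ϖ * v` for `v` vertically integral) as soon
  as `γ` is a unit of one `O k`, `ϖ` a non-unit of it and `m ≥ 1`.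
* `sub_div_mem` : two glued sections `u`, `u'` (one per chart, the same `γ`) are congruent modulo
  `ϖ ^ m` generically along every vertical component.
-/

set_option autoImplicit false

namespace Fermat.Agent.S36.FormalLift

open scoped BigOperators

section PartitionOfUnity

variable {A : Type*} [CommRing A]

/-- **Partition of unity modulo `ϖ ^ m` with high powers.** -/
theorem exists_partition_pow {ι : Type*} [Fintype ι] (g : ι → A) (ϖ : A)
    (h : Ideal.span (Set.range g) ⊔ Ideal.span {ϖ} = ⊤) (E m : ℕ) :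
    ∃ (b : ι → A) (c : A), ∑ i, b i * g i ^ E = 1 + ϖ ^ m * c := by
  classical
  set π := Ideal.Quotient.mk (Ideal.span {ϖ ^ m}) with hπ
  have hsurj : Function.Surjective π := Ideal.Quotient.mk_surjective
  -- the images of the `g i` generate the unit ideal of the quotient
  have h1 : (1 : A) ∈ Ideal.span (Set.range g) ⊔ Ideal.span {ϖ} := by rw [h]; trivial
  obtain ⟨a, ha, r, hr, har⟩ := Submodule.mem_sup.mp h1
  obtain ⟨r', rfl⟩ := Ideal.mem_span_singleton'.mp hr
  have hnil : IsNilpotent (π (r' * ϖ)) := by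
    refine ⟨m, ?_⟩
    rw [← map_pow, mul_pow, hπ, Ideal.Quotient.eq_zero_iff_mem]
    exact Ideal.mul_mem_left _ _ (Ideal.mem_span_singleton_self _)
  have hunit : IsUnit (π a) := by
    have : π a = 1 - π (r' * ϖ) := by
      rw [← map_one π, ← har, map_add]
      ring
    rw [this]
    exact hnil.isUnit_one_sub
  have hamem : π a ∈ Ideal.span (Set.range fun i => π (g i)) := by
    have : Ideal.span (Set.range fun i => π (g i)) = (Ideal.span (Set.range g)).map π := by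
      rw [Ideal.map_span, ← Set.range_comp]
      rfl
    rw [this]
    exact Ideal.mem_map_of_mem π ha
  have htop : Ideal.span (Set.range fun i => π (g i)) = ⊤ :=
    Ideal.eq_top_of_isUnit_mem _ hamem hunit
  have htopE : Ideal.span (Set.range fun i => π (g i) ^ E) = ⊤ := by
    have := Ideal.span_pow_eq_top _ htop E
    rwa [← Set.range_comp] at this
  have hone : (1 : A ⧸ Ideal.span {ϖ ^ m}) ∈ Ideal.span (Set.range fun i => π (g i) ^ E) := by
    rw [htopE]; trivial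
  obtain ⟨cbar, hcbar⟩ := (Ideal.mem_span_range_iff_exists_fun).mp hone
  choose b hb using fun i => hsurj (cbar i)
  have hmem : ∑ i, b i * g i ^ E - 1 ∈ Ideal.span {ϖ ^ m} := by
    rw [← Ideal.Quotient.eq_zero_iff_mem, ← hπ, map_sub, map_sum, map_one, sub_eq_zero, ← hcbar]
    refine Finset.sum_congr rfl fun i _ => ?_
    rw [map_mul, map_pow, hb]
  obtain ⟨c, hc⟩ := Ideal.mem_span_singleton'.mp hmem
  refine ⟨b, c, ?_⟩
  rw [mul_comm, hc]
  ring

end PartitionOfUnity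

section Glue

variable {R0 : Type*} [CommRing R0] {F : Type*} [Field F] [Algebra R0 F]

/-- the algebraic identity behind the gluing: with `∑ b i * g i ^ E = 1 + ϖ ^ m * c`,
`(∑ b i * (g i ^ E * σ i) - γ) / ϖ ^ m = ∑ (b i * g i ^ E) * ((σ i - γ) / ϖ ^ m) + c * γ`. -/
theorem glue_identity {ι : Type*} [Fintype ι] (b g σ : ι → F) (E m : ℕ) (ϖ c γ : F)
    (hϖm : ϖ ^ m ≠ 0) (hbc : ∑ i, b i * g i ^ E = 1 + ϖ ^ m * c) :
    (∑ i, b i * (g i ^ E * σ i) - γ) / ϖ ^ m =
      ∑ i, (b i * g i ^ E) * ((σ i - γ) / ϖ ^ m) + c * γ := by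
  have h1 : ∑ i, b i * (g i ^ E * σ i) - γ =
      ∑ i, (b i * g i ^ E) * (σ i - γ) + ϖ ^ m * c * γ := by
    have h2 : ∑ i, (b i * g i ^ E) * (σ i - γ) =
        ∑ i, b i * (g i ^ E * σ i) - (∑ i, b i * g i ^ E) * γ := by
      rw [Finset.sum_mul, ← Finset.sum_sub_distrib]
      refine Finset.sum_congr rfl fun i _ => ?_
      ring
    rw [h2, hbc]
    ring
  rw [h1, add_div, Finset.sum_div]
  congr 1
  · refine Finset.sum_congr rfl fun i _ => ?_
    rw [mul_div_assoc]
  · field_simp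

/-- **Gluing local sections** (valuative form). -/
theorem exists_glued_section {ι κ : Type*} [Fintype ι] (𝒜 : Subring F) (LU : Submodule R0 F)
    (hLU : ∀ a ∈ 𝒜, ∀ x ∈ LU, a * x ∈ LU) (O : κ → ValuationSubring F)
    (h𝒜O : ∀ k, ∀ a ∈ 𝒜, a ∈ O k) (ϖ : 𝒜) (hϖ0 : (ϖ : F) ≠ 0)
    (g : ι → 𝒜) (hcover : Ideal.span (Set.range g) ⊔ Ideal.span {ϖ} = ⊤)
    (γi : ι → F) (E : ℕ) (hsec : ∀ i, ((g i : F)) ^ E * γi i ∈ LU)
    (γ : F) (m : ℕ) (hcong : ∀ i k, (γi i - γ) / (ϖ : F) ^ m ∈ O k) (hγ : ∀ k, γ ∈ O k) :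
    ∃ u ∈ LU, ∀ k, (u - γ) / (ϖ : F) ^ m ∈ O k := by
  classical
  obtain ⟨b, c, hbc⟩ := exists_partition_pow g ϖ hcover E m
  have hbcF : ∑ i, (b i : F) * (g i : F) ^ E = 1 + (ϖ : F) ^ m * (c : F) := by
    have := congrArg (fun x : 𝒜 => (x : F)) hbc
    simpa using this
  refine ⟨∑ i, (b i : F) * ((g i : F) ^ E * γi i), ?_, fun k => ?_⟩
  · exact Submodule.sum_mem _ fun i _ => hLU _ (b i).2 _ (hsec i)
  · have hϖm : (ϖ : F) ^ m ≠ 0 := pow_ne_zero _ hϖ0
    rw [glue_identity (fun i => (b i : F)) (fun i => (g i : F)) γi E m (ϖ : F) (c : F) γ hϖm hbcF]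
    refine (O k).add_mem _ _ ((O k).toSubring.sum_mem fun i _ => ?_) ?_
    · refine (O k).mul_mem _ _ ?_ (hcong i k)
      exact (O k).mul_mem _ _ (h𝒜O k _ (b i).2) (pow_mem (h𝒜O k _ (g i).2) E)
    · exact (O k).mul_mem _ _ (h𝒜O k _ c.2) (hγ k)

/-- A section congruent to a vertical unit modulo `ϖ ^ m`, `m ≥ 1`, is not divisible by `ϖ` among
vertically integral elements. -/
theorem not_eq_mul_of_unit (O : ValuationSubring F) {ϖ γ u : F} {m : ℕ} (hm : 0 < m)
    (hϖ : ϖ ∈ O) (hϖnu : ϖ⁻¹ ∉ O) (hϖ0 : ϖ ≠ 0) (hγ0 : γ ≠ 0) (hγinv : γ⁻¹ ∈ O)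
    (hu : (u - γ) / ϖ ^ m ∈ O) {v : F} (hv : v ∈ O) : u ≠ ϖ * v := by
  intro huv
  -- `γ = ϖ * (v - ϖ ^ (m - 1) * z)` with `z = (u - γ) / ϖ ^ m`
  have hϖm : ϖ ^ m ≠ 0 := pow_ne_zero _ hϖ0
  set z := (u - γ) / ϖ ^ m with hz
  have h1 : u - γ = ϖ ^ m * z := by rw [hz]; field_simp
  set w := v - ϖ ^ (m - 1) * z with hwdef
  have h2 : γ = ϖ * w := by
    have h3 : ϖ ^ m = ϖ * ϖ ^ (m - 1) := by rw [← pow_succ', Nat.sub_add_cancel hm]
    have h4 : γ = u - ϖ ^ m * z := by rw [← h1]; ring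
    rw [h4, huv, h3, hwdef]
    ring
  have hw : w ∈ O := O.sub_mem hv (O.mul_mem _ _ (pow_mem hϖ _) hu)
  have hw0 : w ≠ 0 := by
    rintro h0
    exact hγ0 (by rw [h2, h0, mul_zero])
  have h5 : ϖ⁻¹ = γ⁻¹ * w := by
    rw [h2, mul_inv, mul_assoc, inv_mul_cancel₀ hw0, mul_one]
  exact hϖnu (h5 ▸ O.mul_mem _ _ hγinv hw)

/-- two glued sections with the same generic trivialisation are congruent modulo `ϖ ^ m` -/
theorem sub_div_mem (O : ValuationSubring F) {ϖ γ u u' : F} {m : ℕ}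
    (hu : (u - γ) / ϖ ^ m ∈ O) (hu' : (u' - γ) / ϖ ^ m ∈ O) : (u - u') / ϖ ^ m ∈ O := by
  have : (u - u') / ϖ ^ m = (u - γ) / ϖ ^ m - (u' - γ) / ϖ ^ m := by
    rw [← sub_div]
    congr 1
    ring
  rw [this]
  exact O.sub_mem hu hu'

end Glue

end Fermat.Agent.S36.FormalLift
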