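import Fermat.Agent.S36.FormalLift.LatticeDetects

/-!
# PROJECT V (S36), chain (V16), assembled in valuation language (helper24)

`Lattice.VInput` is the LITERAL list of what the soft core consumes, every field a statement about
valuations of the function field `F` (`O → K → F`; `K`-places `v : Place K F`; a finite family of
vertical valuation subrings `W w` of rank one):

* the chart function `φ` (a unit of every `W w`), a divisor `D` of degree `0`;
* covers of the special fibres of the charts `U = {φ ≠ ∞}`, `U' = {φ ≠ 0}` by principal opens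
  `D(g i)`, `D(g' j)` (`g i` in the chart ring `ring (range W) (finiteAt φ)`);
* valuative local generators: `s i` a unit of every `W w` meeting `D(g i)`, `ord_v (s i) = -D v` at
  every place `v` of the chart meeting `D(g i)` (chain (V14));
* `f` with `ord_v f = n * D v`, `f ∈ W w`; generic normalisations `γ w` with `f γ_w ^ n ≡ 1` at
  `W w` (chain (A)); functions `t i` on `D(g i)` with `s i * t i ≡ γ w` at every `W w` meeting
  `D(g i)` (chain (A') + `FibreRing`/`Transversal`);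
* `n` invertible modulo `ϖ`.

`VInput.isPrincipal` : if moreover `H¹` is finitely generated (`Charts.finiteH1_of_isIntegral`,
`Charts.finiteH1_of_span`), then `D` is principal.
-/

set_option autoImplicit false

namespace Fermat.Agent.S36.Lattice

open AlgebraicCurve Fermat.Agent.S24.Ord Fermat.Agent.S18.CoreOrd Fermat.Agent.S36.FormalLift
  Fermat.Agent.S36.SoftCore Fermat.Agent.S36.SoftCoreInput

/-- The input of the soft core, in valuation language. -/
structure VInput (O K F : Type*) [CommRing O] [Field K] [Field F] [Algebra O K] [Algebra K F]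
    [Algebra O F] [IsScalarTower O K F] (𝒲 ι ι' : Type*) where
  /-- the vertical valuation rings -/
  W : 𝒲 → ValuationSubring F
  hO : ∀ V ∈ Set.range W, ∀ c : O, algebraMap O F c ∈ V
  hrank : ∀ V ∈ Set.range W, ∀ g ∈ V, g⁻¹ ∉ V → ∀ y : F, ∃ e : ℕ, g ^ e * y ∈ V
  hfinAll : ∀ f : F, f ≠ 0 → {v : Place K F | v.ord f ≠ 0}.Finite
  /-- the uniformiser -/
  ϖ : O
  hϖ0 : algebraMap O F ϖ ≠ 0
  /-- the chart function -/
  φ : F
  hφ0 : φ ≠ 0
  hφV : ∀ V ∈ Set.range W, φ ∈ V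
  hφV' : ∀ V ∈ Set.range W, φ⁻¹ ∈ V
  /-- the divisor -/
  D : Divisor K F
  /-- principal opens covering the special fibre of `U = {φ ≠ ∞}` -/
  g : ι → ring (Set.range W) (finiteAt (K := K) φ)
  hg0 : ∀ i, (g i : F) ≠ 0
  hcover : Ideal.span (Set.range g) ⊔ Ideal.span
    {(⟨algebraMap O F ϖ, algebraMap_mem_ring (Set.range W) hO _ ϖ⟩ :
      ring (Set.range W) (finiteAt (K := K) φ))} = ⊤
  /-- principal opens covering the special fibre of `U' = {φ ≠ 0}` -/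
  g' : ι' → ring (Set.range W) (finiteAt (K := K) φ⁻¹)
  hg0' : ∀ j, (g' j : F) ≠ 0
  hcover' : Ideal.span (Set.range g') ⊔ Ideal.span
    {(⟨algebraMap O F ϖ, algebraMap_mem_ring (Set.range W) hO _ ϖ⟩ :
      ring (Set.range W) (finiteAt (K := K) φ⁻¹))} = ⊤
  /-- valuative local generators of `O(D̄)` on `D(g i)` -/
  s : ι → F
  hs0 : ∀ i, s i ≠ 0
  hsW : ∀ i, ∀ V ∈ Set.range W, (g i : F)⁻¹ ∈ V → s i ∈ V ∧ (s i)⁻¹ ∈ V
  hsv : ∀ i, ∀ v ∈ finiteAt (K := K) φ, v.ord (g i : F) = 0 → v.ord (s i) = -D v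
  /-- valuative local generators of `O(D̄)` on `D(g' j)` -/
  s' : ι' → F
  hs0' : ∀ j, s' j ≠ 0
  hsW' : ∀ j, ∀ V ∈ Set.range W, (g' j : F)⁻¹ ∈ V → s' j ∈ V ∧ (s' j)⁻¹ ∈ V
  hsv' : ∀ j, ∀ v ∈ finiteAt (K := K) φ⁻¹, v.ord (g' j : F) = 0 → v.ord (s' j) = -D v
  /-- an open of the first cover meeting the special fibre -/
  i₀ : ι
  w₀ : 𝒲
  hi₀ : (g i₀ : F)⁻¹ ∈ W w₀
  hw₀ : (algebraMap O F ϖ)⁻¹ ∉ W w₀
  /-- the torsion order -/
  n : ℕ
  hn0 : 0 < n
  hn : ∃ n' c : O, (n : O) * n' = 1 + ϖ * c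
  /-- `div f = n D` -/
  f : F
  hf0 : f ≠ 0
  hfD : ∀ v : Place K F, v.ord f = n * D v
  hfW : ∀ w, f ∈ W w
  /-- generic normalisations -/
  γ : 𝒲 → F
  hγ0 : ∀ w, γ w ≠ 0
  hγ : ∀ w, (W w).valuation (f * γ w ^ n - 1) < 1
  /-- the root on the reduced fibre of `D(g i)` -/
  t : ι → F
  htW : ∀ i w, (g i : F)⁻¹ ∈ W w → t i ∈ W w
  htv : ∀ i, ∀ v ∈ finiteAt (K := K) φ, v.ord (g i : F) = 0 → t i ∈ v.toValuationSubring
  htγ : ∀ i w, (g i : F)⁻¹ ∈ W w → (W w).valuation (s i * t i / γ w - 1) < 1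
  /-- the root on the reduced fibre of `D(g' j)` -/
  t' : ι' → F
  htW' : ∀ j w, (g' j : F)⁻¹ ∈ W w → t' j ∈ W w
  htv' : ∀ j, ∀ v ∈ finiteAt (K := K) φ⁻¹, v.ord (g' j : F) = 0 → t' j ∈ v.toValuationSubring
  htγ' : ∀ j w, (g' j : F)⁻¹ ∈ W w → (W w).valuation (s' j * t' j / γ w - 1) < 1

namespace VInput

variable {O K F : Type*} [CommRing O] [Field K] [Field F] [Algebra O K] [Algebra K F]
  [Algebra O F] [IsScalarTower O K F] {𝒲 ι ι' : Type*} (X : VInput O K F 𝒲 ι ι')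

/-- the two-chart model of `O(D̄)` -/
def charts : Charts O F ι ι' :=
  Lattice.charts (Set.range X.W) X.hO X.hφ0 X.hφV X.hφV' (X.hfinAll X.φ X.hφ0) (fun v => X.D v)
    X.ϖ X.hϖ0 X.g X.hcover X.g' X.hcover'

variable [Fintype 𝒲]

/-- the local generators -/
def localGen : LocalGen X.charts where
  s := X.s
  hs0 := X.hs0
  hs_mem := fun i =>
    (localGen_fields (Set.range X.W) X.hO (Set.finite_range X.W) X.hrank (fun v => X.D v) _
      (X.g i).2 (X.hg0 i) (X.hfinAll _ (X.hg0 i)) (X.hs0 i) (X.hsW i) (X.hsv i)).1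
  hs_gen := fun i =>
    (localGen_fields (Set.range X.W) X.hO (Set.finite_range X.W) X.hrank (fun v => X.D v) _
      (X.g i).2 (X.hg0 i) (X.hfinAll _ (X.hg0 i)) (X.hs0 i) (X.hsW i) (X.hsv i)).2
  s' := X.s'
  hs0' := X.hs0'
  hs_mem' := fun j =>
    (localGen_fields (Set.range X.W) X.hO (Set.finite_range X.W) X.hrank (fun v => X.D v) _
      (X.g' j).2 (X.hg0' j) (X.hfinAll _ (X.hg0' j)) (X.hs0' j) (X.hsW' j) (X.hsv' j)).1
  hs_gen' := fun j =>
    (localGen_fields (Set.range X.W) X.hO (Set.finite_range X.W) X.hrank (fun v => X.D v) _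
      (X.g' j).2 (X.hg0' j) (X.hfinAll _ (X.hg0' j)) (X.hs0' j) (X.hsW' j) (X.hsv' j)).2
  i₀ := X.i₀
  hi₀ := by
    intro hmem
    -- `ϖ⁻¹` would be a function on `D(g i₀)`, hence in `W w₀`
    obtain ⟨e, he⟩ := hmem
    have h1 : (X.g X.i₀ : F) ^ e * (algebraMap O F X.ϖ)⁻¹ ∈ X.W X.w₀ := he.1 _ ⟨X.w₀, rfl⟩
    apply X.hw₀
    have h2 : (algebraMap O F X.ϖ)⁻¹ =
        ((X.g X.i₀ : F)⁻¹) ^ e * ((X.g X.i₀ : F) ^ e * (algebraMap O F X.ϖ)⁻¹) := by
      rw [← mul_assoc, ← mul_pow, inv_mul_cancel₀ (X.hg0 X.i₀), one_pow, one_mul]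
    rw [h2]
    exact (X.W X.w₀).mul_mem _ _ (pow_mem X.hi₀ e) h1

/-- `S ≤ W w` forces `g⁻¹ ∈ W w` -/
theorem inv_mem_of_le {𝒜 : Subring F} {g : F} (hg : g ∈ 𝒜) {V : ValuationSubring F}
    (h : awaySubring 𝒜 g hg ≤ V.toSubring) : g⁻¹ ∈ V :=
  h (inv_mem_awaySubring 𝒜 hg)

/-- the root data, in helper1's valuation form -/
def genericRoot : GenericRoot X.charts X.localGen 𝒲 where
  W := X.W
  n := X.n
  hn0 := X.hn0
  hn := X.hn
  f := X.f
  hw := fun i => by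
    refine mem_away_ring_of_local (Set.range X.W) X.hO (Set.finite_range X.W) X.hrank _ (X.g i).2
      (X.hg0 i) (X.hfinAll _ (X.hg0 i)) ?_ ?_
    · rintro _ ⟨w, rfl⟩ hgw
      exact (X.W w).mul_mem _ _ (X.hfW w) (pow_mem (X.hsW i _ ⟨w, rfl⟩ hgw).1 _)
    · intro v hv h0
      have hne : X.f * X.s i ^ X.n ≠ 0 := mul_ne_zero X.hf0 (pow_ne_zero _ (X.hs0 i))
      change X.f * X.s i ^ X.n ∈ v.toValuationSubring
      rw [mem_iff_ord v hne, v.ord_mul X.hf0 (pow_ne_zero _ (X.hs0 i)), ord_pow, X.hfD v,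
        X.hsv i v hv h0]
      ring_nf
      exact le_refl _
  hw' := fun j => by
    refine mem_away_ring_of_local (Set.range X.W) X.hO (Set.finite_range X.W) X.hrank _
      (X.g' j).2 (X.hg0' j) (X.hfinAll _ (X.hg0' j)) ?_ ?_
    · rintro _ ⟨w, rfl⟩ hgw
      exact (X.W w).mul_mem _ _ (X.hfW w) (pow_mem (X.hsW' j _ ⟨w, rfl⟩ hgw).1 _)
    · intro v hv h0
      have hne : X.f * X.s' j ^ X.n ≠ 0 := mul_ne_zero X.hf0 (pow_ne_zero _ (X.hs0' j))
      change X.f * X.s' j ^ X.n ∈ v.toValuationSubring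
      rw [mem_iff_ord v hne, v.ord_mul X.hf0 (pow_ne_zero _ (X.hs0' j)), ord_pow, X.hfD v,
        X.hsv' j v hv h0]
      ring_nf
      exact le_refl _
  γ := X.γ
  hγ0 := X.hγ0
  hγ := X.hγ
  t := X.t
  ht := fun i =>
    mem_away_ring_of_local (Set.range X.W) X.hO (Set.finite_range X.W) X.hrank _ (X.g i).2
      (X.hg0 i) (X.hfinAll _ (X.hg0 i)) (by rintro _ ⟨w, rfl⟩ hgw; exact X.htW i w hgw)
      (X.htv i)
  htγ := fun i w hS => X.htγ i w (inv_mem_of_le (X.g i).2 hS)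
  t' := X.t'
  ht' := fun j =>
    mem_away_ring_of_local (Set.range X.W) X.hO (Set.finite_range X.W) X.hrank _ (X.g' j).2
      (X.hg0' j) (X.hfinAll _ (X.hg0' j)) (by rintro _ ⟨w, rfl⟩ hgw; exact X.htW' j w hgw)
      (X.htv' j)
  htγ' := fun j w hS => X.htγ' j w (inv_mem_of_le (X.g' j).2 hS)
  det := fun i =>
    detects_away X.W X.hO X.hrank _ (X.g i).2 (X.hg0 i) (X.hfinAll _ (X.hg0 i)) X.ϖ X.hϖ0
  det' := fun j =>
    detects_away X.W X.hO X.hrank _ (X.g' j).2 (X.hg0' j) (X.hfinAll _ (X.hg0' j)) X.ϖ X.hϖ0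
  det₂ := fun i j =>
    detects_away X.W X.hO X.hrank _ _ (mul_ne_zero (X.hg0 i) (X.hg0 j))
      (X.hfinAll _ (mul_ne_zero (X.hg0 i) (X.hg0 j))) X.ϖ X.hϖ0
  det₂' := fun i j =>
    detects_away X.W X.hO X.hrank _ _ (mul_ne_zero (X.hg0' i) (X.hg0' j))
      (X.hfinAll _ (mul_ne_zero (X.hg0' i) (X.hg0' j))) X.ϖ X.hϖ0
  detmix := fun i j =>
    detects_away_away X.W X.hO X.hrank X.hfinAll _ _ X.hφ0 X.hφV' _
      (mul_ne_zero (X.hg0 i) (X.hg0' j)) X.ϖ X.hϖ0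

/-- **(V16) in valuation language.**  If `H¹` is finitely generated, `D` is principal. -/
theorem isPrincipal [Fintype ι] [Fintype ι'] [IsNoetherianRing O] [HasPrincipalDivisors K F]
    (hdeg : ∀ v : Place K F, 0 < v.deg) (hD : Divisor.degree X.D = 0)
    (hfin : X.charts.FiniteH1) : Divisor.IsPrincipal X.D := by
  obtain ⟨h, hh0, h1, h2⟩ :=
    exists_global_section_of_generic X.charts X.localGen hfin X.genericRoot
  exact isPrincipal_of_global_section hdeg X.D hD hh0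
    (ord_ge_of_mem_lat_inf (Set.range X.W) X.hO (fun v => X.D v) X.φ hh0 h1 h2)

end VInput

end Fermat.Agent.S36.Lattice
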