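import Fermat.Agent.S36.ChartPlaces
import Fermat.Agent.S36.FormalLift.FiniteChart
import Fermat.Agent.S36.FormalLift.LatticeMain

/-!
# PROJECT V (S36), chain (V16) (helper24): `H¹` of the lattice charts is finitely generated

`FormalLift/LatticeMain` + `FormalLift/FiniteChart` + helper12's `ChartPlaces`.

`O` a discrete valuation ring with uniformiser `ϖ`, `K = Frac O` of characteristic zero, `F / K(φ)`
finite, `φ` transcendental over `K`; `Vert` a set of vertical valuation subrings of `F`.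

* `hrank_of_isPrincipalIdealRing` : a principal valuation subring has rank one, in the form of the
  field `hrank` of `VInput`;
* `finite_ord_ne_zero` : zeros and poles are finite in number (`HasPrincipalDivisors`), the field
  `hfinAll` of `VInput`;
* `chart_le_ring`, `ring_le_chart` : the ring `ring Vert (finiteAt φ)` of the chart `U = {φ ≠ ∞}`
  IS helper12's chart ring `ChartRing.chart O φ = integralClosure O[φ] F`, as soon as `Vert`
  contains every "Gauss" valuation subring of `F` (`hvert`: the valuation subrings containing `O`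
  and `φ`, in which `ϖ` is not a unit and every primitive polynomial in `φ` is a unit;
  chain (V7));
* `exists_mul_lat_le_ring` : a common denominator `d ≠ 0` of `lat Vert hO D (finiteAt φ)`;
* `finiteH1_charts` : the `SoftCore.Charts` of `Lattice.charts` have finitely generated `H¹`;
* `VInput.isPrincipal_of_vert` : **(V16) in valuation language, no finiteness hypothesis left.**
-/

set_option autoImplicit false

namespace Fermat.Agent.S36.Lattice

open AlgebraicCurve Fermat.Agent.S24.Ord Fermat.Agent.S18.CoreOrd Fermat.Agent.S36.FormalLift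
  Fermat.Agent.S36.SoftCore Fermat.Agent.S36.SoftCoreInput Fermat.Agent.S36.ChartRing
  Fermat.Agent.S36.ChartPlaces IntermediateField Polynomial

section Rank

variable {F : Type*} [Field F]

/-- **rank one**: in a principal valuation subring, the powers of a non-unit `g` eventually
absorb every denominator. -/
theorem hrank_of_isPrincipalIdealRing (V : ValuationSubring F) [IsPrincipalIdealRing V] {g : F}
    (hg : g ∈ V) (hg' : g⁻¹ ∉ V) (y : F) : ∃ e : ℕ, g ^ e * y ∈ V := by
  have hg0 : g ≠ 0 := by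
    rintro rfl
    exact hg' (by rw [inv_zero]; exact V.zero_mem)
  by_cases hy : y ∈ V
  · exact ⟨0, by rw [pow_zero, one_mul]; exact hy⟩
  have hy0 : y ≠ 0 := by
    rintro rfl
    exact hy V.zero_mem
  have hyi : y⁻¹ ∈ V := (V.mem_or_inv_mem y).resolve_left hy
  -- `g` is a non-unit of `V`
  have hgu : ¬ IsUnit (⟨g, hg⟩ : V) := by
    intro hu
    obtain ⟨u, hu⟩ := hu
    apply hg'
    have h1 : ((u⁻¹ : Vˣ) : V) * ⟨g, hg⟩ = 1 := by rw [← hu]; exact u.inv_mul
    have h2 : (((u⁻¹ : Vˣ) : V) : F) * g = 1 := by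
      have := congrArg (fun z : V => (z : F)) h1
      simpa using this
    have h3 : g⁻¹ = (((u⁻¹ : Vˣ) : V) : F) := by
      rw [eq_comm, ← mul_one (((u⁻¹ : Vˣ) : V) : F), ← mul_inv_cancel₀ hg0, ← mul_assoc, h2,
        one_mul]
    rw [h3]
    exact ((u⁻¹ : Vˣ) : V).2
  have hgne : (⟨g, hg⟩ : V) ≠ 0 := fun h => hg0 (congrArg (fun z : V => (z : F)) h)
  have : IsDiscreteValuationRing V :=
    { not_a_field' := by
        intro hbot
        have : (⟨g, hg⟩ : V) ∈ IsLocalRing.maximalIdeal V := (IsLocalRing.mem_maximalIdeal _).2 hgu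
        rw [hbot] at this
        exact hgne ((Submodule.mem_bot _).1 this) }
  obtain ⟨p, hp⟩ := IsDiscreteValuationRing.exists_irreducible V
  have hyne : (⟨y⁻¹, hyi⟩ : V) ≠ 0 := fun h =>
    inv_ne_zero hy0 (congrArg (fun z : V => (z : F)) h)
  obtain ⟨n, u, hu⟩ := IsDiscreteValuationRing.associated_pow_irreducible hyne hp
  -- `p ∣ g`
  have hpg : p ∣ (⟨g, hg⟩ : V) := by
    have : (⟨g, hg⟩ : V) ∈ IsLocalRing.maximalIdeal V := (IsLocalRing.mem_maximalIdeal _).2 hgu
    rw [hp.maximalIdeal_eq, Ideal.mem_span_singleton] at this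
    exact this
  obtain ⟨c, hc⟩ := hpg
  refine ⟨n, ?_⟩
  -- `g ^ n = p ^ n * c ^ n = y⁻¹ * u * c ^ n`
  have h1 : (⟨g, hg⟩ : V) ^ n = ⟨y⁻¹, hyi⟩ * ((u : V) * c ^ n) := by
    rw [hc, mul_pow, ← hu]
    ring
  have h2 : g ^ n = y⁻¹ * (((u : V) * c ^ n : V) : F) := by
    have := congrArg (fun z : V => (z : F)) h1
    simpa using this
  rw [h2, mul_comm y⁻¹, mul_assoc, inv_mul_cancel₀ hy0, mul_one]
  exact ((u : V) * c ^ n : V).2

end Rank

section Finite

variable {K F : Type*} [Field K] [Field F] [Algebra K F]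

/-- zeros and poles are finite in number -/
theorem finite_ord_ne_zero [HasPrincipalDivisors K F] {f : F} (hf : f ≠ 0) :
    {v : Place K F | v.ord f ≠ 0}.Finite := by
  obtain ⟨D, hD, -⟩ := HasPrincipalDivisors.exists_divisor (K := K) f hf
  refine D.support.finite_toSet.subset fun v hv => ?_
  rw [Finset.mem_coe, Finsupp.mem_support_iff, hD v]
  exact hv

end Finite

section Chart

variable {O : Type*} [CommRing O] [IsDomain O] [IsDiscreteValuationRing O] {K : Type*} [Field K]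
  [Algebra O K] [IsFractionRing O K] [CharZero K] {F : Type*} [Field F] [Algebra K F]
  [Algebra O F] [IsScalarTower O K F]
  (Vert : Set (ValuationSubring F)) (hO : ∀ W ∈ Vert, ∀ c : O, algebraMap O F c ∈ W)

include hO in
/-- the chart ring lies in the ring of `U = {φ ≠ ∞}` -/
theorem chart_le_ring {φ : F} (hφV : ∀ W ∈ Vert, φ ∈ W) {x : F} (hx : x ∈ chart O φ) :
    x ∈ ring Vert (finiteAt (K := K) φ) :=
  (mem_ring Vert).2 ⟨fun W hW => mem_of_mem_chart hx W (hO W hW) (hφV W hW),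
    fun v hv => mem_place_of_mem_chart hx v hv⟩

/-- **the ring of `U = {φ ≠ ∞}` is the chart ring**, when `Vert` contains the Gauss valuation
subrings -/
theorem ring_le_chart {π : O} (hπ : Irreducible π) {φ : F} (hφ : Transcendental K φ)
    [FiniteDimensional K⟮φ⟯ F]
    (hvert : ∀ W : ValuationSubring F, (∀ c : O, algebraMap O F c ∈ W) → φ ∈ W →
      (algebraMap O F π)⁻¹ ∉ W →
      (∀ s : O[X], (∃ i, IsUnit (s.coeff i)) → (aeval φ s)⁻¹ ∈ W) → W ∈ Vert)
    {x : F} (hx : x ∈ ring Vert (finiteAt (K := K) φ)) : x ∈ chart O φ :=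
  mem_chart_of_places hπ hφ x (fun W h1 h2 h3 h4 => ((mem_ring Vert).1 hx).1 W (hvert W h1 h2 h3 h4))
    fun v hv => ((mem_ring Vert).1 hx).2 v hv

/-- an element of the chart ring vanishing at a given place finite at `φ` -/
theorem exists_mem_chart_ord_pos {φ : F} (hφ : Transcendental K φ) [FiniteDimensional K⟮φ⟯ F]
    (v : Place K F) (hv : φ ∈ v.toValuationSubring) :
    ∃ a : F, a ∈ chart O φ ∧ a ≠ 0 ∧ 0 < v.ord a := by
  have : IsFractionRing (chart O φ) F := chart_isFractionRing (O := O) (K := K) hφ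
  -- an element of positive order
  obtain ⟨x, hx⟩ : ∃ x : F, x ∉ v.toValuationSubring := by
    by_contra h
    push Not at h
    exact v.ne_top' (SetLike.ext fun x => ⟨fun _ => ValuationSubring.mem_top x, fun _ => h x⟩)
  have hx0 : x ≠ 0 := by
    rintro rfl
    exact hx v.toValuationSubring.zero_mem
  have hxneg : v.ord x < 0 := by
    by_contra h
    exact hx ((mem_iff_ord v hx0).2 (not_lt.1 h))
  obtain ⟨a, b, hb, hab⟩ := IsFractionRing.div_surjective (A := chart O φ) x⁻¹
  have hb0 : (b : F) ≠ 0 := by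
    have := nonZeroDivisors.ne_zero hb
    intro h
    exact this (Subtype.ext h)
  have ha0 : (a : F) ≠ 0 := by
    intro h
    have h1 : algebraMap (chart O φ) F a = 0 := h
    rw [h1, zero_div] at hab
    exact inv_ne_zero hx0 hab.symm
  refine ⟨a, a.2, ha0, ?_⟩
  have hbv : 0 ≤ v.ord (b : F) := (mem_iff_ord v hb0).1 (mem_place_of_mem_chart b.2 v hv)
  have hab' : (a : F) = x⁻¹ * (b : F) := by
    have h1 : (a : F) / (b : F) = x⁻¹ := hab
    rw [← h1, div_mul_cancel₀ _ hb0]
  rw [hab', v.ord_mul (inv_ne_zero hx0) hb0, v.ord_inv]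
  omega

/-- **a common denominator** of the lattice on `U = {φ ≠ ∞}` -/
theorem exists_mul_lat_le_ring {φ : F} (hφ : Transcendental K φ) [FiniteDimensional K⟮φ⟯ F]
    (hφV : ∀ W ∈ Vert, φ ∈ W) (D : Place K F → ℤ)
    (hD : {v : Place K F | v ∈ finiteAt (K := K) φ ∧ 0 < D v}.Finite) :
    ∃ d : F, d ≠ 0 ∧ ∀ x ∈ lat Vert hO D (finiteAt (K := K) φ),
      d * x ∈ ring Vert (finiteAt (K := K) φ) := by
  classical
  choose! a ha using fun v : Place K F => fun hv : φ ∈ v.toValuationSubring =>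
    exists_mem_chart_ord_pos (O := O) hφ v hv
  set T : Finset (Place K F) := hD.toFinset with hT
  have hTmem : ∀ v, v ∈ T ↔ v ∈ finiteAt (K := K) φ ∧ 0 < D v := fun v => by
    rw [hT, Set.Finite.mem_toFinset]; rfl
  set d : F := ∏ u ∈ T, a u ^ (D u).toNat with hd
  have hau : ∀ u ∈ T, a u ∈ chart O φ ∧ a u ≠ 0 ∧ 0 < u.ord (a u) := fun u hu =>
    ha u ((hTmem u).1 hu).1
  have hd0 : d ≠ 0 := Finset.prod_ne_zero_iff.2 fun u hu => pow_ne_zero _ (hau u hu).2.1
  have hdchart : d ∈ chart O φ :=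
    Subalgebra.prod_mem _ fun u hu => Subalgebra.pow_mem _ (hau u hu).1 _
  have hdring : d ∈ ring Vert (finiteAt (K := K) φ) := chart_le_ring Vert hO hφV hdchart
  -- the order of `d` at a place finite at `φ`
  have hford : ∀ v ∈ finiteAt (K := K) φ, ∀ u ∈ T, 0 ≤ v.ord (a u ^ (D u).toNat) := by
    intro v hv u hu
    rw [ord_pow]
    have : 0 ≤ v.ord (a u) :=
      (mem_iff_ord v (hau u hu).2.1).1 (mem_place_of_mem_chart (hau u hu).1 v hv)
    positivity
  have hordd : ∀ v ∈ finiteAt (K := K) φ, D v ≤ v.ord d ∧ 0 ≤ v.ord d := by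
    intro v hv
    have h0 : 0 ≤ v.ord d := (mem_iff_ord v hd0).1 (((mem_ring Vert).1 hdring).2 v hv)
    refine ⟨?_, h0⟩
    by_cases hDv : 0 < D v
    · have hvT : v ∈ T := (hTmem v).2 ⟨hv, hDv⟩
      have hsplit : d = a v ^ (D v).toNat * ∏ u ∈ T.erase v, a u ^ (D u).toNat := by
        rw [hd, ← Finset.mul_prod_erase T _ hvT]
      have hrest0 : (∏ u ∈ T.erase v, a u ^ (D u).toNat) ≠ 0 :=
        Finset.prod_ne_zero_iff.2 fun u hu =>
          pow_ne_zero _ (hau u (Finset.mem_of_mem_erase hu)).2.1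
      have hrestchart : (∏ u ∈ T.erase v, a u ^ (D u).toNat) ∈ chart O φ :=
        Subalgebra.prod_mem _ fun u hu =>
          Subalgebra.pow_mem _ (hau u (Finset.mem_of_mem_erase hu)).1 _
      have hrest : 0 ≤ v.ord (∏ u ∈ T.erase v, a u ^ (D u).toNat) :=
        (mem_iff_ord v hrest0).1 (mem_place_of_mem_chart hrestchart v hv)
      rw [hsplit, v.ord_mul (pow_ne_zero _ (hau v hvT).2.1) hrest0, ord_pow]
      have h1 : 1 ≤ v.ord (a v) := (hau v hvT).2.2
      have h2 : ((D v).toNat : ℤ) = D v := Int.toNat_of_nonneg hDv.le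
      nlinarith
    · exact le_trans (not_lt.1 hDv) h0
  refine ⟨d, hd0, fun x hx => ?_⟩
  rcases eq_or_ne x 0 with rfl | hx0
  · rw [mul_zero]; exact Subring.zero_mem _
  obtain ⟨hxV, hxv⟩ := (mem_lat Vert hO).1 hx
  refine (mem_ring Vert).2 ⟨fun W hW => W.mul_mem _ _ (((mem_ring Vert).1 hdring).1 W hW) (hxV W hW),
    fun v hv => ?_⟩
  rw [mem_iff_ord v (mul_ne_zero hd0 hx0), v.ord_mul hd0 hx0]
  have := hxv v hv hx0
  have := (hordd v hv).1
  omega

/-- **`H¹` of the lattice charts is finitely generated**, when `Vert` contains the Gauss valuation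
subrings of the chart `U = {φ ≠ ∞}`. -/
theorem finiteH1_charts {π : O} (hπ : Irreducible π) {φ : F} (hφ : Transcendental K φ)
    [FiniteDimensional K⟮φ⟯ F]
    (hvert : ∀ W : ValuationSubring F, (∀ c : O, algebraMap O F c ∈ W) → φ ∈ W →
      (algebraMap O F π)⁻¹ ∉ W →
      (∀ s : O[X], (∃ i, IsUnit (s.coeff i)) → (aeval φ s)⁻¹ ∈ W) → W ∈ Vert)
    (hφ0 : φ ≠ 0) (hφV : ∀ W ∈ Vert, φ ∈ W) (hφV' : ∀ W ∈ Vert, φ⁻¹ ∈ W)
    (hφfin : {v : Place K F | v.ord φ ≠ 0}.Finite) (D : Place K F → ℤ)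
    (hD : {v : Place K F | v ∈ finiteAt (K := K) φ ∧ 0 < D v}.Finite)
    (ϖ : O) (hϖ0 : algebraMap O F ϖ ≠ 0) {ι ι' : Type*}
    (g : ι → ring Vert (finiteAt (K := K) φ))
    (hcover : Ideal.span (Set.range g) ⊔ Ideal.span
      {(⟨algebraMap O F ϖ, algebraMap_mem_ring Vert hO _ ϖ⟩ : ring Vert (finiteAt (K := K) φ))}
        = ⊤)
    (g' : ι' → ring Vert (finiteAt (K := K) φ⁻¹))
    (hcover' : Ideal.span (Set.range g') ⊔ Ideal.span
      {(⟨algebraMap O F ϖ, algebraMap_mem_ring Vert hO _ ϖ⟩ :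
        ring Vert (finiteAt (K := K) φ⁻¹))} = ⊤) :
    (charts Vert hO hφ0 hφV hφV' hφfin D ϖ hϖ0 g hcover g' hcover').FiniteH1 := by
  obtain ⟨d, hd0, hd⟩ := exists_mul_lat_le_ring Vert hO hφ hφV D hD
  have hφ' : Transcendental K
      (charts Vert hO hφ0 hφV hφV' hφfin D ϖ hϖ0 g hcover g' hcover').φ := hφ
  have : FiniteDimensional
      K⟮(charts Vert hO hφ0 hφV hφV' hφfin D ϖ hϖ0 g hcover g' hcover').φ⟯ F :=
    ‹FiniteDimensional K⟮φ⟯ F›
  exact Charts.finiteH1_of_isIntegral (K := K)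
    (charts Vert hO hφ0 hφV hφV' hφfin D ϖ hϖ0 g hcover g' hcover') hφ' hd0
    fun x hx => ring_le_chart Vert hπ hφ hvert (hd x hx)

end Chart

namespace VInput

variable {O : Type*} [CommRing O] [IsDomain O] [IsDiscreteValuationRing O] {K : Type*} [Field K]
  [Algebra O K] [IsFractionRing O K] [CharZero K] {F : Type*} [Field F] [Algebra K F]
  [Algebra O F] [IsScalarTower O K F] {𝒲 ι ι' : Type*} (X : VInput O K F 𝒲 ι ι')

/-- `H¹` is finitely generated for the charts of a `VInput`, when the `W w` are all the Gauss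
valuation subrings of the chart `U = {φ ≠ ∞}` (chain (V7)). -/
theorem finiteH1 (hϖ : Irreducible X.ϖ) (hφ : Transcendental K X.φ) [FiniteDimensional K⟮X.φ⟯ F]
    (hvert : ∀ W : ValuationSubring F, (∀ c : O, algebraMap O F c ∈ W) → X.φ ∈ W →
      (algebraMap O F X.ϖ)⁻¹ ∉ W →
      (∀ s : O[X], (∃ i, IsUnit (s.coeff i)) → (aeval X.φ s)⁻¹ ∈ W) → W ∈ Set.range X.W) :
    X.charts.FiniteH1 := by
  refine finiteH1_charts (Set.range X.W) X.hO hϖ hφ hvert X.hφ0 X.hφV X.hφV'
    (X.hfinAll X.φ X.hφ0) (fun v => X.D v) ?_ X.ϖ X.hϖ0 X.g X.hcover X.g' X.hcover'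
  refine X.D.support.finite_toSet.subset fun v hv => ?_
  rw [Finset.mem_coe, Finsupp.mem_support_iff]
  exact ne_of_gt hv.2

/-- **(V16) in valuation language, with no finiteness hypothesis**: if the `W w` are all the Gauss
valuation subrings of the chart `U = {φ ≠ ∞}`, then `D` is principal. -/
theorem isPrincipal_of_vert [Fintype 𝒲] [Fintype ι] [Fintype ι'] [HasPrincipalDivisors K F]
    (hϖ : Irreducible X.ϖ) (hφ : Transcendental K X.φ) [FiniteDimensional K⟮X.φ⟯ F]
    (hvert : ∀ W : ValuationSubring F, (∀ c : O, algebraMap O F c ∈ W) → X.φ ∈ W →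
      (algebraMap O F X.ϖ)⁻¹ ∉ W →
      (∀ s : O[X], (∃ i, IsUnit (s.coeff i)) → (aeval X.φ s)⁻¹ ∈ W) → W ∈ Set.range X.W)
    (hdeg : ∀ v : Place K F, 0 < v.deg) (hD : Divisor.degree X.D = 0) :
    Divisor.IsPrincipal X.D :=
  X.isPrincipal hdeg hD (X.finiteH1 hϖ hφ hvert)

end VInput

end Fermat.Agent.S36.Lattice
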