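import Fermat.Agent.S36.FormalLift.LatticeFinite

/-!
# PROJECT V (S36), chain (V16) (helper24): the output of the soft core as a global section

The form of `VInput.isPrincipal` that needs NO degree theory over the base field `K` (helper14's
`GlobalSectionBar` finishes over the algebraic closure): a `VInput` produces `h ≠ 0` with
`ord_v h ≥ -D v` at EVERY `K`-place `v`.

* `VInput.exists_section` : from `X.charts.FiniteH1`;
* `VInput.exists_section_of_vert` : from `hvert` (the `W w` are all the Gauss valuation subrings of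
  the chart `U = {φ ≠ ∞}`, chain (V7)).
-/

set_option autoImplicit false

namespace Fermat.Agent.S36.Lattice

open AlgebraicCurve Fermat.Agent.S36.FormalLift Fermat.Agent.S36.SoftCore
  Fermat.Agent.S36.SoftCoreInput IntermediateField Polynomial

namespace VInput

section General

variable {O K F : Type*} [CommRing O] [Field K] [Field F] [Algebra O K] [Algebra K F]
  [Algebra O F] [IsScalarTower O K F] {𝒲 ι ι' : Type*} (X : VInput O K F 𝒲 ι ι')

/-- **The output of the soft core**: a nonzero global section of `O(D)`. -/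
theorem exists_section [Fintype 𝒲] [Fintype ι] [Fintype ι'] [IsNoetherianRing O]
    (hfin : X.charts.FiniteH1) : ∃ h : F, h ≠ 0 ∧ ∀ v : Place K F, -X.D v ≤ v.ord h := by
  obtain ⟨h, hh0, h1, h2⟩ :=
    exists_global_section_of_generic X.charts X.localGen hfin X.genericRoot
  exact ⟨h, hh0, ord_ge_of_mem_lat_inf (Set.range X.W) X.hO (fun v => X.D v) X.φ hh0 h1 h2⟩

end General

section DVR

variable {O : Type*} [CommRing O] [IsDomain O] [IsDiscreteValuationRing O] {K : Type*} [Field K]
  [Algebra O K] [IsFractionRing O K] [CharZero K] {F : Type*} [Field F] [Algebra K F]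
  [Algebra O F] [IsScalarTower O K F] {𝒲 ι ι' : Type*} (X : VInput O K F 𝒲 ι ι')

/-- **The output of the soft core, no finiteness hypothesis**: if the `W w` are all the Gauss
valuation subrings of the chart `U = {φ ≠ ∞}`, there is a nonzero global section of `O(D)`. -/
theorem exists_section_of_vert [Fintype 𝒲] [Fintype ι] [Fintype ι']
    (hϖ : Irreducible X.ϖ) (hφ : Transcendental K X.φ) [FiniteDimensional K⟮X.φ⟯ F]
    (hvert : ∀ W : ValuationSubring F, (∀ c : O, algebraMap O F c ∈ W) → X.φ ∈ W →
      (algebraMap O F X.ϖ)⁻¹ ∉ W →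
      (∀ s : O[X], (∃ i, IsUnit (s.coeff i)) → (aeval X.φ s)⁻¹ ∈ W) → W ∈ Set.range X.W) :
    ∃ h : F, h ≠ 0 ∧ ∀ v : Place K F, -X.D v ≤ v.ord h :=
  X.exists_section (X.finiteH1 hϖ hφ hvert)

end DVR

end VInput

end Fermat.Agent.S36.Lattice
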