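import Mathlib

/-!
# PROJECT V (S36), soft core, helper24: approximate `n`-th roots modulo `ϖ ^ m`

Mathlib only.  The deformation step of the formal-lifting core (board #2470 (R4), #2471): a line
bundle `𝓛` on a model `X` with `𝓛 ^ n ≅ 𝓞` via `f`, `n` invertible on the special fibre, whose
restriction to the REDUCED special fibre has a generator `t` with `t ^ n = f`, is trivial on every
infinitesimal neighbourhood `X ⊗ 𝓞 / ϖ ^ m`: the `n`-th root lifts uniquely through the nil ideal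
`rad (ϖ) / (ϖ ^ m)` (Newton's method, `Polynomial.existsUnique_nilpotent_sub_and_aeval_eq_zero`).
Non-reduced fibres, embedded structure and multiplicities play no role.

* `exists_root_mod_pow` : existence in a commutative ring `S`.
* `root_unique_mod_pow` : uniqueness (two approximate roots with the same reduction agree modulo
  `ϖ ^ m`); this is what makes the local trivialisations glue.
-/

set_option autoImplicit false

namespace Fermat.Agent.S36.FormalLift

open Polynomial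

section NthRoot

variable {S : Type*} [CommRing S]

/-- the polynomial `w X ^ n - 1` -/
noncomputable def rootPoly (w : S) (n : ℕ) : S[X] := C w * X ^ n - 1

theorem aeval_rootPoly (w x : S) (n : ℕ) : aeval x (rootPoly w n) = w * x ^ n - 1 := by
  simp [rootPoly]

theorem aeval_derivative_rootPoly (w x : S) (n : ℕ) :
    aeval x (derivative (rootPoly w n)) = w * ((n : S) * x ^ (n - 1)) := by
  simp [rootPoly, derivative_X_pow]

/-- if `w x ^ n - 1` is nilpotent, `0 < n` and `n` is a unit, then the derivative of `w X ^ n - 1`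
at `x` is a unit -/
theorem isUnit_aeval_derivative_rootPoly {w x : S} {n : ℕ} (hn0 : 0 < n) (hn : IsUnit (n : S))
    (h : IsNilpotent (w * x ^ n - 1)) : IsUnit (aeval x (derivative (rootPoly w n))) := by
  rw [aeval_derivative_rootPoly]
  have h1 : IsUnit (w * x ^ n) := by
    have : w * x ^ n = 1 + (w * x ^ n - 1) := by ring
    rw [this]
    exact IsNilpotent.isUnit_one_add h
  have hw : IsUnit w := isUnit_of_mul_isUnit_left h1
  have hx : IsUnit x := by
    have : IsUnit (x ^ n) := isUnit_of_mul_isUnit_right h1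
    exact (isUnit_pow_iff (Nat.pos_iff_ne_zero.mp hn0)).mp this
  exact hw.mul (hn.mul (hx.pow _))

/-- `n` is a unit modulo `ϖ ^ m` if it is one modulo `ϖ` -/
theorem isUnit_natCast_mk_pow {ϖ : S} {n : ℕ} (hn : ∃ n' c : S, (n : S) * n' = 1 + ϖ * c)
    (m : ℕ) : IsUnit ((n : ℕ) : S ⧸ Ideal.span {ϖ ^ m}) := by
  obtain ⟨n', c, h⟩ := hn
  set π := Ideal.Quotient.mk (Ideal.span {ϖ ^ m}) with hπ
  have hnil : IsNilpotent (π (ϖ * c)) := by
    refine ⟨m, ?_⟩
    rw [← map_pow, mul_pow, hπ, Ideal.Quotient.eq_zero_iff_mem]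
    exact Ideal.mul_mem_right _ _ (Ideal.mem_span_singleton_self _)
  have h2 : π (n : S) * π n' = 1 + π (ϖ * c) := by
    rw [← map_mul, h, map_add, map_one]
  have h3 : IsUnit (π (n : S) * π n') := by
    rw [h2]
    exact IsNilpotent.isUnit_one_add hnil
  have h4 : IsUnit (π (n : S)) := isUnit_of_mul_isUnit_left h3
  simpa [hπ] using h4

/-- an element of the radical of `(ϖ)` is nilpotent modulo `ϖ ^ m` -/
theorem isNilpotent_mk_of_mem_radical {ϖ x : S} (hx : x ∈ (Ideal.span {ϖ}).radical) (m : ℕ) :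
    IsNilpotent (Ideal.Quotient.mk (Ideal.span {ϖ ^ m}) x) := by
  obtain ⟨N, hN⟩ := hx
  obtain ⟨y, hy⟩ := Ideal.mem_span_singleton'.mp hN
  refine ⟨N * m, ?_⟩
  rw [← map_pow, Ideal.Quotient.eq_zero_iff_mem, pow_mul, ← hy, mul_pow]
  exact Ideal.mul_mem_left _ _ (Ideal.mem_span_singleton_self _)

/-- an element nilpotent modulo `ϖ ^ m`, `0 < m`, lies in the radical of `(ϖ)` -/
theorem mem_radical_of_isNilpotent_mk {ϖ x : S} {m : ℕ} (hm : 0 < m)
    (hx : IsNilpotent (Ideal.Quotient.mk (Ideal.span {ϖ ^ m}) x)) :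
    x ∈ (Ideal.span {ϖ}).radical := by
  obtain ⟨N, hN⟩ := hx
  rw [← map_pow, Ideal.Quotient.eq_zero_iff_mem] at hN
  obtain ⟨y, hy⟩ := Ideal.mem_span_singleton'.mp hN
  refine ⟨N, ?_⟩
  rw [← hy]
  obtain ⟨k, rfl⟩ := Nat.exists_eq_succ_of_ne_zero (Nat.pos_iff_ne_zero.mp hm)
  rw [pow_succ, ← mul_assoc]
  exact Ideal.mul_mem_left _ _ (Ideal.mem_span_singleton_self _)

/-- **Approximate `n`-th roots lift through thickenings.**  If `w t ^ n ≡ 1` modulo the radical of
`(ϖ)` and `n` is invertible modulo `ϖ`, then for every `m` there is `v ≡ t` modulo the radical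
with `w v ^ n ≡ 1` modulo `ϖ ^ m`. -/
theorem exists_root_mod_pow {ϖ w t : S} {n : ℕ} (hn0 : 0 < n)
    (hn : ∃ n' c : S, (n : S) * n' = 1 + ϖ * c)
    (hwt : w * t ^ n - 1 ∈ (Ideal.span {ϖ}).radical) (m : ℕ) :
    ∃ v : S, w * v ^ n - 1 ∈ Ideal.span {ϖ ^ m} ∧ v - t ∈ (Ideal.span {ϖ}).radical := by
  rcases Nat.eq_zero_or_pos m with rfl | hm
  · refine ⟨t, ?_, by simp⟩
    rw [pow_zero, Ideal.span_singleton_one]
    trivial
  set π := Ideal.Quotient.mk (Ideal.span {ϖ ^ m}) with hπ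
  have hnil : IsNilpotent (π w * π t ^ n - 1) := by
    have := isNilpotent_mk_of_mem_radical hwt m
    simpa [hπ] using this
  have hP : IsNilpotent (aeval (π t) (rootPoly (π w) n)) := by rwa [aeval_rootPoly]
  have hP' : IsUnit (aeval (π t) (derivative (rootPoly (π w) n))) :=
    isUnit_aeval_derivative_rootPoly hn0 (isUnit_natCast_mk_pow hn m) hnil
  obtain ⟨r, ⟨hr1, hr2⟩, -⟩ := existsUnique_nilpotent_sub_and_aeval_eq_zero hP hP'
  obtain ⟨v, rfl⟩ := Ideal.Quotient.mk_surjective r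
  refine ⟨v, ?_, ?_⟩
  · rw [aeval_rootPoly] at hr2
    rw [← Ideal.Quotient.eq_zero_iff_mem, ← hπ, map_sub, map_mul, map_pow, map_one]
    exact hr2
  · apply mem_radical_of_isNilpotent_mk hm
    have : Ideal.Quotient.mk (Ideal.span {ϖ ^ m}) (v - t) = -(π t - π v) := by
      rw [map_sub, hπ]; ring
    rw [this]
    exact hr1.neg

/-- **Uniqueness of approximate `n`-th roots with given reduction.** -/
theorem root_unique_mod_pow {ϖ w v₁ v₂ : S} {n : ℕ} (hn0 : 0 < n)
    (hn : ∃ n' c : S, (n : S) * n' = 1 + ϖ * c) {m : ℕ}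
    (h₁ : w * v₁ ^ n - 1 ∈ Ideal.span {ϖ ^ m}) (h₂ : w * v₂ ^ n - 1 ∈ Ideal.span {ϖ ^ m})
    (h : v₁ - v₂ ∈ (Ideal.span {ϖ}).radical) : v₁ - v₂ ∈ Ideal.span {ϖ ^ m} := by
  set π := Ideal.Quotient.mk (Ideal.span {ϖ ^ m}) with hπ
  have e₁ : π w * π v₁ ^ n - 1 = 0 := by
    rw [← map_pow, ← map_mul, ← map_one π, ← map_sub, hπ, Ideal.Quotient.eq_zero_iff_mem]
    exact h₁
  have e₂ : π w * π v₂ ^ n - 1 = 0 := by
    rw [← map_pow, ← map_mul, ← map_one π, ← map_sub, hπ, Ideal.Quotient.eq_zero_iff_mem]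
    exact h₂
  have hP : IsNilpotent (aeval (π v₁) (rootPoly (π w) n)) := by
    rw [aeval_rootPoly, e₁]; exact IsNilpotent.zero
  have hP' : IsUnit (aeval (π v₁) (derivative (rootPoly (π w) n))) :=
    isUnit_aeval_derivative_rootPoly hn0 (isUnit_natCast_mk_pow hn m)
      (by rw [e₁]; exact IsNilpotent.zero)
  have huniq := (existsUnique_nilpotent_sub_and_aeval_eq_zero hP hP').unique
    (y₁ := π v₁) (y₂ := π v₂) ⟨by simp, by rw [aeval_rootPoly, e₁]⟩
    ⟨by
      have := isNilpotent_mk_of_mem_radical h m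
      simpa [hπ] using this, by rw [aeval_rootPoly, e₂]⟩
  rw [← Ideal.Quotient.eq_zero_iff_mem, map_sub, ← hπ, huniq, sub_self]

end NthRoot

end Fermat.Agent.S36.FormalLift
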